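import Fermat.Agent.S55.B.Basic

/-!
# S55/B : Galois theory for "open" subgroups: separation, primitive elements, `Cyc` from group theory   (ABSTRACT)
(key `S55/B-PRIM` = `exists_moved`, `exists_prim`, `cyc_of_open`;  key `S55/B-INT2` = `exists_coeffs_stab`)

`Ω/K` Galois (possibly infinite).  `H' ≤ H` arbitrary subgroups of `Gal(Ω/K)` with `H ⊓ F.fixingSubgroup ≤ H'`, `F/K` finite.

## `exists_moved`   (`σ ∈ H`, `σ ∉ H'` `⇒` `σ` moves an element of `Fx H'`)
Let `N = normalClosure K F Ω` (finite Galois over `K`), `r : Gal(Ω/K) → Gal(N/K)` the restriction (`AlgEquiv.restrictNormalHom N`),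
`B = H'.map r`.  `fixedField B ⊆ N` maps into `Fx H'`.  If `σ` fixes `Fx H'` pointwise then `r σ` fixes `fixedField B`, so `r σ ∈ B`
(`IntermediateField.fixingSubgroup_fixedField`, finite Galois correspondence): `r σ = r h'`, `h' ∈ H'`, so
`h'⁻¹ σ ∈ H ⊓ N.fixingSubgroup ≤ H ⊓ F.fixingSubgroup ≤ H'` and `σ ∈ H'`.

## `exists_prim`
For `0 < i < n` the set `V_i = {x ∈ Fx H' | s^i x = x}` is a proper `K`-subspace of `Fx H'` (`exists_moved`), `K` is infinite: a vector space over an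
infinite field is not a finite union of proper subspaces (`Subspace.biUnion_ne_univ_of_top_notMem` or
`Module.exists_...`; search `biUnion_ne_univ`).  `θ ∉ ⋃ V_i`; `s^i θ = s^j θ`, `i < j` `⇒` `s^(j-i) θ = θ`.

## `exists_coeffs_stab`   (no normality, no cyclicity)
`T` = the `H`-orbit of `θ`, finite by hypothesis.  For `η = σ θ ∈ T` put `x_η = σ x` (well defined since `x ∈ Fx (stab H θ)`).
`P = Lagrange.interpolate T id x_·`; `P.map τ = P` for `τ ∈ H` (same nodes, same values; `Polynomial.eq_of_degrees_lt_of_eval_index_eq`).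
`x = P(θ)`.
-/

set_option autoImplicit false

namespace Fermat.Agent.S55.B

variable {K Ω : Type*} [Field K] [Field Ω] [Algebra K Ω]
variable {H H' : Subgroup (Ω ≃ₐ[K] Ω)} {s : Ω ≃ₐ[K] Ω} {n : ℕ}

/-- separation: an "open" subgroup `H'` of `H` is the stabiliser in `H` of its fixed field -/
theorem exists_moved [IsGalois K Ω] (F : IntermediateField K Ω) [FiniteDimensional K F]
    (hF : H ⊓ F.fixingSubgroup ≤ H') (hle : H' ≤ H) {σ : Ω ≃ₐ[K] Ω} (hσ : σ ∈ H) (hσ' : σ ∉ H') :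
    ∃ x ∈ Fx H', σ x ≠ x := by
  by_contra hcon
  push Not at hcon
  apply hσ'
  let N : IntermediateField K Ω := IntermediateField.normalClosure K F Ω
  have hFN : F ≤ N := IntermediateField.le_normalClosure F
  have hstab : ∀ (g : Ω ≃ₐ[K] Ω) (x : Ω), x ∈ N → g x ∈ N := by
    intro g x hx
    have hN : Normal K N := normalClosure.normal K F Ω
    have := IntermediateField.normal_iff_forall_map_le'.mp hN g
    exact this ⟨x, hx, rfl⟩
  let P : Subgroup (Ω ≃ₐ[K] Ω) :=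
    { carrier := {g | ∃ h ∈ H', ∀ x ∈ N, g x = h x}
      one_mem' := ⟨1, H'.one_mem, fun x _ => rfl⟩
      mul_mem' := by
        rintro g g' ⟨h, hh, e⟩ ⟨h', hh', e'⟩
        refine ⟨h * h', H'.mul_mem hh hh', fun x hx => ?_⟩
        rw [AlgEquiv.mul_apply, AlgEquiv.mul_apply, e' x hx, e _ (hstab _ x hx)]
      inv_mem' := by
        rintro g ⟨h, hh, e⟩
        refine ⟨h⁻¹, H'.inv_mem hh, fun x hx => ?_⟩
        have h1 : g⁻¹ x ∈ N := hstab _ x hx
        have h2 := e _ h1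
        rw [apply_inv_apply] at h2
        conv_rhs => rw [h2, inv_apply_apply] }
  have hleP : N.fixingSubgroup ≤ P := by
    intro g hg
    refine ⟨1, H'.one_mem, fun x hx => ?_⟩
    rw [AlgEquiv.one_apply]
    exact (IntermediateField.mem_fixingSubgroup_iff N g).mp hg x hx
  have hNfin : FiniteDimensional K N := normalClosure.is_finiteDimensional K F Ω
  have hopen : IsOpen (P : Set (Ω ≃ₐ[K] Ω)) := Subgroup.isOpen_mono hleP N.fixingSubgroup_isOpen
  have hclosed : IsClosed (P : Set (Ω ≃ₐ[K] Ω)) := Subgroup.isClosed_of_isOpen P hopen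
  have hfix := InfiniteGalois.fixingSubgroup_fixedField (⟨P, hclosed⟩ : ClosedSubgroup (Ω ≃ₐ[K] Ω))
  have hmem : σ ∈ (IntermediateField.fixedField P).fixingSubgroup := by
    rw [IntermediateField.mem_fixingSubgroup_iff]
    intro z hz
    refine hcon z (mem_Fx.2 fun h hh => ?_)
    exact (IntermediateField.mem_fixedField_iff P z).mp hz h ⟨h, hh, fun _ _ => rfl⟩
  have hσP : σ ∈ P := by
    have : (IntermediateField.fixedField P).fixingSubgroup = P := hfix
    rw [this] at hmem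
    exact hmem
  obtain ⟨h, hh, e⟩ := hσP
  have h1 : h⁻¹ * σ ∈ H ⊓ F.fixingSubgroup := by
    refine ⟨H.mul_mem (H.inv_mem (hle hh)) hσ, ?_⟩
    change h⁻¹ * σ ∈ F.fixingSubgroup
    rw [IntermediateField.mem_fixingSubgroup_iff]
    intro x hx
    rw [AlgEquiv.mul_apply, e x (hFN hx), inv_apply_apply]
  have h2 := H'.mul_mem hh (hF h1)
  rwa [mul_inv_cancel_left] at h2

theorem exists_prim [IsGalois K Ω] [Infinite K] (F : IntermediateField K Ω) [FiniteDimensional K F]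
    (hF : H ⊓ F.fixingSubgroup ≤ H') (hle : H' ≤ H) (hs : s ∈ H)
    (hmin : ∀ i, 0 < i → i < n → s ^ i ∉ H') :
    ∃ θ ∈ Fx H', ∀ i < n, ∀ j < n, (s ^ i) θ = (s ^ j) θ → i = j := by
  -- an element moved by all `s ^ d`
  have key : ∃ θ ∈ Fx H', ∀ d, 0 < d → d < n → (s ^ d) θ ≠ θ := by
    by_contra hcon
    push Not at hcon
    let V : Set.Ioo 0 n → Subspace K (Fx H') := fun d =>
      { carrier := {x | (s ^ (d : ℕ)) (x : Ω) = x}
        add_mem' := by
          intro a b ha hb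
          change (s ^ (d : ℕ)) ((a : Ω) + b) = (a : Ω) + b
          rw [map_add, ha, hb]
        zero_mem' := map_zero _
        smul_mem' := by
          intro c a ha
          change (s ^ (d : ℕ)) (c • (a : Ω)) = c • (a : Ω)
          rw [map_smul, ha] }
    have hcov : ⋃ d, (V d : Set (Fx H')) = Set.univ := by
      rw [Set.eq_univ_iff_forall]
      intro x
      obtain ⟨d, h0, h1, h2⟩ := hcon x x.2
      exact Set.mem_iUnion.2 ⟨⟨d, h0, h1⟩, h2⟩
    obtain ⟨d, hd⟩ := Subspace.exists_eq_top_of_iUnion_eq_univ hcov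
    obtain ⟨x, hx, hne⟩ := exists_moved F hF hle (H.pow_mem hs (d : ℕ)) (hmin d d.2.1 d.2.2)
    apply hne
    have : (⟨x, hx⟩ : Fx H') ∈ V d := by rw [hd]; trivial
    exact this
  obtain ⟨θ, hθ, hne⟩ := key
  refine ⟨θ, hθ, ?_⟩
  have aux : ∀ i j, i < j → j < n → (s ^ i) θ = (s ^ j) θ → False := by
    intro i j hij hj h
    refine hne (j - i) (by omega) (by omega) ?_
    have e : j = i + (j - i) := by omega
    rw [e, pow_add_apply] at h
    exact ((s ^ i).injective h).symm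
  intro i hi j hj h
  rcases lt_trichotomy i j with hij | hij | hij
  · exact (aux i j hij hj h).elim
  · exact hij
  · exact (aux j i hij hi h.symm).elim

/-- `Cyc` from group theory -/
theorem cyc_of_open [IsGalois K Ω] [Infinite K] (F : IntermediateField K Ω) [FiniteDimensional K F]
    (hF : H ⊓ F.fixingSubgroup ≤ H') (hle : H' ≤ H) (hs : s ∈ H) (hn : 0 < n)
    (hconj : ∀ h ∈ H', s * h * s⁻¹ ∈ H' ∧ s⁻¹ * h * s ∈ H')
    (hgen : ∀ σ ∈ H, ∃ i < n, (s ^ i)⁻¹ * σ ∈ H') (hpow : s ^ n ∈ H')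
    (hmin : ∀ i, 0 < i → i < n → s ^ i ∉ H') : Cyc H H' s n :=
  ⟨hn, hle, hs, hconj, hgen, hpow, exists_prim F hF hle hs hmin⟩

open Polynomial in
theorem eval_interp_aux [DecidableEq Ω] (T : Finset Ω) (r : Ω → Ω) {y : Ω} (hy : y ∈ T) :
    (Lagrange.interpolate T id r).eval y = r y :=
  Lagrange.eval_interpolate_at_node r Function.injective_id.injOn hy

open Polynomial in
/-- an automorphism permuting the interpolation data fixes the interpolation polynomial -/
theorem map_interp_aux [DecidableEq Ω] (T : Finset Ω) (r : Ω → Ω) (τ : Ω ≃ₐ[K] Ω)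
    (h : ∀ y ∈ T, ∃ z ∈ T, τ z = y ∧ τ (r z) = r y) :
    (Lagrange.interpolate T id r).map ((τ : Ω ≃ₐ[K] Ω) : Ω →+* Ω) = Lagrange.interpolate T id r := by
  have hv : Set.InjOn (id : Ω → Ω) (T : Set Ω) := Function.injective_id.injOn
  have hdeg := Lagrange.degree_interpolate_lt r hv
  refine Polynomial.eq_of_degrees_lt_of_eval_finset_eq T ?_ hdeg ?_
  · exact lt_of_le_of_lt degree_map_le hdeg
  · intro y hy
    obtain ⟨z, hz, rfl, h2⟩ := h y hy
    rw [eval_interp_aux T r hy, eval_map]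
    have := Polynomial.eval₂_at_apply (p := Lagrange.interpolate T id r)
      ((τ : Ω ≃ₐ[K] Ω) : Ω →+* Ω) z
    rw [eval_interp_aux T r hz] at this
    exact this.trans h2

open Polynomial in
/-- `Fx (stab H θ) = (Fx H)(θ)` -/
theorem exists_coeffs_stab {θ : Ω} (hfin : {y | ∃ σ ∈ H, σ θ = y}.Finite) {x : Ω}
    (hx : x ∈ Fx (stab H θ)) :
    ∃ (n : ℕ) (c : ℕ → Ω), (∀ i, c i ∈ Fx H) ∧ x = ∑ i ∈ Finset.range n, c i * θ ^ i := by
  classical
  obtain ⟨T, hmemT⟩ : ∃ T : Finset Ω, ∀ y, y ∈ T ↔ ∃ σ ∈ H, σ θ = y :=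
    ⟨hfin.toFinset, fun y => by rw [Set.Finite.mem_toFinset]; rfl⟩
  -- the values
  have hwd : ∀ σ ∈ H, ∀ σ' ∈ H, σ θ = σ' θ → σ x = σ' x := by
    intro σ hσ σ' hσ' h
    have h1 : σ'⁻¹ * σ ∈ stab H θ := by
      refine ⟨H.mul_mem (H.inv_mem hσ') hσ, ?_⟩
      rw [AlgEquiv.mul_apply, h, inv_apply_apply]
    have h2 := mem_Fx.1 hx _ h1
    rw [AlgEquiv.mul_apply] at h2
    have h3 := congrArg σ' h2
    rwa [apply_inv_apply] at h3
  obtain ⟨r, hr⟩ : ∃ r : Ω → Ω, ∀ σ ∈ H, r (σ θ) = σ x := by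
    refine ⟨fun y => if h : ∃ σ ∈ H, σ θ = y then h.choose x else 0, fun σ hσ => ?_⟩
    have h : ∃ σ' ∈ H, σ' θ = σ θ := ⟨σ, hσ, rfl⟩
    simp only [dif_pos h]
    exact hwd _ h.choose_spec.1 σ hσ h.choose_spec.2
  have hmap : ∀ τ ∈ H, (Lagrange.interpolate T id r).map ((τ : Ω ≃ₐ[K] Ω) : Ω →+* Ω) =
      Lagrange.interpolate T id r := by
    intro τ hτ
    refine map_interp_aux T r τ fun y hy => ?_
    obtain ⟨σ, hσ, rfl⟩ := (hmemT y).1 hy
    have hm : τ⁻¹ * σ ∈ H := H.mul_mem (H.inv_mem hτ) hσ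
    refine ⟨(τ⁻¹ * σ) θ, (hmemT _).2 ⟨_, hm, rfl⟩, ?_, ?_⟩
    · rw [AlgEquiv.mul_apply, apply_inv_apply]
    · rw [hr _ hm, hr σ hσ, AlgEquiv.mul_apply, apply_inv_apply]
  refine ⟨(Lagrange.interpolate T id r).natDegree + 1, fun i => (Lagrange.interpolate T id r).coeff i,
    fun i => mem_Fx.2 fun τ hτ => ?_, ?_⟩
  · have := congrArg (fun Q => Q.coeff i) (hmap τ hτ)
    simpa [coeff_map] using this
  · have hθT : θ ∈ T := (hmemT θ).2 ⟨1, H.one_mem, rfl⟩
    have h3 := eval_interp_aux T r hθT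
    have h4 : r θ = x := hr 1 H.one_mem
    rw [h4, eval_eq_sum_range] at h3
    exact h3.symm

end Fermat.Agent.S55.B
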