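import Fermat.Agent.S55.B.Basic

/-!
# S55/B : primitive elements by Lagrange interpolation; Hilbert 90; the bicyclic lemma
(keys `S55/B-INT` = `exists_coeffs`, `exists_ne_zero`;  `S55/B-H90` = `h90`, `bicyclic`)

## `exists_coeffs`
Let `P = Lagrange.interpolate (Finset.range n) (fun i => s^i θ) (fun i => s^i x)` (degree `< n`, `P(s^i θ) = s^i x`).
For `σ ∈ H`, `σ` acts on `Fx H'` as `s^a` (`Cyc.exists_pow`), so `P.map σ` has degree `< n` and takes the value
`s^(i+a) x` at `s^(i+a) θ`, i.e. (indices mod `n`, `Cyc.pow_apply_mod`) the same values as `P` at the same `n` nodes: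
`P.map σ = P` (`Polynomial.eq_of_degrees_lt_of_eval_index_eq`).  Hence the coefficients are in `Fx H`, and
`x = P(θ) = ∑_{i<n} coeff_i θ^i` (`Polynomial.eval_eq_sum_range'`).

## `exists_ne_zero` (Dedekind/Artin via Vandermonde)
If `∑_i a_i (s^i θ)^j = 0` for all `j < n` then the Vandermonde matrix of the distinct nodes `s^i θ` kills `a`, so
`a = 0` (`Matrix.det_vandermonde_ne_zero_iff`, `Matrix.eq_zero_of_vecMul_eq_zero`/`mulVec`).

## `h90`
`θ` from `hc.prim`; `a_i = ∏_{j<i} s^j x ≠ 0`; choose `j` with `y' = ∑_{i<n} a_i s^i(θ^j) ≠ 0`.  Then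
`x * s y' = y'` (shift the index; `a_n = Nm s n x = 1`, `s^n θ = θ`).  Take `y = y'⁻¹`.

## `bicyclic`
`N_φ (s y / y) = s π / π = 1` (`map_Nm_of_comm`), so `s y / y = φ z / z`, `z ∈ Fx H0` (`h1.h90`).  `c := N_s z`.
`φ c / c = N_s (φ z / z) = N_s (s y / y) = 1` (`Nm_apply`), `s c = c` (`apply_Nm`), so `c ∈ Fx H` by `hE`.
If `c = N_s w` with `w ∈ Fx H1` (so `φ w = w`): `N_s (z / w) = 1`, `z / w = s t / t` (`h2.h90`),
`φ z / z = φ (z/w) / (z/w) = s r / r` with `r = φ t / t`; so `s (y / r) = y / r`, `y / r ∈ Fx H2` (`h2.mem_Fx_iff`),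
`N_φ (y / r) = π / 1`.
-/

set_option autoImplicit false

namespace Fermat.Agent.S55.B

open Fermat.Agent.S05 Polynomial

variable {K Ω : Type*} [Field K] [Field Ω] [Algebra K Ω]
variable {H H' : Subgroup (Ω ≃ₐ[K] Ω)} {s : Ω ≃ₐ[K] Ω} {n : ℕ}

/-- an automorphism permuting the interpolation data fixes the interpolation polynomial -/
theorem map_interpolate_aux {v r : ℕ → Ω} (hv : Set.InjOn v (Finset.range n : Set ℕ))
    (σ : Ω ≃ₐ[K] Ω) (π : ℕ → ℕ)
    (h : ∀ i < n, π i < n ∧ σ (v (π i)) = v i ∧ σ (r (π i)) = r i) :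
    (Lagrange.interpolate (Finset.range n) v r).map (σ : Ω →+* Ω) =
      Lagrange.interpolate (Finset.range n) v r := by
  have hdeg := Lagrange.degree_interpolate_lt r hv
  refine Polynomial.eq_of_degrees_lt_of_eval_index_eq (Finset.range n) hv ?_ hdeg ?_
  · exact lt_of_le_of_lt degree_map_le hdeg
  · intro i hi
    obtain ⟨h1, h2, h3⟩ := h i (Finset.mem_range.mp hi)
    rw [Lagrange.eval_interpolate_at_node r hv hi]
    conv_lhs => rw [← h2]
    rw [eval_map]
    have := Polynomial.eval₂_at_apply (p := Lagrange.interpolate (Finset.range n) v r)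
      (σ : Ω →+* Ω) (v (π i))
    rw [Lagrange.eval_interpolate_at_node r hv (Finset.mem_range.mpr h1)] at this
    exact this.trans h3

/-- `Fx H' = Fx H (θ)` for every `θ ∈ Fx H'` with `n` distinct conjugates -/
theorem Cyc.exists_coeffs (hc : Cyc H H' s n) {θ : Ω} (hθ : θ ∈ Fx H')
    (hinj : ∀ i < n, ∀ j < n, (s ^ i) θ = (s ^ j) θ → i = j) {x : Ω} (hx : x ∈ Fx H') :
    ∃ c : ℕ → Ω, (∀ i, c i ∈ Fx H) ∧ x = ∑ i ∈ Finset.range n, c i * θ ^ i := by
  set v : ℕ → Ω := fun i => (s ^ i) θ with hvdef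
  set r : ℕ → Ω := fun i => (s ^ i) x with hrdef
  have hv : Set.InjOn v (Finset.range n : Set ℕ) := by
    intro i hi j hj hij
    exact hinj i (Finset.mem_range.mp hi) j (Finset.mem_range.mp hj) hij
  set P := Lagrange.interpolate (Finset.range n) v r with hP
  have hdeg : P.degree < n := by
    have := Lagrange.degree_interpolate_lt r hv
    rwa [Finset.card_range] at this
  have hnat : P.natDegree < n := by
    by_cases hP0 : P = 0
    · rw [hP0, natDegree_zero]; exact hc.pos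
    · exact (natDegree_lt_iff_degree_lt hP0).mpr hdeg
  have h1 : ∀ h ∈ H', P.map ((h : Ω ≃ₐ[K] Ω) : Ω →+* Ω) = P := by
    intro h hh
    refine map_interpolate_aux hv h id fun i hi => ⟨hi, ?_, ?_⟩
    · exact mem_Fx.1 (hc.pow_map_mem hθ i) h hh
    · exact mem_Fx.1 (hc.pow_map_mem hx i) h hh
  have hstep : ∀ (z : Ω), z ∈ Fx H' → ∀ i < n,
      s ((s ^ (if i = 0 then n - 1 else i - 1)) z) = (s ^ i) z := by
    intro z hz i hi
    rw [← AlgEquiv.mul_apply, ← pow_succ']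
    by_cases h0 : i = 0
    · rw [if_pos h0, h0, Nat.sub_add_cancel hc.pos, hc.pow_apply hz, pow_zero, AlgEquiv.one_apply]
    · rw [if_neg h0, Nat.sub_add_cancel (Nat.pos_of_ne_zero h0)]
  have h2 : P.map ((s : Ω ≃ₐ[K] Ω) : Ω →+* Ω) = P := by
    refine map_interpolate_aux hv s (fun i => if i = 0 then n - 1 else i - 1)
      fun i hi => ⟨?_, hstep θ hθ i hi, hstep x hx i hi⟩
    have := hc.pos
    split_ifs <;> omega
  refine ⟨fun i => P.coeff i, fun i => ?_, ?_⟩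
  · rw [hc.mem_Fx_iff]
    constructor
    · rw [mem_Fx]
      intro h hh
      have := congrArg (fun Q => Q.coeff i) (h1 h hh)
      simpa [coeff_map] using this
    · have := congrArg (fun Q => Q.coeff i) h2
      simpa [coeff_map] using this
  · have h3 : P.eval (v 0) = r 0 :=
      Lagrange.eval_interpolate_at_node r hv (Finset.mem_range.mpr hc.pos)
    have hv0 : v 0 = θ := by simp [hvdef]
    have hr0 : r 0 = x := by simp [hrdef]
    rw [hv0, hr0, eval_eq_sum_range' hnat] at h3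
    exact h3.symm

/-- independence of the characters `s^i`, tested on the powers of a primitive element -/
theorem exists_ne_zero {θ : Ω} (hinj : ∀ i < n, ∀ j < n, (s ^ i) θ = (s ^ j) θ → i = j)
    (a : ℕ → Ω) {i₀ : ℕ} (hi₀ : i₀ < n) (ha : a i₀ ≠ 0) :
    ∃ j < n, ∑ i ∈ Finset.range n, a i * (s ^ i) (θ ^ j) ≠ 0 := by
  by_contra hcon
  push Not at hcon
  let V : Matrix (Fin n) (Fin n) Ω := Matrix.vandermonde fun i : Fin n => (s ^ (i : ℕ)) θ
  have hdet : V.det ≠ 0 := by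
    rw [Matrix.det_vandermonde_ne_zero_iff]
    intro i j hij
    exact Fin.ext (hinj i i.2 j j.2 hij)
  have hvec : Matrix.vecMul (fun i : Fin n => a i) V = 0 := by
    funext j
    have := hcon j j.2
    rw [Finset.sum_range] at this
    rw [Matrix.vecMul, dotProduct, Pi.zero_apply, ← this]
    refine Finset.sum_congr rfl fun i _ => ?_
    show a i * Matrix.vandermonde (fun i : Fin n => (s ^ (i : ℕ)) θ) i j = _
    rw [Matrix.vandermonde_apply, map_pow]
  have := Matrix.eq_zero_of_vecMul_eq_zero hdet hvec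
  exact ha (congrFun this ⟨i₀, hi₀⟩)

/-- **Hilbert 90** -/
theorem Cyc.h90 (hc : Cyc H H' s n) {x : Ω} (hx : x ∈ Fx H') (hN : Nm s n x = 1) :
    ∃ y ∈ Fx H', y ≠ 0 ∧ x = s y / y := by
  obtain ⟨θ, hθ, hinj⟩ := hc.prim
  have hx0 : x ≠ 0 := by
    rintro rfl
    rw [(Nm_eq_zero_iff s hc.pos).mpr rfl] at hN
    exact zero_ne_one hN
  obtain ⟨j, -, hj⟩ := exists_ne_zero hinj (fun i => Nm s i x) hc.pos
    (by simp [Nm])
  set f : ℕ → Ω := fun i => Nm s i x * (s ^ i) (θ ^ j) with hf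
  set y' : Ω := ∑ i ∈ Finset.range n, f i with hy'
  have hθj : θ ^ j ∈ Fx H' := pow_mem hθ j
  have hmem : y' ∈ Fx H' := by
    refine sum_mem fun i _ => mul_mem ?_ (hc.pow_map_mem hθj i)
    exact prod_mem fun k _ => hc.pow_map_mem hx k
  have hstep : ∀ i, x * s (f i) = f (i + 1) := by
    intro i
    simp only [hf]
    rw [map_mul, ← AlgEquiv.mul_apply, ← pow_succ', ← mul_assoc]
    congr 1
    rw [Nm, Nm, map_prod, Finset.prod_range_succ']
    rw [pow_zero, AlgEquiv.one_apply, mul_comm]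
    congr 1
    refine Finset.prod_congr rfl fun k _ => ?_
    rw [← AlgEquiv.mul_apply, ← pow_succ']
  have hfn : f n = f 0 := by
    simp only [hf]
    rw [hN, hc.pow_apply hθj]
    simp [Nm]
  have hkey : x * s y' = y' := by
    rw [hy', map_sum, Finset.mul_sum, Finset.sum_congr rfl fun i _ => hstep i]
    have h1 := Finset.sum_range_succ f n
    have h2 := Finset.sum_range_succ' f n
    rw [h1, hfn] at h2
    exact (add_right_cancel h2).symm
  have hsy : s y' ≠ 0 := by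
    intro h
    rw [h, mul_zero] at hkey
    exact hj hkey.symm
  refine ⟨y'⁻¹, inv_mem hmem, inv_ne_zero hj, ?_⟩
  rw [map_inv₀, div_inv_eq_mul, inv_mul_eq_div, eq_div_iff hsy]
  exact hkey

/-- **the bicyclic lemma**.  `L = Fx H0`, `E' = Fx H1 = L^φ`, `E₂ = Fx H2 = L^s`, `E = Fx H = L^{s,φ}`.
If `π ∈ E` is a norm from `L` to `E'`, there is `c ∈ Eˣ` such that: `c` a norm from `E'` `⇒` `π` a norm from `E₂`. -/
theorem bicyclic {H H0 H1 H2 : Subgroup (Ω ≃ₐ[K] Ω)} {s φ : Ω ≃ₐ[K] Ω} {n m : ℕ}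
    (h1 : Cyc H1 H0 φ n) (h2 : Cyc H2 H0 s m)
    (hcomm : ∀ x ∈ Fx H0, s (φ x) = φ (s x))
    (hE : ∀ x ∈ Fx H0, s x = x → φ x = x → x ∈ Fx H)
    {π y : Ω} (hπ0 : π ≠ 0) (hπs : s π = π) (hy : y ∈ Fx H0) (hyN : Nm φ n y = π) :
    ∃ c ∈ Fx H, c ≠ 0 ∧ ∀ w ∈ Fx H1, Nm s m w = c → ∃ t ∈ Fx H2, Nm φ n t = π := by
  have hy0 : y ≠ 0 := by
    rintro rfl
    rw [(Nm_eq_zero_iff φ h1.pos).mpr rfl] at hyN
    exact hπ0 hyN.symm
  have hc1 : ∀ x ∈ Fx H0, ∀ i, s ((φ ^ i) x) = (φ ^ i) (s x) := by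
    intro x hx i
    induction i with
    | zero => simp
    | succ i ih =>
      rw [pow_succ', AlgEquiv.mul_apply, AlgEquiv.mul_apply, hcomm _ (h1.pow_map_mem hx i), ih]
  have hc2 : ∀ x ∈ Fx H0, ∀ i, φ ((s ^ i) x) = (s ^ i) (φ x) := by
    intro x hx i
    induction i with
    | zero => simp
    | succ i ih =>
      rw [pow_succ', AlgEquiv.mul_apply, AlgEquiv.mul_apply, ← hcomm _ (h2.pow_map_mem hx i), ih]
  have hsy : s y ∈ Fx H0 := h2.map_mem hy
  have hsy0 : s y ≠ 0 := by simpa using hy0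
  have hu : s y / y ∈ Fx H0 := div_mem hsy hy
  have hNu : Nm φ n (s y / y) = 1 := by
    rw [Nm_div, ← map_Nm_of_comm (hc1 y hy) n, hyN, hπs, div_self hπ0]
  obtain ⟨z, hz, hz0, hzu⟩ := h1.h90 hu hNu
  have hcne : Nm s m z ≠ 0 := Nm_ne_zero s m hz0
  have hNsu : Nm s m (s y / y) = 1 := by
    rw [Nm_div, Nm_apply (h2.pow_apply hy), div_self (Nm_ne_zero s m hy0)]
  have hφz : φ z = s y / y * z := by
    rw [hzu]; field_simp
  refine ⟨Nm s m z, hE _ (Fx_mono h2.le (h2.Nm_mem hz)) (apply_Nm (h2.pow_apply hz)) ?_, hcne, ?_⟩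
  · rw [map_Nm_of_comm (hc2 z hz) m, hφz, Nm_mul, hNsu, one_mul]
  intro w hw hwN
  have hw0 : w ≠ 0 := by
    rintro rfl
    rw [(Nm_eq_zero_iff s h2.pos).mpr rfl] at hwN
    exact hcne hwN.symm
  have hwH0 : w ∈ Fx H0 := Fx_mono h1.le hw
  have hφw : φ w = w := (h1.mem_Fx_iff.1 hw).2
  have hNzw : Nm s m (z / w) = 1 := by rw [Nm_div, hwN, div_self hcne]
  obtain ⟨t, ht, ht0, hzt⟩ := h2.h90 (div_mem hz hwH0) hNzw
  have hφt : φ t ∈ Fx H0 := h1.map_mem ht
  have hφt0 : φ t ≠ 0 := by simpa using ht0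
  have hst0 : s t ≠ 0 := by simpa using ht0
  have hsφt0 : s (φ t) ≠ 0 := by simpa using hφt0
  have hr : φ t / t ∈ Fx H0 := div_mem hφt ht
  have hr0 : φ t / t ≠ 0 := div_ne_zero hφt0 ht0
  -- `φ z / z = s r / r`
  have hzr : s y / y = s (φ t / t) / (φ t / t) := by
    have e1 : φ (z / w) = φ z / w := by rw [map_div₀, hφw]
    have e2 : φ (z / w) = s (φ t) / φ t := by rw [hzt, map_div₀, ← hcomm t ht]
    have e3 : φ z / z = (s (φ t) / φ t) / (s t / t) := by
      rw [← e2, e1, ← hzt]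
      field_simp
    rw [hzu, e3, map_div₀]
    field_simp
  have hfix : s (y / (φ t / t)) = y / (φ t / t) := by
    rw [map_div₀]
    have hsr0 : s (φ t / t) ≠ 0 := by simpa using hr0
    rw [div_eq_div_iff hy0 hr0] at hzr
    rw [div_eq_div_iff hsr0 hr0]
    linear_combination hzr
  refine ⟨y / (φ t / t), h2.mem_Fx_iff.2 ⟨div_mem hy hr, hfix⟩, ?_⟩
  rw [Nm_div, Nm_div, hyN, Nm_apply (h1.pow_apply ht), div_self (Nm_ne_zero φ n ht0), div_one]

end Fermat.Agent.S55.B
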