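import Fermat.Agent.S55.B.Res

/-!
# S55/B : Vandermonde systems modulo the maximal ideal      (used by the keys `S55/B-U1b`, `S55/B-U2`)

`z_0, ..., z_{n-1}` integral and pairwise incongruent modulo the maximal ideal, `c_i` integral.
* `GT_of_vdm_mulVec` : `∑_i c_i z_j^i ≡ 0` for all `j < n` implies `c_i ≡ 0` for all `i < n`;
* `GT_of_vdm_vecMul` : `∑_i c_i z_i^j ≡ 0` for all `j < n` implies `c_i ≡ 0` for all `i < n`;
* `GE_prod_one_add` : `∏ (1 + t x_i) ≡ 1 + t ∑ x_i` modulo `t²`.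
-/

set_option autoImplicit false

namespace Fermat.Agent.S55.B

open Fermat.Agent.S05

variable {Ω : Type*} [Field Ω] (v : RVal Ω)

theorem det_vdm_ne_zero_aux {n : ℕ} (Z : Fin n → OO v)
    (hzz : ∀ i j : Fin n, v.GT ((Z i : Ω) - Z j) 0 → i = j) :
    (Matrix.vandermonde fun i : Fin n => rs v (Z i)).det ≠ 0 := by
  rw [Matrix.det_vandermonde_ne_zero_iff]
  intro i j hij
  exact hzz i j ((rs_eq_iff v _ _).1 hij)

theorem GT_of_vdm_mulVec {n : ℕ} (z c : ℕ → Ω) (hz : ∀ i < n, v.GE (z i) 0)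
    (hzz : ∀ i < n, ∀ j < n, v.GT (z i - z j) 0 → i = j) (hc : ∀ i < n, v.GE (c i) 0)
    (h : ∀ j < n, v.GT (∑ i ∈ Finset.range n, c i * z j ^ i) 0) : ∀ i < n, v.GT (c i) 0 := by
  let Z : Fin n → OO v := fun i => ⟨z i, hz i i.2⟩
  let C : Fin n → OO v := fun i => ⟨c i, hc i i.2⟩
  have hdet := det_vdm_ne_zero_aux v Z fun i j hij => Fin.ext (hzz i i.2 j j.2 hij)
  have hvec : Matrix.mulVec (Matrix.vandermonde fun i : Fin n => rs v (Z i))
      (fun i : Fin n => rs v (C i)) = 0 := by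
    funext j
    have h1 : rs v (∑ i : Fin n, C i * Z j ^ (i : ℕ)) = 0 := by
      rw [rs_eq_zero_iff]
      have h2 := h j j.2
      rw [Finset.sum_range] at h2
      have e : ((∑ i : Fin n, C i * Z j ^ (i : ℕ) : OO v) : Ω) = ∑ i : Fin n, c i * z j ^ (i : ℕ) := by
        push_cast
        rfl
      rw [e]
      exact h2
    rw [Matrix.mulVec, dotProduct, Pi.zero_apply, ← h1, map_sum]
    refine Finset.sum_congr rfl fun i _ => ?_
    rw [Matrix.vandermonde_apply, map_mul, map_pow, mul_comm]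
  have h3 := Matrix.eq_zero_of_mulVec_eq_zero hdet hvec
  intro i hi
  have h4 : rs v (C ⟨i, hi⟩) = 0 := congrFun h3 ⟨i, hi⟩
  exact (rs_eq_zero_iff v _).1 h4

theorem GT_of_vdm_vecMul {n : ℕ} (z c : ℕ → Ω) (hz : ∀ i < n, v.GE (z i) 0)
    (hzz : ∀ i < n, ∀ j < n, v.GT (z i - z j) 0 → i = j) (hc : ∀ i < n, v.GE (c i) 0)
    (h : ∀ j < n, v.GT (∑ i ∈ Finset.range n, c i * z i ^ j) 0) : ∀ i < n, v.GT (c i) 0 := by
  let Z : Fin n → OO v := fun i => ⟨z i, hz i i.2⟩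
  let C : Fin n → OO v := fun i => ⟨c i, hc i i.2⟩
  have hdet := det_vdm_ne_zero_aux v Z fun i j hij => Fin.ext (hzz i i.2 j j.2 hij)
  have hvec : Matrix.vecMul (fun i : Fin n => rs v (C i))
      (Matrix.vandermonde fun i : Fin n => rs v (Z i)) = 0 := by
    funext j
    have h1 : rs v (∑ i : Fin n, C i * Z i ^ (j : ℕ)) = 0 := by
      rw [rs_eq_zero_iff]
      have h2 := h j j.2
      rw [Finset.sum_range] at h2
      have e : ((∑ i : Fin n, C i * Z i ^ (j : ℕ) : OO v) : Ω) = ∑ i : Fin n, c i * z i ^ (j : ℕ) := by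
        push_cast
        rfl
      rw [e]
      exact h2
    rw [Matrix.vecMul, dotProduct, Pi.zero_apply, ← h1, map_sum]
    refine Finset.sum_congr rfl fun i _ => ?_
    rw [Matrix.vandermonde_apply, map_mul, map_pow]
  have h3 := Matrix.eq_zero_of_vecMul_eq_zero hdet hvec
  intro i hi
  have h4 : rs v (C ⟨i, hi⟩) = 0 := congrFun h3 ⟨i, hi⟩
  exact (rs_eq_zero_iff v _).1 h4

/-- `∏ (1 + t x_i) ≡ 1 + t ∑ x_i` modulo `t²` -/
theorem GE_prod_one_add {ι : Type*} (s : Finset ι) (x : ι → Ω) (t : Ω) {a : ℝ} (ha : 0 ≤ a)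
    (ht : v.GE t a) (hx : ∀ i ∈ s, v.GE (x i) 0) :
    v.GE (∏ i ∈ s, (1 + t * x i) - 1 - t * ∑ i ∈ s, x i) (2 * a) := by
  classical
  induction s using Finset.induction_on with
  | empty => simpa using RVal.GE_zero (v := v) (2 * a)
  | insert i s hi ih =>
    rw [Finset.prod_insert hi, Finset.sum_insert hi]
    have h1 := ih fun j hj => hx j (Finset.mem_insert_of_mem hj)
    have hxi := hx i (Finset.mem_insert_self i s)
    have hS : v.GE (∑ j ∈ s, x j) 0 := GE_sum v s x 0 fun j hj => hx j (Finset.mem_insert_of_mem hj)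
    have e : (1 + t * x i) * ∏ j ∈ s, (1 + t * x j) - 1 - t * (x i + ∑ j ∈ s, x j) =
        (∏ j ∈ s, (1 + t * x j) - 1 - t * ∑ j ∈ s, x j) * (1 + t * x i) +
          (t * t) * (x i * ∑ j ∈ s, x j) := by ring
    rw [e]
    have h2 : v.GE (1 + t * x i) 0 :=
      ((RVal.EQ_one (v := v)).GE le_rfl).add ((ht.mul hxi).mono (by linarith))
    refine RVal.GE.add ((h1.mul h2).mono (by linarith)) ?_
    exact ((ht.mul ht).mul (hxi.mul hS)).mono (by linarith)

end Fermat.Agent.S55.B
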