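import Fermat.Agent.S55.B.Root
import Fermat.Agent.S55.B.Interp
import Fermat.Agent.S55.B.Vdm

/-!
# S55/B : the unramified extensions `E_n = E(ζ)`, `ζ` a primitive `(Q^n - 1)`-th root of unity
(keys `S55/B-U1a` = `exists_teich`, `exists_frob`, `exists_pow_of_mem`, `cyc_stab`;
      `S55/B-U1b` = `w_sum_eq`, `lf_stab`, `frob_congr`)

`h : LF v H π q Q`, `E = Fx H`, `O = OO v`, `m` its maximal ideal, congruences are modulo `m` (`v.GT (x - y) 0`);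
work in the residue field `kk v` (`Res.lean`; characteristic `q`) whenever convenient.

## `exists_teich`
`c (c^(Q-1) - 1) = c ∏_{a<Q-1} (c - ω^a)` (`IsPrimitiveRoot`: `X^(Q-1) - 1 = ∏ (X - ω^a)`,
`X_pow_sub_one_eq_prod` + `IsPrimitiveRoot.nthRoots...`) lies in `m`, so one factor does (`exists_GT_of_prod`).

## `exists_frob`
The `H`-orbit `T` of `η` is a finite set of `M`-th roots of unity; `g = ∏_{η' ∈ T} (X - η')` has coefficients in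
`E ∩ O` (each `σ ∈ H` permutes `T`).  Modulo `m`: `c^Q ≡ c` for the coefficients, so `g(η^Q) ≡ g(η)^Q = 0`
(`GT_sum_pow`, or `Polynomial.expand`/`frobenius` in `kk v`).  So some `η^Q - η'` lies in `m`, and `η^Q = η'` by
`eq_of_pow_eq_one` (`w M = 0` by `w_natCast_eq_zero`).

## `exists_pow_of_mem`
`m₀ = ∏_{i<n} (X - ζ^(Q^i))`, coefficients `c_j ∈ O`.  `x ↦ x^Q` permutes the roots modulo `m` (`ζ^(Q^n) = ζ`), so
`c_j^Q ≡ c_j`, so `c_j ≡ c_j' ∈ E ∩ O` (`exists_teich`).  `m₁ = ∑ c_j' X^j`: `m₁(ζ) ≡ m₀(ζ) = 0`; apply `σ ∈ H`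
(`Pres.GT`): `m₀(σ ζ) ≡ m₁(σ ζ) = σ (m₁ ζ) ≡ 0`; one factor `σ ζ - ζ^(Q^i)` is in `m`; rigidity.

## `cyc_stab`
`conj`: for `h ∈ stab`, `φ⁻¹ h φ ζ = φ⁻¹ h (ζ^Q) = φ⁻¹ (ζ^Q) = ζ`, etc.  `gen`: `σ ζ = ζ^(Q^i) = φ^i ζ`.  `pow`: `ζ^(Q^n) = ζ`.
`prim`: `θ = ζ`; the exponents `Q^i`, `i < n`, are distinct and `< Q^n - 1` (or `n = 1`), `IsPrimitiveRoot.pow_inj`.

## `w_sum_eq`
Let `x = ∑_{i<n} c_i ζ^i`, `c_i ∈ E`, all `c_i` integral, one of them a unit.  If `w x > 0` then `w (φ^j x) > 0` for all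
`j`: `∑_i c_i (ζ^(Q^j))^i ≡ 0`: the Vandermonde matrix of the `n` distinct (rigidity) residues of `ζ^(Q^j)` kills the residue of
`c`: contradiction.
## `lf_stab`
`x ∈ Fx (stab H ζ)` is `∑_{i<n} c_i ζ^i` (`Cyc.exists_coeffs`).  Scale by a power of `π` (`IsUnif.gen`): `w x = min w c_i ∈ ℤ w π`.
If `x` is integral so are the `c_i`, `x^(Q^n) ≡ ∑ c_i^(Q^n) ζ^(i Q^n) ≡ ∑ c_i ζ^i` (`GT_sum_pow`).  `root`: `ζ`.
## `frob_congr`
`φ x = ∑ c_i ζ^(iQ) ≡ ∑ c_i^Q ζ^(iQ) ≡ x^Q`.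
-/

set_option autoImplicit false

namespace Fermat.Agent.S55.B

open Fermat.Agent.S05

variable {K Ω : Type*} [Field K] [Field Ω] [Algebra K Ω] [CharZero Ω] [IsAlgClosed Ω]
variable {H : Subgroup (Ω ≃ₐ[K] Ω)} {v : RVal Ω} {π : Ω} {q Q : ℕ}

theorem LF.one_lt (h : LF v H π q Q) : 1 < Q := by
  obtain ⟨f, hf, rfl⟩ := h.res.pow
  exact Nat.one_lt_pow hf.ne' h.res.prime.one_lt

/-- `Q ^ n - 1` is prime to `q` -/
theorem LF.not_dvd (h : LF v H π q Q) {n : ℕ} (hn : 0 < n) : ¬ q ∣ Q ^ n - 1 := by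
  obtain ⟨f, hf, rfl⟩ := h.res.pow
  intro hd
  have h1 : q ∣ (q ^ f) ^ n := by
    rw [← pow_mul]
    exact dvd_pow_self q (Nat.mul_pos hf hn).ne'
  have h2 : 1 ≤ (q ^ f) ^ n := Nat.one_le_pow _ _ (Nat.pow_pos h.res.prime.pos)
  have h3 : q ∣ 1 := by
    have := (Nat.dvd_sub h1 hd)
    rwa [Nat.sub_sub_self h2] at this
  exact h.res.prime.one_lt.ne' (Nat.dvd_one.1 h3)

theorem LF.GT_q (h : LF v H π q Q) : v.GT (q : Ω) 0 := Or.inr h.res.char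

/-- an integral `c` with `c ^ M ≡ 1` is congruent to a power of a primitive `M`-th root of unity -/
theorem exists_pow_GT_aux {M : ℕ} (hM : 0 < M) {ω : Ω} (hω : IsPrimitiveRoot ω M) {c : Ω}
    (hc : v.GE c 0) (h : v.GT (c ^ M - 1) 0) : ∃ a : ℕ, v.GT (c - ω ^ a) 0 := by
  have e : c ^ M - 1 = ∏ ζ ∈ Polynomial.nthRootsFinset M (1 : Ω), (c - ζ) := by
    have := congrArg (Polynomial.eval c) (Polynomial.X_pow_sub_one_eq_prod hM hω)
    simpa [Polynomial.eval_prod] using this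
  rw [e] at h
  obtain ⟨ζ, hζ, h1⟩ := exists_GT_of_prod v _ _ (fun ζ hζ => by
    rw [Polynomial.mem_nthRootsFinset hM] at hζ
    exact hc.sub ((w_eq_zero_of_pow_eq_one hM hζ).GE le_rfl)) h
  rw [Polynomial.mem_nthRootsFinset hM] at hζ
  have : NeZero M := ⟨hM.ne'⟩
  obtain ⟨a, -, rfl⟩ := hω.eq_pow_of_pow_eq_one hζ
  exact ⟨a, h1⟩

/-- an integral element of `Ω` with `c^Q ≡ c` is congruent to an integral element of `E` -/
theorem exists_teich (h : LF v H π q Q) {c : Ω} (hc : v.GE c 0) (hcQ : v.GT (c ^ Q - c) 0) :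
    ∃ c' ∈ Fx H, v.GE c' 0 ∧ v.GT (c - c') 0 := by
  by_cases h0 : v.GT c 0
  · exact ⟨0, zero_mem _, RVal.GE_zero 0, by simpa using h0⟩
  · have hu : v.EQ c 0 := by
      by_contra hcon
      exact h0 ((GT_iff_not_EQ v hc).2 hcon)
    obtain ⟨ω, hωH, hω⟩ := h.res.root
    have hQ := h.one_lt
    have e : (c ^ (Q - 1) - 1) * c = c ^ Q - c := by
      obtain ⟨k, rfl⟩ : ∃ k, Q = k + 1 := ⟨Q - 1, by omega⟩
      simp only [Nat.add_sub_cancel]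
      ring
    have h1 : v.GT (c ^ (Q - 1) - 1) 0 := by
      simpa using RVal.GT.of_mul_eq_left e hu hcQ
    obtain ⟨a, ha⟩ := exists_pow_GT_aux (by omega) hω hc h1
    refine ⟨ω ^ a, pow_mem hωH a, ?_, ha⟩
    have := (w_eq_zero_of_pow_eq_one (v := v) (by omega : 0 < Q - 1) hω.pow_eq_one).GE le_rfl
    simpa using this.pow a

/-- a unit of `E` is congruent to a `(Q-1)`-th root of unity of `E` -/
theorem exists_teich_unit (h : LF v H π q Q) {ω : Ω} (hω : IsPrimitiveRoot ω (Q - 1)) {u : Ω}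
    (hu : u ∈ Fx H) (hu0 : v.EQ u 0) : ∃ a : ℕ, v.GT (u - ω ^ a) 0 := by
  have hQ := h.one_lt
  have e : (u ^ (Q - 1) - 1) * u = u ^ Q - u := by
    obtain ⟨k, rfl⟩ : ∃ k, Q = k + 1 := ⟨Q - 1, by omega⟩
    simp only [Nat.add_sub_cancel]
    ring
  have h1 : v.GT (u ^ (Q - 1) - 1) 0 := by
    simpa using RVal.GT.of_mul_eq_left e hu0 (h.res.frob u hu (hu0.GE le_rfl))
  exact exists_pow_GT_aux (by omega) hω (hu0.GE le_rfl) h1


/-- `g(x)^Q ≡ g(x^Q)` if the coefficients of `g` are integral with `c^Q ≡ c` -/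
theorem eval_pow_GT_aux {f : ℕ} (hq : q.Prime) (hqv : v.GT (q : Ω) 0) (g : Polynomial Ω)
    (hg0 : ∀ j, v.GE (g.coeff j) 0) (hg : ∀ j, v.GT (g.coeff j ^ (q ^ f) - g.coeff j) 0) {x : Ω}
    (hx : v.GE x 0) : v.GT ((g.eval x) ^ (q ^ f) - g.eval (x ^ (q ^ f))) 0 := by
  rw [Polynomial.eval_eq_sum_range, Polynomial.eval_eq_sum_range]
  have h1 := GT_sum_pow v (f := f) hq hqv (Finset.range (g.natDegree + 1))
    (fun j => g.coeff j * x ^ j) (fun j _ => by simpa using (hg0 j).mul (hx.pow j))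
  have h2 : v.GT (∑ j ∈ Finset.range (g.natDegree + 1), (g.coeff j * x ^ j) ^ (q ^ f)
      - ∑ j ∈ Finset.range (g.natDegree + 1), g.coeff j * (x ^ (q ^ f)) ^ j) 0 := by
    rw [← Finset.sum_sub_distrib]
    refine GT_sum v _ _ _ fun j _ => ?_
    have e : (g.coeff j * x ^ j) ^ (q ^ f) - g.coeff j * (x ^ (q ^ f)) ^ j
        = (g.coeff j ^ (q ^ f) - g.coeff j) * (x ^ (q ^ f)) ^ j := by ring
    rw [e]
    simpa using (hg j).mul_GE ((hx.pow _).pow j)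
  have := h1.add h2
  simpa using this

/-- the coefficients of `∏ (X - t)`, `t` integral, are integral -/
theorem GE_coeff_prod_aux {ι : Type*} (T : Finset ι) (t : ι → Ω) (hT : ∀ i ∈ T, v.GE (t i) 0) (j : ℕ) :
    v.GE ((∏ i ∈ T, (Polynomial.X - Polynomial.C (t i))).coeff j) 0 := by
  have h1 : (∏ i ∈ T, (Polynomial.X - Polynomial.C (t i))) ∈ Polynomial.lifts (OO v).subtype := by
    refine prod_mem fun i hi => ?_
    refine ⟨Polynomial.X - Polynomial.C ⟨t i, hT i hi⟩, ?_⟩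
    simp
  rw [Polynomial.lifts_iff_coeff_lifts] at h1
  obtain ⟨y, hy⟩ := h1 j
  rw [← hy]
  exact y.2

/-- existence of a Frobenius on the roots of unity of order prime to `q` -/
theorem exists_frob (h : LF v H π q Q) {M : ℕ} (hM0 : 0 < M) (hM : ¬ q ∣ M) {η : Ω}
    (hη : η ^ M = 1) : ∃ φ ∈ H, φ η = η ^ Q := by
  classical
  obtain ⟨f, hf, rfl⟩ := h.res.pow
  set T : Finset Ω := (Polynomial.nthRootsFinset M (1 : Ω)).filter (fun η' => ∃ σ ∈ H, σ η = η')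
    with hT
  have memT : ∀ η', η' ∈ T ↔ ∃ σ ∈ H, σ η = η' := by
    intro η'
    rw [hT, Finset.mem_filter, Polynomial.mem_nthRootsFinset hM0]
    constructor
    · exact fun h => h.2
    · rintro ⟨σ, hσ, rfl⟩
      exact ⟨by rw [← map_pow, hη, map_one], σ, hσ, rfl⟩
  have powT : ∀ η' ∈ T, η' ^ M = 1 := by
    intro η' h'
    rw [hT, Finset.mem_filter, Polynomial.mem_nthRootsFinset hM0] at h'
    exact h'.1
  have intT : ∀ η' ∈ T, v.GE η' 0 := fun η' h' =>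
    (w_eq_zero_of_pow_eq_one hM0 (powT η' h')).GE le_rfl
  set g : Polynomial Ω := ∏ η' ∈ T, (Polynomial.X - Polynomial.C η') with hg
  have hmap : ∀ σ ∈ H, g.map (σ : Ω ≃ₐ[K] Ω).toRingEquiv.toRingHom = g := by
    intro σ hσ
    rw [hg, Polynomial.map_prod]
    refine Finset.prod_bij (fun η' _ => σ η') ?_ ?_ ?_ ?_
    · intro a ha
      obtain ⟨τ, hτ, rfl⟩ := (memT a).1 ha
      exact (memT _).2 ⟨σ * τ, H.mul_mem hσ hτ, rfl⟩
    · intro a _ b _ hab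
      exact σ.injective hab
    · intro b hb
      obtain ⟨τ, hτ, rfl⟩ := (memT b).1 hb
      exact ⟨(σ⁻¹ * τ) η, (memT _).2 ⟨σ⁻¹ * τ, H.mul_mem (H.inv_mem hσ) hτ, rfl⟩, by
        rw [AlgEquiv.mul_apply, apply_inv_apply]⟩
    · intro a _
      simp
  have hcoeff : ∀ j, g.coeff j ∈ Fx H := by
    intro j
    refine mem_Fx.2 fun σ hσ => ?_
    have := congrArg (fun p => Polynomial.coeff p j) (hmap σ hσ)
    simpa [Polynomial.coeff_map] using this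
  have hint : ∀ j, v.GE (g.coeff j) 0 := fun j => GE_coeff_prod_aux T (fun x => x) intT j
  have hηT : η ∈ T := (memT η).2 ⟨1, H.one_mem, rfl⟩
  have hroot : g.eval η = 0 := by
    rw [hg, Polynomial.eval_prod]
    exact Finset.prod_eq_zero hηT (by simp)
  have h1 := eval_pow_GT_aux (f := f) h.res.prime h.GT_q g hint
    (fun j => h.res.frob _ (hcoeff j) (hint j)) (intT η hηT)
  rw [hroot, zero_pow (Nat.pow_pos h.res.prime.pos).ne', zero_sub] at h1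
  have h2 : v.GT (g.eval (η ^ q ^ f)) 0 := by simpa using h1.neg
  rw [hg, Polynomial.eval_prod] at h2
  have hηQ : v.GE (η ^ q ^ f) 0 := by simpa using (intT η hηT).pow (q ^ f)
  obtain ⟨η', hη', h3⟩ := exists_GT_of_prod v _ _ (fun η' h' => by
    simpa using hηQ.sub (intT η' h')) h2
  simp only [Polynomial.eval_sub, Polynomial.eval_X, Polynomial.eval_C] at h3
  have h4 : η ^ q ^ f = η' := eq_of_pow_eq_one hM0 (w_natCast_eq_zero h.res.prime h.res.char hM)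
    (by rw [← pow_mul, mul_comm, pow_mul, hη, one_pow]) (powT η' hη') h3
  obtain ⟨σ, hσ, h5⟩ := (memT η').1 hη'
  exact ⟨σ, hσ, by rw [h5, h4]⟩

/-- the coefficients `c` of `∏_{i<n} (X - ζ^(Q^i))` satisfy `c^Q ≡ c` if `ζ^(Q^n) = ζ` -/
theorem coeff_pow_GT_aux {f : ℕ} (hq : q.Prime) (hqv : v.GT (q : Ω) 0) {n : ℕ} (hn : 0 < n)
    {ζ : Ω} (hζ0 : v.GE ζ 0) (hζ : ζ ^ ((q ^ f) ^ n) = ζ) (j : ℕ) :
    v.GT (((∏ i ∈ Finset.range n,
        (Polynomial.X - Polynomial.C (ζ ^ ((q ^ f) ^ i)))).coeff j) ^ (q ^ f)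
      - (∏ i ∈ Finset.range n, (Polynomial.X - Polynomial.C (ζ ^ ((q ^ f) ^ i)))).coeff j) 0 := by
  have := charP_kk v hq hqv
  have : Fact q.Prime := ⟨hq⟩
  let z₀ : OO v := ⟨ζ, hζ0⟩
  have hz₀ : z₀ ^ ((q ^ f) ^ n) = z₀ := Subtype.ext (by simpa [z₀] using hζ)
  let P₀ : Polynomial (OO v) :=
    ∏ i ∈ Finset.range n, (Polynomial.X - Polynomial.C (z₀ ^ ((q ^ f) ^ i)))
  have hP : (∏ i ∈ Finset.range n, (Polynomial.X - Polynomial.C (ζ ^ ((q ^ f) ^ i))))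
      = P₀.map (OO v).subtype := by
    simp [P₀, Polynomial.map_prod, z₀]
  have hF : (P₀.map (rs v)).map (iterateFrobenius (kk v) q f) = P₀.map (rs v) := by
    obtain ⟨m, rfl⟩ : ∃ m, n = m + 1 := ⟨n - 1, by omega⟩
    have e1 : ∀ i, iterateFrobenius (kk v) q f (rs v (z₀ ^ ((q ^ f) ^ i)))
        = rs v (z₀ ^ ((q ^ f) ^ (i + 1))) := by
      intro i
      rw [iterateFrobenius_def, ← map_pow, ← pow_mul, ← pow_succ]
    simp only [P₀, Polynomial.map_prod, Polynomial.map_sub, Polynomial.map_X, Polynomial.map_C, e1]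
    rw [Finset.prod_range_succ, Finset.prod_range_succ' _ m, hz₀]
    simp
  rw [hP, Polynomial.coeff_map]
  have h1 : rs v ((P₀.coeff j) ^ (q ^ f)) = rs v (P₀.coeff j) := by
    have := congrArg (fun p => Polynomial.coeff p j) hF
    simpa [Polynomial.coeff_map, iterateFrobenius_def] using this
  rw [rs_eq_iff] at h1
  exact_mod_cast h1

/-- the conjugates of `ζ` over `E` are the `ζ^(Q^i)` -/
theorem exists_pow_of_mem (h : LF v H π q Q) {n : ℕ} (hn : 0 < n) {ζ : Ω}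
    (hζ : IsPrimitiveRoot ζ (Q ^ n - 1)) {σ : Ω ≃ₐ[K] Ω} (hσ : σ ∈ H) :
    ∃ i < n, σ ζ = ζ ^ (Q ^ i) := by
  have hQ := h.one_lt
  have hM1 : 1 < Q ^ n := Nat.one_lt_pow hn.ne' hQ
  have hM0 : 0 < Q ^ n - 1 := by omega
  have hζM : ζ ^ (Q ^ n - 1) = 1 := hζ.pow_eq_one
  have hζQ : ζ ^ (Q ^ n) = ζ := by
    have : Q ^ n = (Q ^ n - 1) + 1 := by omega
    rw [this, pow_succ, hζM, one_mul]
  have hζ0 : v.GE ζ 0 := (w_eq_zero_of_pow_eq_one hM0 hζM).GE le_rfl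
  have hζi : ∀ i : ℕ, v.GE (ζ ^ (Q ^ i)) 0 := fun i => by simpa using hζ0.pow (Q ^ i)
  set P : Polynomial Ω := ∏ i ∈ Finset.range n, (Polynomial.X - Polynomial.C (ζ ^ (Q ^ i)))
    with hP
  have hint : ∀ j, v.GE (P.coeff j) 0 := fun j => GE_coeff_prod_aux _ _ (fun i _ => hζi i) j
  have hfr : ∀ j, v.GT (P.coeff j ^ Q - P.coeff j) 0 := by
    obtain ⟨f, hf, rfl⟩ := h.res.pow
    exact fun j => coeff_pow_GT_aux h.res.prime h.GT_q hn hζ0 hζQ j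
  choose c' hc'H hc'0 hc' using fun j => exists_teich h (hint j) (hfr j)
  have hcong : ∀ x, v.GE x 0 →
      v.GT (P.eval x - ∑ j ∈ Finset.range (P.natDegree + 1), c' j * x ^ j) 0 := by
    intro x hx
    rw [Polynomial.eval_eq_sum_range, ← Finset.sum_sub_distrib]
    refine GT_sum v _ _ _ fun j _ => ?_
    rw [← sub_mul]
    simpa using (hc' j).mul_GE (hx.pow j)
  have hroot : P.eval ζ = 0 := by
    rw [hP, Polynomial.eval_prod]
    exact Finset.prod_eq_zero (Finset.mem_range.2 hn) (by simp)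
  have h1 : v.GT (∑ j ∈ Finset.range (P.natDegree + 1), c' j * ζ ^ j) 0 := by
    have := (hcong ζ hζ0).neg
    simpa [hroot] using this
  have h2 := h.pres.GT hσ h1
  rw [map_sum] at h2
  have h3 : ∑ j ∈ Finset.range (P.natDegree + 1), σ (c' j * ζ ^ j)
      = ∑ j ∈ Finset.range (P.natDegree + 1), c' j * (σ ζ) ^ j :=
    Finset.sum_congr rfl fun j _ => by rw [map_mul, map_pow, mem_Fx.1 (hc'H j) σ hσ]
  rw [h3] at h2
  have hσζ0 : v.GE (σ ζ) 0 := h.pres.GE hσ hζ0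
  have h4 : v.GT (P.eval (σ ζ)) 0 := by
    have := (hcong _ hσζ0).add h2
    simpa using this
  rw [hP, Polynomial.eval_prod] at h4
  obtain ⟨i, hi, h5⟩ := exists_GT_of_prod v _ _ (fun i _ => by
    simpa using hσζ0.sub (hζi i)) h4
  simp only [Polynomial.eval_sub, Polynomial.eval_X, Polynomial.eval_C] at h5
  refine ⟨i, Finset.mem_range.1 hi, eq_of_pow_eq_one hM0
    (w_natCast_eq_zero h.res.prime h.res.char (h.not_dvd hn)) ?_ ?_ h5⟩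
  · rw [← map_pow, hζM, map_one]
  · rw [← pow_mul, mul_comm, pow_mul, hζM, one_pow]

/-- `E(ζ)/E` is cyclic of degree `n`, generated by any Frobenius -/
theorem cyc_stab (h : LF v H π q Q) {n : ℕ} (hn : 0 < n) {ζ : Ω}
    (hζ : IsPrimitiveRoot ζ (Q ^ n - 1)) {φ : Ω ≃ₐ[K] Ω} (hφ : φ ∈ H) (hφζ : φ ζ = ζ ^ Q) :
    Cyc H (stab H ζ) φ n := by
  have hQ := h.one_lt
  have hM1 : 1 < Q ^ n := Nat.one_lt_pow hn.ne' hQ
  have hζM : ζ ^ (Q ^ n - 1) = 1 := hζ.pow_eq_one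
  have hζQ : ζ ^ (Q ^ n) = ζ := by
    have : Q ^ n = (Q ^ n - 1) + 1 := by omega
    rw [this, pow_succ, hζM, one_mul]
  have hpow : ∀ i, (φ ^ i) ζ = ζ ^ (Q ^ i) := by
    intro i
    induction i with
    | zero => simp
    | succ i ih => rw [pow_succ_apply, ih, map_pow, hφζ, ← pow_mul, ← pow_succ']
  have hinv : φ⁻¹ ζ = ζ ^ (Q ^ (n - 1)) := by
    have h1 : φ (ζ ^ (Q ^ (n - 1))) = ζ := by
      rw [map_pow, hφζ, ← pow_mul, ← pow_succ', Nat.sub_add_cancel hn, hζQ]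
    calc φ⁻¹ ζ = φ⁻¹ (φ (ζ ^ (Q ^ (n - 1)))) := by rw [h1]
      _ = _ := inv_apply_apply _ _
  refine ⟨hn, stab_le H ζ, hφ, ?_, ?_, ?_, ?_⟩
  · rintro g ⟨hgH, hg⟩
    refine ⟨⟨H.mul_mem (H.mul_mem hφ hgH) (H.inv_mem hφ), ?_⟩,
      ⟨H.mul_mem (H.mul_mem (H.inv_mem hφ) hgH) hφ, ?_⟩⟩
    · rw [AlgEquiv.mul_apply, AlgEquiv.mul_apply, hinv, map_pow, hg, ← hinv, apply_inv_apply]
    · rw [AlgEquiv.mul_apply, AlgEquiv.mul_apply, hφζ, map_pow, hg, ← hφζ, inv_apply_apply]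
  · intro σ hσ
    obtain ⟨i, hi, h1⟩ := exists_pow_of_mem h hn hζ hσ
    refine ⟨i, hi, H.mul_mem (H.inv_mem (H.pow_mem hφ i)) hσ, ?_⟩
    rw [AlgEquiv.mul_apply, h1, ← hpow i, inv_apply_apply]
  · exact ⟨H.pow_mem hφ n, by rw [hpow, hζQ]⟩
  · refine ⟨ζ, mem_Fx_stab H ζ, fun i hi j hj hij => ?_⟩
    rw [hpow, hpow] at hij
    rcases Nat.lt_or_ge n 2 with hn2 | hn2
    · omega
    · have key : ∀ i < n, Q ^ i < Q ^ n - 1 := by
        intro i hi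
        have h1 : Q ^ i ≤ Q ^ (n - 1) := Nat.pow_le_pow_right (by omega) (by omega)
        have h2 : Q ^ n = Q ^ (n - 1) * Q := by rw [← pow_succ, Nat.sub_add_cancel hn]
        have h3 : Q ^ 1 ≤ Q ^ (n - 1) := Nat.pow_le_pow_right (by omega) (by omega)
        rw [pow_one] at h3
        have h4 : Q ^ (n - 1) * 2 ≤ Q ^ (n - 1) * Q := Nat.mul_le_mul_left _ hQ
        omega
      exact Nat.pow_right_injective hQ (hζ.pow_inj (key i hi) (key j hj) hij)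

/-! ### key `S55/B-U1b` -/

omit [CharZero Ω] [IsAlgClosed Ω] in
theorem frobAux_pow_apply {φ : Ω ≃ₐ[K] Ω} {ζ : Ω} (hφζ : φ ζ = ζ ^ Q) (i : ℕ) :
    (φ ^ i) ζ = ζ ^ (Q ^ i) := by
  induction i with
  | zero => simp
  | succ i ih =>
    rw [pow_succ', AlgEquiv.mul_apply, ih, map_pow, hφζ, ← pow_mul, pow_succ']

theorem frobAux_pos (h : LF v H π q Q) {n : ℕ} (hn : 0 < n) : 0 < Q ^ n - 1 := by
  have h1 : 1 < Q ^ n := Nat.one_lt_pow hn.ne' h.one_lt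
  omega

theorem frobAux_EQ (h : LF v H π q Q) {n : ℕ} (hn : 0 < n) {ζ : Ω}
    (hζ : IsPrimitiveRoot ζ (Q ^ n - 1)) : v.EQ ζ 0 :=
  w_eq_zero_of_pow_eq_one (frobAux_pos h hn) hζ.pow_eq_one

theorem frobAux_pow_self (h : LF v H π q Q) {n : ℕ} (hn : 0 < n) {ζ : Ω}
    (hζ : IsPrimitiveRoot ζ (Q ^ n - 1)) : ζ ^ (Q ^ n) = ζ := by
  have h1 := frobAux_pos h hn
  have e : Q ^ n = (Q ^ n - 1) + 1 := by omega
  rw [e, pow_succ, hζ.pow_eq_one, one_mul]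

/-- the conjugates `φ^i ζ`, `i < n`, are distinct -/
theorem frobAux_inj (h : LF v H π q Q) {n : ℕ} (hn : 0 < n) {ζ : Ω}
    (hζ : IsPrimitiveRoot ζ (Q ^ n - 1)) {φ : Ω ≃ₐ[K] Ω} (hφ : φ ∈ H) (hφζ : φ ζ = ζ ^ Q) :
    ∀ i < n, ∀ j < n, (φ ^ i) ζ = (φ ^ j) ζ → i = j := by
  have hcyc := cyc_stab h hn hζ hφ hφζ
  obtain ⟨θ, hθ, hinj⟩ := hcyc.prim
  intro i hi j hj hij
  refine hinj i hi j hj ?_
  have h1 : (φ ^ j)⁻¹ * φ ^ i ∈ stab H ζ := by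
    refine mem_stab.2 ⟨H.mul_mem (H.inv_mem (H.pow_mem hφ j)) (H.pow_mem hφ i), ?_⟩
    rw [AlgEquiv.mul_apply, hij, inv_apply_apply]
  have h2 := mem_Fx.1 hθ _ h1
  rw [AlgEquiv.mul_apply] at h2
  have h3 := congrArg (φ ^ j) h2
  rwa [apply_inv_apply] at h3

/-- the `ζ^(Q^i)`, `i < n`, are pairwise incongruent -/
theorem frobAux_incongr (h : LF v H π q Q) {n : ℕ} (hn : 0 < n) {ζ : Ω}
    (hζ : IsPrimitiveRoot ζ (Q ^ n - 1)) :
    ∀ i < n, ∀ j < n, v.GT (ζ ^ (Q ^ i) - ζ ^ (Q ^ j)) 0 → i = j := by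
  obtain ⟨φ, hφ, hφζ⟩ := exists_frob h (frobAux_pos h hn) (h.not_dvd hn) hζ.pow_eq_one
  intro i hi j hj hij
  refine frobAux_inj h hn hζ hφ hφζ i hi j hj ?_
  rw [frobAux_pow_apply hφζ, frobAux_pow_apply hφζ]
  refine eq_of_pow_eq_one (v := v) (frobAux_pos h hn)
    (w_natCast_eq_zero h.res.prime h.res.char (h.not_dvd hn)) ?_ ?_ hij
  · rw [← pow_mul, mul_comm, pow_mul, hζ.pow_eq_one, one_pow]
  · rw [← pow_mul, mul_comm, pow_mul, hζ.pow_eq_one, one_pow]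

omit [CharZero Ω] [IsAlgClosed Ω] in
theorem frobAux_map_sum {n : ℕ} {ζ : Ω} {σ : Ω ≃ₐ[K] Ω} (hσ : σ ∈ H) (c : ℕ → Ω)
    (hc : ∀ i, c i ∈ Fx H) :
    σ (∑ i ∈ Finset.range n, c i * ζ ^ i) = ∑ i ∈ Finset.range n, c i * (σ ζ) ^ i := by
  rw [map_sum]
  exact Finset.sum_congr rfl fun i _ => by rw [map_mul, map_pow, mem_Fx.1 (hc i) σ hσ]

/-- `1, ζ, ..., ζ^(n-1)` is an "orthonormal basis" -/
theorem w_sum_eq (h : LF v H π q Q) {n : ℕ} (hn : 0 < n) {ζ : Ω}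
    (hζ : IsPrimitiveRoot ζ (Q ^ n - 1)) (c : ℕ → Ω) (hc : ∀ i, c i ∈ Fx H)
    (hc0 : ∀ i < n, v.GE (c i) 0) {i₀ : ℕ} (hi₀ : i₀ < n) (hu : v.EQ (c i₀) 0) :
    v.EQ (∑ i ∈ Finset.range n, c i * ζ ^ i) 0 := by
  have hζ0 : v.GE ζ 0 := (frobAux_EQ h hn hζ).GE le_rfl
  have hint : v.GE (∑ i ∈ Finset.range n, c i * ζ ^ i) 0 :=
    GE_sum v _ _ 0 fun i hi => by
      simpa using (hc0 i (Finset.mem_range.1 hi)).mul (hζ0.pow i)
  by_contra hcon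
  have hgt := (GT_iff_not_EQ v hint).2 hcon
  obtain ⟨φ, hφ, hφζ⟩ := exists_frob h (frobAux_pos h hn) (h.not_dvd hn) hζ.pow_eq_one
  have key := GT_of_vdm_mulVec v (fun i => ζ ^ (Q ^ i)) c
    (fun i _ => by simpa using hζ0.pow (Q ^ i)) (frobAux_incongr h hn hζ) hc0 (fun j _ => by
      have h1 := h.pres.GT (H.pow_mem hφ j) hgt
      rwa [frobAux_map_sum (H.pow_mem hφ j) c hc, frobAux_pow_apply hφζ] at h1) i₀ hi₀
  exact (GT_iff_not_EQ v (hc0 i₀ hi₀)).1 key hu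

/-- the valuation of `∑ c_i ζ^i` is the minimum of the valuations of the `c_i` -/
theorem frobAux_normal (h : LF v H π q Q) {n : ℕ} (hn : 0 < n) {ζ : Ω}
    (hζ : IsPrimitiveRoot ζ (Q ^ n - 1)) (c : ℕ → Ω) (hc : ∀ i, c i ∈ Fx H)
    (hne : ∃ i < n, c i ≠ 0) :
    ∃ m : ℤ, v.EQ (∑ i ∈ Finset.range n, c i * ζ ^ i) (m * v.w π) ∧
      ∀ i < n, v.GE (c i) (m * v.w π) := by
  classical
  obtain ⟨i₀, hi₀, hi₀'⟩ := hne
  have hne' : ((Finset.range n).filter fun i => c i ≠ 0).Nonempty :=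
    ⟨i₀, Finset.mem_filter.2 ⟨Finset.mem_range.2 hi₀, hi₀'⟩⟩
  obtain ⟨i₁, hi₁, hmin⟩ := Finset.exists_min_image _ (fun i => v.w (c i)) hne'
  rw [Finset.mem_filter, Finset.mem_range] at hi₁
  obtain ⟨m, hm⟩ := h.unif.gen (c i₁) (hc i₁) hi₁.2
  have hπ := h.unif.ne
  have hπm : v.EQ (π ^ m) (m * v.w π) := ⟨zpow_ne_zero m hπ, RVal.w_zpow hπ m⟩
  have hge : ∀ i < n, v.GE (c i) (m * v.w π) := by
    intro i hi
    by_cases h0 : c i = 0
    · exact Or.inl h0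
    · refine Or.inr ?_
      rw [← hm]
      exact hmin i (Finset.mem_filter.2 ⟨Finset.mem_range.2 hi, h0⟩)
  refine ⟨m, ?_, hge⟩
  have hc1 : v.EQ (c i₁) (m * v.w π) := ⟨hi₁.2, hm⟩
  have h1 := w_sum_eq h hn hζ (fun i => c i * (π ^ m)⁻¹)
    (fun i => (Fx H).mul_mem (hc i) ((Fx H).inv_mem (zpow_mem h.unif.mem m)))
    (fun i hi => ((hge i hi).mul (hπm.inv.GE le_rfl)).mono (by linarith)) hi₁.1
    ((hc1.mul hπm.inv).of_eq (by ring))
  have e : ∑ i ∈ Finset.range n, c i * ζ ^ i =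
      π ^ m * ∑ i ∈ Finset.range n, c i * (π ^ m)⁻¹ * ζ ^ i := by
    rw [Finset.mul_sum]
    refine Finset.sum_congr rfl fun i _ => ?_
    field_simp [hπm.1]
  rw [e]
  exact (hπm.mul h1).of_eq (by ring)

/-- an integral element of `E(ζ)` is `∑ c_i ζ^i` with integral `c_i ∈ E` -/
theorem frobAux_coeffs (h : LF v H π q Q) {n : ℕ} (hn : 0 < n) {ζ : Ω}
    (hζ : IsPrimitiveRoot ζ (Q ^ n - 1)) {x : Ω} (hx : x ∈ Fx (stab H ζ)) (hx0 : v.GE x 0) :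
    ∃ c : ℕ → Ω, (∀ i, c i ∈ Fx H) ∧ (∀ i < n, v.GE (c i) 0) ∧
      x = ∑ i ∈ Finset.range n, c i * ζ ^ i := by
  obtain ⟨φ, hφ, hφζ⟩ := exists_frob h (frobAux_pos h hn) (h.not_dvd hn) hζ.pow_eq_one
  obtain ⟨c, hc, hxc⟩ := (cyc_stab h hn hζ hφ hφζ).exists_coeffs (mem_Fx_stab H ζ)
    (frobAux_inj h hn hζ hφ hφζ) hx
  refine ⟨c, hc, ?_, hxc⟩
  by_cases hne : ∃ i < n, c i ≠ 0
  · obtain ⟨m, hm, hge⟩ := frobAux_normal h hn hζ c hc hne
    rw [← hxc] at hm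
    have h1 := hx0.le_w hm.1
    rw [hm.2] at h1
    exact fun i hi => (hge i hi).mono h1
  · push Not at hne
    exact fun i hi => Or.inl (hne i hi)

omit [CharZero Ω] [IsAlgClosed Ω] in
theorem frobAux_iter (h : LF v H π q Q) {c : Ω} (hc : c ∈ Fx H) (hc0 : v.GE c 0) (k : ℕ) :
    v.GT (c ^ (Q ^ k) - c) 0 := by
  induction k with
  | zero => simpa using RVal.GT_zero (v := v) 0
  | succ k ih =>
    have e : c ^ (Q ^ (k + 1)) - c = ((c ^ (Q ^ k)) ^ Q - c ^ Q) + (c ^ Q - c) := by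
      rw [pow_succ, pow_mul]; ring
    rw [e]
    exact (GT_pow_sub_pow v (by simpa using hc0.pow (Q ^ k)) hc0 ih Q).add (h.res.frob c hc hc0)

omit [CharZero Ω] [IsAlgClosed Ω] in
/-- `(∑ c_i ζ^i)^(Q^k) ≡ ∑ c_i (ζ^(Q^k))^i` -/
theorem frobAux_pow_congr (h : LF v H π q Q) {n : ℕ} (c : ℕ → Ω) (hc : ∀ i, c i ∈ Fx H)
    (hc0 : ∀ i < n, v.GE (c i) 0) {ζ : Ω} (hζ0 : v.GE ζ 0) (k : ℕ) :
    v.GT ((∑ i ∈ Finset.range n, c i * ζ ^ i) ^ (Q ^ k) -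
      ∑ i ∈ Finset.range n, c i * (ζ ^ (Q ^ k)) ^ i) 0 := by
  obtain ⟨f, -, hf⟩ := h.res.pow
  have hQk : Q ^ k = q ^ (f * k) := by rw [hf, pow_mul]
  have h1 := GT_sum_pow v (f := f * k) h.res.prime (Or.inr h.res.char) (Finset.range n)
    (fun i => c i * ζ ^ i) fun i hi => by
      simpa using (hc0 i (Finset.mem_range.1 hi)).mul (hζ0.pow i)
  rw [← hQk] at h1
  have h2 : v.GT (∑ i ∈ Finset.range n, (c i * ζ ^ i) ^ (Q ^ k) -
      ∑ i ∈ Finset.range n, c i * (ζ ^ (Q ^ k)) ^ i) 0 := by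
    rw [← Finset.sum_sub_distrib]
    refine GT_sum v _ _ 0 fun i hi => ?_
    have e : (c i * ζ ^ i) ^ (Q ^ k) - c i * (ζ ^ (Q ^ k)) ^ i =
        (c i ^ (Q ^ k) - c i) * (ζ ^ (Q ^ k)) ^ i := by
      rw [mul_pow, ← pow_mul, ← pow_mul, mul_comm i]; ring
    rw [e]
    have h3 : v.GE ((ζ ^ (Q ^ k)) ^ i) 0 := by
      have := (hζ0.pow (Q ^ k)).pow i
      simpa using this
    simpa using (frobAux_iter h (hc i) (hc0 i (Finset.mem_range.1 hi)) k).mul_GE h3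
  have e : (∑ i ∈ Finset.range n, c i * ζ ^ i) ^ (Q ^ k) -
      ∑ i ∈ Finset.range n, c i * (ζ ^ (Q ^ k)) ^ i =
      ((∑ i ∈ Finset.range n, c i * ζ ^ i) ^ (Q ^ k) -
        ∑ i ∈ Finset.range n, (c i * ζ ^ i) ^ (Q ^ k)) +
      (∑ i ∈ Finset.range n, (c i * ζ ^ i) ^ (Q ^ k) -
        ∑ i ∈ Finset.range n, c i * (ζ ^ (Q ^ k)) ^ i) := by ring
  rw [e]
  exact h1.add h2

/-- `E(ζ)` is a local field with the same uniformiser and residue field `𝔽_{Q^n}` -/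
theorem lf_stab (h : LF v H π q Q) {n : ℕ} (hn : 0 < n) {ζ : Ω}
    (hζ : IsPrimitiveRoot ζ (Q ^ n - 1)) : LF v (stab H ζ) π q (Q ^ n) where
  pres := h.pres.mono (stab_le H ζ)
  unif :=
    { mem := Fx_mono (stab_le H ζ) h.unif.mem
      ne := h.unif.ne
      pos := h.unif.pos
      gen := by
        intro x hx hx0
        obtain ⟨φ, hφ, hφζ⟩ := exists_frob h (frobAux_pos h hn) (h.not_dvd hn) hζ.pow_eq_one
        obtain ⟨c, hc, hxc⟩ := (cyc_stab h hn hζ hφ hφζ).exists_coeffs (mem_Fx_stab H ζ)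
          (frobAux_inj h hn hζ hφ hφζ) hx
        have hne : ∃ i < n, c i ≠ 0 := by
          by_contra hcon
          push Not at hcon
          apply hx0
          rw [hxc]
          exact Finset.sum_eq_zero fun i hi => by rw [hcon i (Finset.mem_range.1 hi), zero_mul]
        obtain ⟨m, hm, -⟩ := frobAux_normal h hn hζ c hc hne
        rw [← hxc] at hm
        exact ⟨m, hm.2⟩ }
  res :=
    { prime := h.res.prime
      pow := by
        obtain ⟨f, hf, hQ⟩ := h.res.pow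
        exact ⟨f * n, Nat.mul_pos hf hn, by rw [hQ, pow_mul]⟩
      char := h.res.char
      frob := by
        intro x hx hx0
        obtain ⟨c, hc, hc0, hxc⟩ := frobAux_coeffs h hn hζ hx hx0
        have h1 := frobAux_pow_congr h c hc hc0 ((frobAux_EQ h hn hζ).GE le_rfl) n
        rwa [frobAux_pow_self h hn hζ, ← hxc] at h1
      root := ⟨ζ, mem_Fx_stab H ζ, hζ⟩ }

/-- the Frobenius congruence on `E(ζ)` -/
theorem frob_congr (h : LF v H π q Q) {n : ℕ} (hn : 0 < n) {ζ : Ω}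
    (hζ : IsPrimitiveRoot ζ (Q ^ n - 1)) {φ : Ω ≃ₐ[K] Ω} (hφ : φ ∈ H) (hφζ : φ ζ = ζ ^ Q)
    {x : Ω} (hx : x ∈ Fx (stab H ζ)) (hx0 : v.GE x 0) : v.GT (φ x - x ^ Q) 0 := by
  obtain ⟨c, hc, hc0, hxc⟩ := frobAux_coeffs h hn hζ hx hx0
  have h1 := frobAux_pow_congr h c hc hc0 ((frobAux_EQ h hn hζ).GE le_rfl) 1
  rw [pow_one, ← hφζ, ← frobAux_map_sum hφ c hc, ← hxc] at h1
  have := h1.neg
  rwa [neg_sub] at this

end Fermat.Agent.S55.B
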