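import Fermat.Agent.S55.B.Fin
import Fermat.Agent.S55.B.Prim
import Fermat.Agent.S55.B.Unram
import Fermat.Agent.S55.D.ULevel
import Fermat.Agent.S55.E.Dense
import Fermat.Agent.S05.Valuation

/-!
# S55/B : the concrete local fields inside `ℚ̄`
(keys `S55/B-WQ` = section WQ;  `S55/B-ZQ` = section ZQ (`lf_Dq`);  `S55/B-OPEN` = section Open)

`q : Nat.Primes`, `A = primeLocalPlace q = padicPlace q`, `Dq q` its decomposition group, `wq q : RVal Qb` the valuation normalised by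
`w q = 1` (`S05.Valuation.ord`).  `ι = padicEmbedding q : Qb →ₐ[ℚ] PadicAlgCl q`.

## WQ
`wq_nonneg_iff` = `S05.Valuation.ord_nonneg_iff`; `wq_q`: `ord_eq` with `n = 1`, `k = 1`; `pres_Dq` = `S05.rval_decomposition_w`;
`norm_eq_one_of_w`: `w x = 0` `⇒` `x, x⁻¹ ∈ A` `⇒` `‖ι x‖ ≤ 1`, `‖ι x‖⁻¹ ≤ 1` (`E.mem_padicPlace_iff_norm`).
`GT_of_norm_lt`: `‖ι x‖ < q^(-n)` `⇒` `x / q^n` has norm `< 1`, i.e. `x / q^n ∈ A.nonunits` `⇒` `w x > n`
(`S05.rval_pos_iff`, `E.norm_padicEmbedding_natCast_zpow`).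
## ZQ   (`Z_q = Fx (Dq q)` has `e = f = 1`)
`exists_padic`: `z ∈ Fx (Dq q)` is fixed by all `localGaloisToGlobal q τ ∈ Dq q`, so `ι z` is fixed by all `τ`
(`padicEmbedding_localGaloisToGlobal`), so it lies in `ℚ_[q]` (`InfiniteGalois.mem_range_algebraMap_iff_fixed`; copy the first lines of
`E.fixed_of_fixed_local`).  `exists_rat_approx`: `Padic.rat_dense` + `GT_of_norm_lt`.  `w_int`: `‖c‖ = q^(-n)`
(`Padic.norm_eq_zpow_neg_valuation`), so `z / q^n` has norm one, `w z = n`.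
`lf_Dq`: `unif`: `π = q`.  `frob`: `z` integral, `z ≡ a/b` with `q ∤ b` (or directly `z ≡ k ∈ ℕ`, `PadicInt.exists_mem_range`), and
`k^q ≡ k` mod `q` (`ZMod.pow_card`), `GT_pow_sub_pow`.  `root`: `g : ℕ` a primitive root mod `q` (`IsCyclic (ZMod q)ˣ`); `g^(q-1) ≡ 1`;
`exists_rootOfUnity` gives `η ∈ Fx (Dq q)`, `η^(q-1) = 1`, `η ≡ g`; `η^d = 1 ⇒ g^d ≡ 1 mod q ⇒ q - 1 ∣ d`.
## Open
`IsOp q H` : `H ≤ Dq q` contains `Dq q ⊓ F.fixingSubgroup`, `F` a number field.  `relIndex ≠ 0` because `F.fixingSubgroup` has finite index in `GQ`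
(`E.finiteIndex_fixingSubgroup`), `Subgroup.relIndex_inf_ne_zero`/`relIndex_ne_zero_trans`, `Subgroup.relIndex_dvd_of_le_left`.
-/

set_option autoImplicit false

noncomputable section

namespace Fermat.Agent.S55.B

open Fermat.Agent.S05 ExtCitation

instance isGaloisQb : IsGalois ℚ Qb := Fermat.Agent.Frob.isGaloisQbar

section WQ

/-- the `q`-adic valuation of `ℚ̄` attached to `primeLocalPlace q`, `w q = 1` -/
def wq (q : Nat.Primes) : RVal Qb where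
  w := Valuation.ord (primeLocalPlace q) q.2 (D.liesOverPrime_primeLocalPlace q)
  map_mul := fun _ _ hx hy => Valuation.ord_mul _ q.2 _ hx hy
  map_add := fun _ _ hx hy hxy => Valuation.ord_add _ q.2 _ hx hy hxy

variable (q : Nat.Primes)

theorem wq_nonneg_iff {x : Qb} (hx : x ≠ 0) : 0 ≤ (wq q).w x ↔ x ∈ primeLocalPlace q :=
  Valuation.ord_nonneg_iff _ q.2 (D.liesOverPrime_primeLocalPlace q) hx

theorem q_ne_zero : ((q : ℕ) : Qb) ≠ 0 := by exact_mod_cast q.2.ne_zero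

theorem wq_q : (wq q).w ((q : ℕ) : Qb) = 1 := by
  have h := Valuation.ord_eq (primeLocalPlace q) q.2 (D.liesOverPrime_primeLocalPlace q)
    (q_ne_zero q) (n := 1) (k := 1) one_pos (by simp)
  change Valuation.ord (primeLocalPlace q) q.2 (D.liesOverPrime_primeLocalPlace q) _ = 1
  rw [h]
  simp

theorem pres_Dq : Pres (wq q) (Dq q) := fun _ hσ x =>
  rval_decomposition_w (fun _ hx => wq_nonneg_iff q hx) hσ x

theorem OO_wq : OO (wq q) = primeLocalPlace q := by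
  ext x
  rw [mem_OO]
  by_cases hx : x = 0
  · rw [hx]
    exact ⟨fun _ => zero_mem _, fun _ => RVal.GE_zero 0⟩
  · rw [← wq_nonneg_iff q hx]
    exact ⟨fun h => h.le_w hx, fun h => Or.inr h⟩

/-- inertia: `σ x ≡ x` for integral `x` -/
theorem GT_of_mem_Iq {σ : GQ} (hσ : σ ∈ Iq q) {x : Qb} (hx : (wq q).GE x 0) :
    (wq q).GT (σ x - x) 0 :=
  rval_inertia_sub (fun _ hx => wq_nonneg_iff q hx) hσ hx

theorem GT_zero_iff_mem_nonunits {x : Qb} : (wq q).GT x 0 ↔ x ∈ (primeLocalPlace q).nonunits := by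
  rw [E.mem_nonunits_iff']
  by_cases hx : x = 0
  · exact ⟨fun _ => Or.inl hx, fun _ => Or.inl hx⟩
  · rw [← rval_pos_iff (fun _ hx => wq_nonneg_iff q hx) hx]
    exact ⟨fun h => Or.inr (h.lt_w hx), fun h => Or.inr (h.resolve_left hx)⟩

/-- converse -/
theorem mem_Iq_of_GT {σ : GQ} (hσ : σ ∈ Dq q)
    (h : ∀ x : Qb, (wq q).GE x 0 → (wq q).GT (σ x - x) 0) : σ ∈ Iq q := by
  rw [Iq, E.mem_inertiaSubgroupIn_iff]
  refine ⟨hσ, fun x hx => ?_⟩
  rw [← GT_zero_iff_mem_nonunits]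
  apply h
  rw [← mem_OO, OO_wq]
  exact hx

theorem Iq_le_Dq : Iq q ≤ Dq q := fun _ hσ => Valuation.mem_decomposition_of_mem_inertia _ hσ

end WQ

section ZQ

variable (q : Nat.Primes)

local instance factq : Fact (q : ℕ).Prime := ⟨q.2⟩

theorem mem_place_iff_norm {x : Qb} :
    x ∈ primeLocalPlace q ↔ ‖padicEmbedding (q : ℕ) x‖ ≤ 1 :=
  E.mem_padicPlace_iff_norm (q : ℕ)

theorem GE_zero_iff_norm {x : Qb} : (wq q).GE x 0 ↔ ‖padicEmbedding (q : ℕ) x‖ ≤ 1 := by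
  rw [← mem_place_iff_norm, ← OO_wq, mem_OO]

theorem GT_zero_of_norm_lt {x : Qb} (h : ‖padicEmbedding (q : ℕ) x‖ < 1) : (wq q).GT x 0 := by
  by_cases hx : x = 0
  · exact Or.inl hx
  right
  rw [rval_pos_iff (fun _ hx => wq_nonneg_iff q hx) hx, mem_place_iff_norm, map_inv₀, norm_inv,
    not_le]
  have h0 : 0 < ‖padicEmbedding (q : ℕ) x‖ := norm_pos_iff.2 ((map_ne_zero _).2 hx)
  exact (one_lt_inv₀ h0).2 h

theorem w_eq_zero_of_norm {x : Qb} (h : ‖padicEmbedding (q : ℕ) x‖ = 1) : (wq q).EQ x 0 := by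
  have hx : x ≠ 0 := by
    rintro rfl
    simp at h
  have h1 := (wq_nonneg_iff q hx).2 ((mem_place_iff_norm q).2 h.le)
  have h2 := (wq_nonneg_iff q (inv_ne_zero hx)).2
    ((mem_place_iff_norm q).2 (by rw [map_inv₀, norm_inv, h, inv_one]))
  rw [RVal.w_inv hx] at h2
  exact ⟨hx, by linarith⟩

theorem w_q_zpow (n : ℤ) : (wq q).EQ (((q : ℕ) : Qb) ^ n) n :=
  ⟨zpow_ne_zero n (q_ne_zero q), by rw [RVal.w_zpow (q_ne_zero q), wq_q, mul_one]⟩

theorem GT_of_norm_lt {x : Qb} {n : ℤ} (h : ‖padicEmbedding (q : ℕ) x‖ < ((q : ℕ) : ℝ) ^ (-n)) :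
    (wq q).GT x n := by
  have hq0 : (0 : ℝ) < ((q : ℕ) : ℝ) := by exact_mod_cast q.2.pos
  have h1 : ‖padicEmbedding (q : ℕ) (x * ((q : ℕ) : Qb) ^ (-n))‖ < 1 := by
    rw [map_mul, norm_mul, E.norm_padicEmbedding_natCast_zpow, neg_neg]
    rw [zpow_neg] at h
    have := mul_lt_mul_of_pos_right h (zpow_pos hq0 n)
    rwa [inv_mul_cancel₀ (zpow_pos hq0 n).ne'] at this
  have h2 := (GT_zero_of_norm_lt q h1).mul_GE ((w_q_zpow q n).GE le_rfl)
  rw [mul_assoc, ← zpow_add₀ (q_ne_zero q), neg_add_cancel, zpow_zero, mul_one, zero_add] at h2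
  exact h2

/-- the elements of the decomposition field lie in `ℚ_q` -/
theorem exists_padic {z : Qb} (hz : z ∈ Fx (Dq q)) :
    ∃ c : ℚ_[(q : ℕ)], algebraMap ℚ_[(q : ℕ)] (PadicAlgCl (q : ℕ)) c = padicEmbedding (q : ℕ) z := by
  have h1 : padicEmbedding (q : ℕ) z ∈ Set.range (algebraMap ℚ_[(q : ℕ)] (PadicAlgCl (q : ℕ))) := by
    rw [InfiniteGalois.mem_range_algebraMap_iff_fixed]
    intro τ
    rw [← padicEmbedding_localGaloisToGlobal,
      mem_Fx.1 hz _ (localGaloisToGlobal_mem_decompositionSubgroup (q : ℕ) τ)]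
  exact h1

theorem norm_sub_rat {z : Qb} {c : ℚ_[(q : ℕ)]}
    (hc : algebraMap ℚ_[(q : ℕ)] (PadicAlgCl (q : ℕ)) c = padicEmbedding (q : ℕ) z) (a : ℚ) :
    ‖padicEmbedding (q : ℕ) (z - algebraMap ℚ Qb a)‖ = ‖c - a‖ := by
  rw [map_sub, AlgHom.commutes, ← hc,
    IsScalarTower.algebraMap_apply ℚ ℚ_[(q : ℕ)] (PadicAlgCl (q : ℕ)), ← map_sub,
    PadicAlgCl.norm_extends]
  simp

/-- elements of the decomposition field can be approximated by rational numbers -/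
theorem exists_rat_approx {z : Qb} (hz : z ∈ Fx (Dq q)) (r : ℝ) :
    ∃ a : ℚ, (wq q).GT (z - algebraMap ℚ Qb a) r := by
  obtain ⟨c, hc⟩ := exists_padic q hz
  obtain ⟨n, hn⟩ := exists_nat_ge r
  have hq0 : (0 : ℝ) < ((q : ℕ) : ℝ) := by exact_mod_cast q.2.pos
  obtain ⟨a, ha⟩ := Padic.rat_dense (q : ℕ) c (zpow_pos hq0 (-(n : ℤ)))
  refine ⟨a, (GT_of_norm_lt q (n := n) ?_).mono (by exact_mod_cast hn)⟩
  rw [norm_sub_rat q hc]
  exact ha

theorem w_int {z : Qb} (hz : z ∈ Fx (Dq q)) (hz0 : z ≠ 0) : ∃ n : ℤ, (wq q).w z = n := by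
  obtain ⟨c, hc⟩ := exists_padic q hz
  have hc0 : c ≠ 0 := by
    rintro rfl
    rw [map_zero] at hc
    exact hz0 ((map_eq_zero _).1 hc.symm)
  have hq0 : (0 : ℝ) < ((q : ℕ) : ℝ) := by exact_mod_cast q.2.pos
  refine ⟨c.valuation, ?_⟩
  have h1 : ‖padicEmbedding (q : ℕ) (z * ((q : ℕ) : Qb) ^ (-c.valuation))‖ = 1 := by
    rw [map_mul, norm_mul, E.norm_padicEmbedding_natCast_zpow, neg_neg, ← hc,
      PadicAlgCl.norm_extends, Padic.norm_eq_zpow_neg_valuation hc0, ← zpow_add₀ hq0.ne',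
      neg_add_cancel, zpow_zero]
  have h2 := (w_eq_zero_of_norm q h1).2
  rw [(wq q).map_mul _ _ hz0 (zpow_ne_zero _ (q_ne_zero q)), (w_q_zpow q _).2] at h2
  push_cast at h2
  linarith

/-- integral elements of the decomposition field are congruent to natural numbers -/
theorem exists_nat_congr {z : Qb} (hz : z ∈ Fx (Dq q)) (hz0 : (wq q).GE z 0) :
    ∃ k : ℕ, (wq q).GT (z - (k : Qb)) 0 := by
  obtain ⟨c, hc⟩ := exists_padic q hz
  have hc1 : ‖c‖ ≤ 1 := by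
    rw [← PadicAlgCl.norm_extends, hc]
    exact (GE_zero_iff_norm q).1 hz0
  obtain ⟨k, -, hk⟩ := PadicInt.exists_mem_range (⟨c, hc1⟩ : ℤ_[(q : ℕ)])
  refine ⟨k, GT_zero_of_norm_lt q ?_⟩
  rw [IsLocalRing.mem_maximalIdeal, PadicInt.mem_nonunits] at hk
  have := norm_sub_rat q hc (k : ℚ)
  rw [map_natCast] at this
  rw [this]
  have e : ‖(⟨c, hc1⟩ - (k : ℤ_[(q : ℕ)]) : ℤ_[(q : ℕ)])‖ = ‖c - ((k : ℚ) : ℚ_[(q : ℕ)])‖ := by
    rw [PadicInt.norm_def]
    push_cast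
    rfl
  rw [← e]
  exact hk

theorem GT_intCast_iff {n : ℤ} : (wq q).GT (n : Qb) 0 ↔ ((q : ℕ) : ℤ) ∣ n := by
  constructor
  · intro h
    by_contra hn
    have := rval_int_unit q.2 (D.liesOverPrime_primeLocalPlace q)
      (fun _ hx => wq_nonneg_iff q hx) hn
    have h2 := h.lt_w this.1
    rw [this.2] at h2
    exact lt_irrefl _ h2
  · intro hn
    by_cases h0 : n = 0
    · left; rw [h0]; simp
    · exact Or.inr (rval_int_pos q.2 (D.liesOverPrime_primeLocalPlace q)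
        (fun _ hx => wq_nonneg_iff q hx) h0 hn)

/-- **the decomposition field is a local field with uniformiser `q` and residue field `𝔽_q`** -/
theorem lf_Dq : LF (wq q) (Dq q) ((q : ℕ) : Qb) q q := by
  have hqpos : 0 < (wq q).w ((q : ℕ) : Qb) := by rw [wq_q]; exact one_pos
  refine ⟨pres_Dq q, ⟨natCast_mem _ _, q_ne_zero q, hqpos, ?_⟩,
    ⟨q.2, ⟨1, one_pos, (pow_one _).symm⟩, hqpos, ?_, ?_⟩⟩
  · intro x hx hx0
    obtain ⟨n, hn⟩ := w_int q hx hx0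
    exact ⟨n, by rw [hn, wq_q, mul_one]⟩
  · intro x hx hx0
    obtain ⟨k, hk⟩ := exists_nat_congr q hx hx0
    have h1 : (wq q).GT ((k : Qb) ^ (q : ℕ) - (k : Qb)) 0 := by
      have h2 : ((q : ℕ) : ℤ) ∣ (k : ℤ) ^ (q : ℕ) - k := by
        rw [← ZMod.intCast_zmod_eq_zero_iff_dvd]
        push_cast
        rw [ZMod.pow_card, sub_self]
      have := (GT_intCast_iff q).2 h2
      exact_mod_cast this
    have h3 := GT_pow_sub_pow (wq q) hx0 (RVal.GE_natCast k) hk (q : ℕ)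
    have e : x ^ (q : ℕ) - x = (x ^ (q : ℕ) - (k : Qb) ^ (q : ℕ)) + ((k : Qb) ^ (q : ℕ) - k)
        - (x - k) := by ring
    rw [e]
    exact (h3.add h1).sub hk
  · obtain ⟨u, hu⟩ := IsCyclic.exists_generator (α := (ZMod (q : ℕ))ˣ)
    have hord : orderOf u = (q : ℕ) - 1 := by
      rw [orderOf_eq_card_of_forall_mem_zpowers hu, Nat.card_eq_fintype_card, ZMod.card_units]
    set g : ℕ := (u : ZMod (q : ℕ)).val with hg
    have hgu : ((g : ℕ) : ZMod (q : ℕ)) = u := by rw [hg, ZMod.natCast_zmod_val]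
    have hpow : ∀ d : ℕ, (wq q).GT ((g : Qb) ^ d - 1) 0 ↔ u ^ d = 1 := by
      intro d
      have e : ((g : Qb) ^ d - 1) = (((g : ℤ) ^ d - 1 : ℤ) : Qb) := by push_cast; ring
      rw [e, GT_intCast_iff, ← ZMod.intCast_zmod_eq_zero_iff_dvd]
      push_cast
      rw [hgu, sub_eq_zero, ← Units.val_pow_eq_pow_val, Units.val_eq_one]
    have hM : 0 < (q : ℕ) - 1 := Nat.sub_pos_of_lt q.2.one_lt
    have hMv : (wq q).w (((q : ℕ) - 1 : ℕ) : Qb) = 0 := by
      apply w_natCast_eq_zero q.2 hqpos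
      intro hdvd
      have := Nat.le_of_dvd hM hdvd
      omega
    obtain ⟨η, hη, hη1, hηg⟩ := exists_rootOfUnity (pres_Dq q) hM hMv (natCast_mem _ g)
      ((hpow _).2 (by rw [← hord]; exact pow_orderOf_eq_one u))
    refine ⟨η, hη, ⟨hη1, fun d hd => ?_⟩⟩
    rw [← hord]
    apply orderOf_dvd_of_pow_eq_one
    rw [← hpow]
    have hηE := w_eq_zero_of_pow_eq_one (v := wq q) hM hη1
    have := GT_pow_sub_pow (wq q) (hηE.GE le_rfl) (RVal.GE_natCast g) hηg d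
    rw [hd] at this
    have h2 := this.neg
    rwa [neg_sub] at h2

end ZQ

section Open

variable {q : Nat.Primes}

/-- open subgroups of the decomposition group, as subgroups of `GQ` -/
structure IsOp (q : Nat.Primes) (H : Subgroup GQ) : Prop where
  le : H ≤ Dq q
  op : ∃ F : IntermediateField ℚ Qb, FiniteDimensional ℚ F ∧ Dq q ⊓ F.fixingSubgroup ≤ H

theorem IsOp.relIndex_ne_zero' {H H' : Subgroup GQ} (h' : IsOp q H') (hH : H ≤ Dq q) :
    H'.relIndex H ≠ 0 := by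
  obtain ⟨F, hF, hle⟩ := h'.op
  have hfi : F.fixingSubgroup.FiniteIndex := E.finiteIndex_fixingSubgroup F hF
  have h1 : (H ⊓ F.fixingSubgroup).relIndex H ≠ 0 := by
    rw [Subgroup.inf_relIndex_left]
    exact (inferInstance : (F.fixingSubgroup.subgroupOf H).FiniteIndex).index_ne_zero
  have h2 : H ⊓ F.fixingSubgroup ≤ H' := le_trans (inf_le_inf_right _ hH) hle
  intro h0
  have := Subgroup.relIndex_dvd_of_le_left H h2
  rw [h0, zero_dvd_iff] at this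
  exact h1 this

theorem IsOp.relIndex_ne_zero {H : Subgroup GQ} (h : IsOp q H) : H.relIndex (Dq q) ≠ 0 :=
  h.relIndex_ne_zero' le_rfl

theorem isOp_Dq : IsOp q (Dq q) := ⟨le_rfl, ⊥, inferInstance, inf_le_left⟩

theorem IsOp.pres {H : Subgroup GQ} (h : IsOp q H) : Pres (wq q) H := (pres_Dq q).mono h.le

theorem IsOp.of_le {H H' : Subgroup GQ} (h : IsOp q H) (hle : H ≤ H') (hD : H' ≤ Dq q) :
    IsOp q H' := by
  obtain ⟨F, hF, hFH⟩ := h.op
  exact ⟨hD, F, hF, hFH.trans hle⟩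

theorem IsOp.inf {H H' : Subgroup GQ} (h : IsOp q H) (h' : IsOp q H') : IsOp q (H ⊓ H') := by
  obtain ⟨F, hF, hFH⟩ := h.op
  obtain ⟨F', hF', hFH'⟩ := h'.op
  refine ⟨inf_le_left.trans h.le, F ⊔ F', IntermediateField.finiteDimensional_sup F F', ?_⟩
  intro σ hσ
  have h1 : σ ∈ F.fixingSubgroup := IntermediateField.fixingSubgroup_le le_sup_left hσ.2
  have h2 : σ ∈ F'.fixingSubgroup := IntermediateField.fixingSubgroup_le le_sup_right hσ.2
  exact ⟨hFH ⟨hσ.1, h1⟩, hFH' ⟨hσ.1, h2⟩⟩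

/-- `stab H z` is open -/
theorem IsOp.stab {H : Subgroup GQ} (h : IsOp q H) (z : Qb) : IsOp q (stab H z) := by
  obtain ⟨F, hF, hFH⟩ := h.op
  have hz : IsIntegral ℚ z := (AlgebraicClosure.isAlgebraic ℚ).isAlgebraic z |>.isIntegral
  have hfd : FiniteDimensional ℚ (IntermediateField.adjoin ℚ {z}) :=
    IntermediateField.adjoin.finiteDimensional hz
  refine ⟨(stab_le H z).trans h.le, F ⊔ IntermediateField.adjoin ℚ {z},
    IntermediateField.finiteDimensional_sup _ _, ?_⟩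
  intro σ hσ
  have h1 : σ ∈ F.fixingSubgroup := IntermediateField.fixingSubgroup_le le_sup_left hσ.2
  have h2 : σ ∈ (IntermediateField.adjoin ℚ {z}).fixingSubgroup :=
    IntermediateField.fixingSubgroup_le le_sup_right hσ.2
  refine ⟨hFH ⟨hσ.1, h1⟩, ?_⟩
  exact (IntermediateField.mem_fixingSubgroup_iff _ σ).1 h2 z
    (IntermediateField.mem_adjoin_simple_self ℚ z)

/-- conjugates by elements of `Dq q` -/
theorem IsOp.conj {H : Subgroup GQ} (h : IsOp q H) {g : GQ} (hg : g ∈ Dq q) :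
    IsOp q (H.map (MulAut.conj g).toMonoidHom) := by
  obtain ⟨F, hF, hFH⟩ := h.op
  refine ⟨?_, F.map (g : Qb →ₐ[ℚ] Qb), inferInstance, ?_⟩
  · rintro _ ⟨x, hx, rfl⟩
    exact (Dq q).mul_mem ((Dq q).mul_mem hg (h.le hx)) ((Dq q).inv_mem hg)
  · intro σ hσ
    refine ⟨g⁻¹ * σ * g, hFH ⟨?_, ?_⟩, ?_⟩
    · exact (Dq q).mul_mem ((Dq q).mul_mem ((Dq q).inv_mem hg) hσ.1) hg
    · change g⁻¹ * σ * g ∈ F.fixingSubgroup
      rw [IntermediateField.mem_fixingSubgroup_iff]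
      intro x hx
      have h1 := (IntermediateField.mem_fixingSubgroup_iff _ σ).1 hσ.2 (g x) ⟨x, hx, rfl⟩
      rw [AlgEquiv.mul_apply, AlgEquiv.mul_apply, h1, inv_apply_apply]
    · change g * (g⁻¹ * σ * g) * g⁻¹ = σ
      group

/-- **every open subgroup of `Dq q` "is" a local field** -/
theorem IsOp.exists_lf {H : Subgroup GQ} (h : IsOp q H) : ∃ π Q, LF (wq q) H π q Q :=
  lf_of_relIndex (lf_Dq q) h.le h.relIndex_ne_zero

/-- `Cyc` from group theory, for open subgroups of `Dq q` -/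
theorem IsOp.cyc {H H' : Subgroup GQ} (h' : IsOp q H') (hH : H ≤ Dq q) (hle : H' ≤ H) {s : GQ}
    (hs : s ∈ H) {n : ℕ} (hn : 0 < n) (hconj : ∀ h ∈ H', s * h * s⁻¹ ∈ H' ∧ s⁻¹ * h * s ∈ H')
    (hgen : ∀ σ ∈ H, ∃ i < n, (s ^ i)⁻¹ * σ ∈ H') (hpow : s ^ n ∈ H')
    (hmin : ∀ i, 0 < i → i < n → s ^ i ∉ H') : Cyc H H' s n := by
  obtain ⟨F, hF, hFH⟩ := h'.op
  exact cyc_of_open F (le_trans (inf_le_inf_right _ hH) hFH) hle hs hn hconj hgen hpow hmin

end Open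

end Fermat.Agent.S55.B
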