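import Fermat.Agent.S55.B.LocS
import Fermat.Agent.S55.C.Main
import Fermat.Agent.S14.BridgePlaces

/-!
# S55/B : number fields inside the local fields: density, places, local `p`-th powers
(keys `S55/B-DENS` = section Dense;  `S55/B-PLACE` = section Place;  `S55/B-OVER` = section Over (`w_eq` ... `loc_pow`))

`F` a number field (a type), `j : F →ₐ[ℚ] Qb`, `HH q j = Dq q ⊓ Fix (j F)`; the local field is `Fx (HH q j) = j F · Z_q`.
`S14.Br.Over j A v` : `∀ x : 𝓞 F, x ∈ v.asIdeal ↔ j x ∈ A.nonunits` (API in `S14/BridgePlaces.lean`).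

## Dense
`isOp_HH`: `F' = j.fieldRange` is finite dimensional.
`dense_HH`: primitive element `F = ℚ(θ₀)` (`Field.exists_primitive_element ℚ F`), `θ = j θ₀`; `HH q j = stab (Dq q) θ` (an automorphism fixing `θ` fixes `j F`:
every element of `F` is a polynomial in `θ₀`, `IntermediateField.adjoin_simple...`/`Algebra.adjoin`; or `AlgHom.ext_of_adjoin_eq_top`).  The orbit of `θ` is finite
(roots of `minpoly ℚ θ`).  `exists_coeffs_stab`: `x = ∑_{i<n} c_i θ^i`, `c_i ∈ Fx (Dq q)`; `exists_rat_approx`: `a_i ∈ ℚ`, `w (c_i - a_i) > r - i w θ` (`θ ≠ 0` or `F = ℚ`...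
simply ask `> r + n |w θ|`); `y = ∑ a_i θ₀^i`; `GT_sum`.
`dense_units`: apply `dense_HH` with `r + w x`; then `w (j y) = w x`, in particular `y ≠ 0`.
## Place
`exists_place`: the ideal `{x : 𝓞 F | j x ∈ A.nonunits}` is prime, non zero (contains `q`), so it is a `HeightOneSpectrum`.
`exists_embedding`: any `j₀ : F →ₐ[ℚ] Qb` (`IsAlgClosed.lift`), `S14.Br.exists_over j₀ v` gives `A`, `Over.exists_prime` gives `l`, `D.exists_conj_place`/`D.exists_smul_eq` gives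
`g • A = primeLocalPlace l`; `j = g ∘ j₀` (`x ∈ A.nonunits ↔ g x ∈ (g • A).nonunits`, `E.smul_mem_nonunits_iff`).
`exists_embedding_ext`: the same for `Z` and a place `w` of `Z` above `v` (`S14.fiber_nonempty`), `j = jZ ∘ algebraMap`; `Over jZ A w → Over j A (below w)`.
## Over
`w_eq`: `x / ϖ^(ord x)` has `ord = 0`, so `A.valuation (j ·) = 1` (`Over.valuation_eq_one`), so it and its inverse are in `A`, `w = 0` (`wq_nonneg_iff`).
`w_pos`: `Over.valuation_lt_one`.  `isUnif`: `x ∈ Fx (HH q j)`, `x ≠ 0`: `dense_units` gives `y` with `w x = w (j y) = ord y * w (j ϖ)`.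
`mem_Ulev_iff`: `x ∈ Ulev v n ↔ ord x = 0 ∧ (x = 1 ∨ ord (x - 1) ≥ n)` (see `C.LpAux`, `S14.Basic`), then `w_eq`.
`w_natCast`: `w_eq` for `C.pU F p`, `eV p v = (ord v (pU F p)).toNat`, `ord ≥ 0`.
`loc_pow` (⟹) `a = y^p u`, `u ∈ Ulev v (2 e + 1)` (`C.mem_lp_iff`): `w (j u - 1) ≥ (2e+1) w (j ϖ) > 2 w p`; `exists_root`.
(⟸) `j a = t^p`; `dense_units`: `y` with `w (t / j y - 1) > (2e+1) w (j ϖ)`; then `w ((t / j y)^p - 1)` too (`GT_pow_sub_pow`), so `a / y^p ∈ Ulev v (2e+1)`.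
-/

set_option autoImplicit false

noncomputable section

namespace Fermat.Agent.S55.B

open Fermat.Agent.S05 Fermat.Agent.S14 ExtCitation NumberField

variable {F : Type*} [Field F] [NumberField F]

/-- the open subgroup of `Dq q` attached to an embedded number field -/
def HH (q : Nat.Primes) (j : F →ₐ[ℚ] Qb) : Subgroup GQ := Dq q ⊓ j.fieldRange.fixingSubgroup

section Dense

variable (q : Nat.Primes) (j : F →ₐ[ℚ] Qb)

theorem mem_HH {σ : GQ} : σ ∈ HH q j ↔ σ ∈ Dq q ∧ ∀ x : F, σ (j x) = j x := by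
  rw [HH, Subgroup.mem_inf, IntermediateField.mem_fixingSubgroup_iff]
  refine and_congr_right fun _ => ⟨fun h x => h _ ⟨x, rfl⟩, ?_⟩
  rintro h _ ⟨x, rfl⟩
  exact h x

theorem finiteDimensional_fieldRange : FiniteDimensional ℚ j.fieldRange :=
  (AlgEquiv.ofInjectiveField j).toLinearEquiv.finiteDimensional

theorem isOp_HH : IsOp q (HH q j) :=
  ⟨inf_le_left, j.fieldRange, finiteDimensional_fieldRange j, le_rfl⟩

theorem pres_HH : Pres (wq q) (HH q j) := (pres_Dq q).mono inf_le_left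

/-- `HH q j` is the stabiliser of a primitive element -/
theorem HH_eq_stab {θ : F} (hθ : IntermediateField.adjoin ℚ {θ} = ⊤) :
    HH q j = stab (Dq q) (j θ) := by
  ext g
  rw [mem_HH, mem_stab]
  refine and_congr_right fun _ => ⟨fun h => h θ, fun hg y => ?_⟩
  have h1 := IntermediateField.algHom_ext_of_eq_adjoin ℚ hθ.symm
    (φ₁ := ((g : Qb →ₐ[ℚ] Qb).comp j).comp (⊤ : IntermediateField ℚ F).val)
    (φ₂ := j.comp (⊤ : IntermediateField ℚ F).val) (by
      rintro x (rfl : x = θ)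
      exact hg)
  exact congr($h1 ⟨y, trivial⟩)

theorem map_mem_Fx (x : F) : j x ∈ Fx (HH q j) :=
  mem_Fx.2 fun _ hσ => ((mem_HH q j).1 hσ).2 x

/-- **density** of `j F` in `Fx (HH q j)` -/
theorem dense_HH {x : Qb} (hx : x ∈ Fx (HH q j)) (r : ℝ) : ∃ y : F, (wq q).GT (x - j y) r := by
  obtain ⟨θ, hθ⟩ := Field.exists_primitive_element ℚ F
  rw [HH_eq_stab q j hθ] at hx
  have hfin : {y | ∃ σ ∈ Dq q, σ (j θ) = y}.Finite := by
    have hint : IsIntegral ℚ (j θ) := (Algebra.IsIntegral.isIntegral θ).map j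
    refine ((minpoly ℚ (j θ)).rootSet_finite Qb).subset ?_
    rintro _ ⟨σ, -, rfl⟩
    rw [Polynomial.mem_rootSet]
    refine ⟨minpoly.ne_zero hint, ?_⟩
    rw [Polynomial.aeval_algHom_apply, minpoly.aeval, map_zero]
  obtain ⟨n, c, hc, rfl⟩ := exists_coeffs_stab hfin hx
  choose a ha using fun i => exists_rat_approx q (hc i) (r - (wq q).w ((j θ) ^ i))
  refine ⟨∑ i ∈ Finset.range n, algebraMap ℚ F (a i) * θ ^ i, ?_⟩
  rw [map_sum, ← Finset.sum_sub_distrib]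
  refine GT_sum _ _ _ _ fun i _ => ?_
  rw [map_mul, map_pow, AlgHom.commutes, ← sub_mul]
  by_cases h0 : (j θ) ^ i = 0
  · rw [h0, mul_zero]; exact RVal.GT_zero _
  · have := (ha i).mul_GE ((RVal.EQ_self (v := wq q) h0).GE le_rfl)
    simpa using this

theorem dense_units {x : Qb} (hx : x ∈ Fx (HH q j)) (hx0 : x ≠ 0) (r : ℝ) :
    ∃ y : Fˣ, (wq q).GT (x / j y - 1) r := by
  obtain ⟨y, hy⟩ := dense_HH q j hx ((wq q).w x + max r 0)
  have hEQ : (wq q).EQ (j y) ((wq q).w x) := by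
    have h1 := (RVal.EQ_self (v := wq q) hx0).sub_GT
      (hy.mono (by linarith [le_max_right r 0]))
    rwa [sub_sub_cancel] at h1
  have hy0 : y ≠ 0 := by
    rintro rfl
    exact hEQ.1 (map_zero _)
  refine ⟨Units.mk0 y hy0, ?_⟩
  have e : x / j y - 1 = (x - j y) * (j y)⁻¹ := by
    have := hEQ.1
    field_simp
  rw [Units.val_mk0, e]
  have := hy.mul_GE (hEQ.inv.GE le_rfl)
  refine this.mono ?_
  linarith [le_max_left r 0]

end Dense

section Place

theorem exists_place (q : Nat.Primes) (j : F →ₐ[ℚ] Qb) :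
    ∃ v : Pl F, Br.Over j (primeLocalPlace q) v := by
  let A := primeLocalPlace q
  let f : 𝓞 F →+* A :=
    ((j : F →+* Qb).comp (algebraMap (𝓞 F) F)).codRestrict A.toSubring
      (fun a => Br.map_integer_mem A a)
  have hf : ∀ x : 𝓞 F, x ∈ (IsLocalRing.maximalIdeal A).comap f ↔ j (x : F) ∈ A.nonunits := by
    intro x
    rw [Ideal.mem_comap, ValuationSubring.mem_nonunits_iff_exists_mem_maximalIdeal]
    constructor
    · intro h
      exact ⟨Br.map_integer_mem A x, h⟩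
    · rintro ⟨_, h⟩
      exact h
  refine ⟨⟨(IsLocalRing.maximalIdeal A).comap f, Ideal.comap_isPrime _ _, ?_⟩, hf⟩
  intro hbot
  have h1 : ((q : ℕ) : 𝓞 F) ∈ (IsLocalRing.maximalIdeal A).comap f := by
    rw [hf]
    have := D.liesOverPrime_primeLocalPlace q
    simpa [ValuationSubring.LiesOverPrime] using this
  rw [hbot, Ideal.mem_bot] at h1
  exact q.2.ne_zero (by exact_mod_cast h1)

open scoped Pointwise in
theorem exists_embedding (v : Pl F) :
    ∃ (q : Nat.Primes) (j : F →ₐ[ℚ] Qb), Br.Over j (primeLocalPlace q) v := by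
  let j₀ : F →ₐ[ℚ] Qb := IsAlgClosed.lift
  obtain ⟨A, hA⟩ := Br.exists_over j₀ v
  obtain ⟨l, hl, hAl, -⟩ := hA.exists_prime
  obtain ⟨g, hg⟩ := D.exists_conj_place (q := ⟨l, hl⟩) hAl
  refine ⟨⟨l, hl⟩, ((g⁻¹ : GQ) : Qb →ₐ[ℚ] Qb).comp j₀, fun x => ?_⟩
  rw [hA x, ← hg]
  have := E.smul_mem_nonunits_iff (g • primeLocalPlace ⟨l, hl⟩) g⁻¹ (j₀ (x : F))
  rw [inv_smul_smul] at this
  exact this.symm

theorem exists_embedding_ext {Z : Type*} [Field Z] [NumberField Z] [Algebra F Z] (w : Pl Z) :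
    ∃ (q : Nat.Primes) (j : F →ₐ[ℚ] Qb) (jZ : Z →ₐ[ℚ] Qb), (∀ x : F, jZ (algebraMap F Z x) = j x) ∧
      Br.Over jZ (primeLocalPlace q) w ∧ Br.Over j (primeLocalPlace q) (below w) := by
  obtain ⟨q, jZ, hw⟩ := exists_embedding w
  refine ⟨q, jZ.comp (IsScalarTower.toAlgHom ℚ F Z), jZ, fun x => rfl, hw, fun x => ?_⟩
  rw [kum_mem_below, hw]
  rfl

end Place

section Over

variable {q : Nat.Primes} {j : F →ₐ[ℚ] Qb} {v : Pl F}

theorem map_unit_ne_zero (x : Fˣ) : j (x : F) ≠ 0 := by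
  rw [Ne, map_eq_zero]; exact x.ne_zero

theorem Over.ord_nonneg_iff_w (hv : Br.Over j (primeLocalPlace q) v) (x : Fˣ) :
    0 ≤ ord v x ↔ 0 ≤ (wq q).w (j x) := by
  rw [hv.ord_nonneg_iff, wq_nonneg_iff q (map_unit_ne_zero x)]

theorem Over.w_eq_zero (hv : Br.Over j (primeLocalPlace q) v) {x : Fˣ} (hx : ord v x = 0) :
    (wq q).w (j x) = 0 := by
  have h1 := (Over.ord_nonneg_iff_w hv x).mp hx.ge
  have h2 := (Over.ord_nonneg_iff_w hv x⁻¹).mp (by rw [ord_inv, hx]; simp)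
  rw [Units.val_inv_eq_inv_val, map_inv₀, RVal.w_inv (map_unit_ne_zero x)] at h2
  linarith

theorem Over.w_eq (hv : Br.Over j (primeLocalPlace q) v) {ϖ : Fˣ} (hϖ : ord v ϖ = 1) (x : Fˣ) :
    (wq q).w (j x) = ord v x * (wq q).w (j ϖ) := by
  have hne : ∀ x : Fˣ, j (x : F) ≠ 0 := map_unit_ne_zero
  have h0 : ord v (x * (ϖ ^ (ord v x))⁻¹) = 0 := by
    rw [ord_mul, ord_inv, ord_zpow, hϖ]; ring
  have h1 := Over.w_eq_zero hv h0
  push_cast at h1
  rw [map_mul, map_inv₀, map_zpow₀,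
    (wq q).map_mul _ _ (hne x) (inv_ne_zero (zpow_ne_zero _ (hne ϖ))),
    RVal.w_inv (zpow_ne_zero _ (hne ϖ)), RVal.w_zpow (hne ϖ)] at h1
  linarith

theorem Over.w_pos (hv : Br.Over j (primeLocalPlace q) v) {ϖ : Fˣ} (hϖ : ord v ϖ = 1) :
    0 < (wq q).w (j ϖ) := by
  have h1 := (Over.ord_nonneg_iff_w hv ϖ).mp (by omega)
  refine lt_of_le_of_ne h1 (fun h0 => ?_)
  have h2 := (Over.ord_nonneg_iff_w hv ϖ⁻¹).mpr (by
    rw [Units.val_inv_eq_inv_val, map_inv₀, RVal.w_inv (map_unit_ne_zero ϖ), ← h0]; simp)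
  rw [ord_inv, hϖ] at h2
  omega

theorem Over.isUnif (hv : Br.Over j (primeLocalPlace q) v) {ϖ : Fˣ} (hϖ : ord v ϖ = 1) :
    IsUnif (wq q) (HH q j) (j ϖ) := by
  refine ⟨map_mem_Fx q j _, map_unit_ne_zero ϖ, Over.w_pos hv hϖ, fun x hx hx0 => ?_⟩
  obtain ⟨y, hy⟩ := dense_units q j hx hx0 0
  refine ⟨ord v y, ?_⟩
  rw [← Over.w_eq hv hϖ y]
  have h1 : (wq q).EQ (x / j y) 0 := by
    have := (RVal.EQ_one (v := wq q)).add_GT hy
    rwa [add_sub_cancel] at this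
  have h2 := h1.2
  rw [RVal.w_div hx0 (map_unit_ne_zero y)] at h2
  linarith

theorem Over.mem_Ulev_iff (hv : Br.Over j (primeLocalPlace q) v) {ϖ : Fˣ} (hϖ : ord v ϖ = 1)
    (x : Fˣ) {n : ℕ} (hn : 0 < n) :
    x ∈ Ulev v n ↔ (wq q).GE (j x - 1) (n * (wq q).w (j ϖ)) := by
  have hc := Over.w_pos hv hϖ
  have hw := Over.w_eq hv hϖ
  set c := (wq q).w (j ϖ) with hcdef
  rw [S14.mem_Ulev_iff]
  by_cases hx1 : (x : F) - 1 = 0
  · have h1 : (x : F) = 1 := sub_eq_zero.mp hx1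
    simp [h1, RVal.GE]
  set Y : Fˣ := Units.mk0 _ hx1 with hY
  have hYι : j (x : F) - 1 = j (Y : F) := by simp [Y]
  have hYv : v.valuation F ((x : F) - 1) = WithZero.exp (- ord v Y) := by
    rw [← valuation_eq_exp]; rfl
  rw [hYι, hYv, WithZero.exp_le_exp, neg_le_neg_iff]
  have hiff : (n : ℤ) ≤ ord v Y ↔ (wq q).GE (j (Y : F)) (n * c) := by
    constructor
    · intro h
      right
      rw [hw]
      have : ((n : ℤ) : ℝ) ≤ (ord v Y : ℝ) := by exact_mod_cast h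
      push_cast at this
      nlinarith
    · intro h
      have h1 := h.le_w (map_unit_ne_zero Y)
      rw [hw] at h1
      have h2 : (n : ℝ) ≤ (ord v Y : ℝ) := le_of_mul_le_mul_right h1 hc
      exact_mod_cast h2
  rw [← hiff]
  refine ⟨fun h => h.2, fun h => ⟨?_, h⟩⟩
  have hlt1 : v.valuation F ((x : F) - 1) < 1 := by
    rw [hYv, ← WithZero.exp_zero, WithZero.exp_lt_exp]
    have : (0 : ℤ) < n := by exact_mod_cast hn
    omega
  have := Valuation.map_one_add_of_lt _ hlt1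
  rwa [add_sub_cancel] at this

theorem Over.w_natCast (hv : Br.Over j (primeLocalPlace q) v) {ϖ : Fˣ} (hϖ : ord v ϖ = 1)
    (p : ℕ) [Fact p.Prime] : (wq q).w ((p : ℕ) : Qb) = C.eV p v * (wq q).w (j ϖ) := by
  have h1 := Over.w_eq hv hϖ (C.pU F p)
  rw [C.coe_pU, map_natCast] at h1
  rw [h1]
  have h2 : 0 ≤ ord v (C.pU F p) := ord_nonneg_of_integer v _ (p : 𝓞 F) (by simp)
  have h3 : ((C.eV p v : ℕ) : ℤ) = ord v (C.pU F p) := Int.toNat_of_nonneg h2
  rw [← h3]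
  simp

/-- elements of `U^(2e+1)` are `p`-th powers in the local field -/
theorem exists_root_of_mem_Ulev (hv : Br.Over j (primeLocalPlace q) v) {p : ℕ} [Fact p.Prime] {u : Fˣ}
    (hu : u ∈ Ulev v (C.lev p v)) : ∃ y ∈ Fx (HH q j), y ^ p = j u := by
  obtain ⟨ϖ, hϖ'⟩ := exists_ord_eq ({v} : Finset (Pl F)) (fun _ => 1)
  have hϖ : ord v ϖ = 1 := hϖ' v (Finset.mem_singleton_self v)
  have hc := Over.w_pos hv hϖ
  have h1 := (Over.mem_Ulev_iff hv hϖ u (by unfold C.lev; omega)).mp hu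
  have h2 : (wq q).GT (j (u : F) - 1) (2 * (wq q).w ((p : ℕ) : Qb)) := by
    refine h1.GT ?_
    rw [Over.w_natCast hv hϖ p, C.lev]
    push_cast
    nlinarith
  obtain ⟨b, hb, hbp, -⟩ :=
    exists_root (pres_HH q j) (Fact.out : p.Prime).pos (map_mem_Fx q j (u : F)) h2
  exact ⟨b, hb, hbp⟩

/-- **(loc-pow)** : `C.lp p v` = the elements of `Fˣ` which are `p`-th powers in the local field -/
theorem loc_pow (hv : Br.Over j (primeLocalPlace q) v) (p : ℕ) [Fact p.Prime] (a : Fˣ) :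
    a ∈ C.lp p v ↔ ∃ t ∈ Fx (HH q j), t ^ p = j a := by
  have hp : p.Prime := Fact.out
  constructor
  · intro ha
    obtain ⟨_, ⟨d, rfl⟩, u, hu, rfl⟩ := Subgroup.mem_sup.mp ha
    obtain ⟨y, hy, hyp⟩ := exists_root_of_mem_Ulev hv hu
    refine ⟨j (d : F) * y, mul_mem (map_mem_Fx q j _) hy, ?_⟩
    rw [mul_pow, hyp, powMonoidHom_apply]
    push_cast
    rw [map_mul, map_pow]
  · rintro ⟨y, hy, hyp⟩
    obtain ⟨ϖ, hϖ'⟩ := exists_ord_eq ({v} : Finset (Pl F)) (fun _ => 1)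
    have hϖ : ord v ϖ = 1 := hϖ' v (Finset.mem_singleton_self v)
    have hc := Over.w_pos hv hϖ
    have hy0 : y ≠ 0 := by
      rintro rfl
      rw [zero_pow hp.ne_zero] at hyp
      exact map_unit_ne_zero a hyp.symm
    obtain ⟨D, hD⟩ := dense_units q j hy hy0 ((C.lev p v : ℕ) * (wq q).w (j ϖ))
    have hlev : 0 < ((C.lev p v : ℕ) : ℝ) * (wq q).w (j ϖ) := by
      have : 0 < C.lev p v := by unfold C.lev; omega
      positivity
    set t : Qb := y / j D with ht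
    have ht1 : (wq q).GE (t - 1) ((C.lev p v : ℕ) * (wq q).w (j ϖ)) := hD.GE le_rfl
    have ht0 : (wq q).GE t 0 := by
      have := (ht1.mono hlev.le).add ((RVal.EQ_one (v := wq q)).GE le_rfl)
      rwa [sub_add_cancel] at this
    have h2 := GE_pow_sub_pow _ ht0 ((RVal.EQ_one (v := wq q)).GE le_rfl) ht1 p
    rw [one_pow] at h2
    have h3 : a / D ^ p ∈ Ulev v (C.lev p v) := by
      rw [Over.mem_Ulev_iff hv hϖ _ (by unfold C.lev; omega)]
      have e : j ((a / D ^ p : Fˣ) : F) = t ^ p := by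
        rw [Units.val_div_eq_div_val, map_div₀, ← hyp, ht, div_pow]
        simp
      rw [e]
      exact h2
    have h4 : a = D ^ p * (a / D ^ p) := by
      rw [mul_div_cancel]
    rw [h4]
    exact Subgroup.mul_mem_sup ⟨D, rfl⟩ h3

end Over

end Fermat.Agent.S55.B
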