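import Fermat.Agent.S55.B.Defs

/-!
# S55/B : formal properties of `Fx`, `Nm`, `Tr`, `Cyc`, `stab`      (key `S55/B-BASIC`)

Everything here is a few lines (unfold `Nm`, `Finset.prod_range_succ(_comm)`, `mem_Fx`, `AlgEquiv.mul_apply`,
`pow_succ`, ...).  Add whatever else is useful for the other keys of the layer.
-/

set_option autoImplicit false

namespace Fermat.Agent.S55.B

open Fermat.Agent.S05

variable {K Ω : Type*} [Field K] [Field Ω] [Algebra K Ω]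
variable {H H' : Subgroup (Ω ≃ₐ[K] Ω)} {s : Ω ≃ₐ[K] Ω} {n : ℕ} {v : RVal Ω}

theorem Fx_mono (h : H' ≤ H) : Fx H ≤ Fx H' := fun _ hx => mem_Fx.2 fun σ hσ => mem_Fx.1 hx σ (h hσ)

theorem Pres.mono (hH : Pres v H) (h : H' ≤ H) : Pres v H' := fun σ hσ => hH σ (h hσ)

theorem stab_le (H : Subgroup (Ω ≃ₐ[K] Ω)) (z : Ω) : stab H z ≤ H := fun _ h => h.1

theorem mem_Fx_stab (H : Subgroup (Ω ≃ₐ[K] Ω)) (z : Ω) : z ∈ Fx (stab H z) :=
  mem_Fx.2 fun _ h => h.2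

theorem Pres.GE (hH : Pres v H) {σ : Ω ≃ₐ[K] Ω} (hσ : σ ∈ H) {x : Ω} {a : ℝ} (h : v.GE x a) :
    v.GE (σ x) a :=
  h.imp (fun h => by rw [h, map_zero]) (fun h => by rwa [hH σ hσ])

theorem Pres.GT (hH : Pres v H) {σ : Ω ≃ₐ[K] Ω} (hσ : σ ∈ H) {x : Ω} {a : ℝ} (h : v.GT x a) :
    v.GT (σ x) a :=
  h.imp (fun h => by rw [h, map_zero]) (fun h => by rwa [hH σ hσ])

theorem Pres.EQ (hH : Pres v H) {σ : Ω ≃ₐ[K] Ω} (hσ : σ ∈ H) {x : Ω} {a : ℝ} (h : v.EQ x a) :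
    v.EQ (σ x) a :=
  ⟨(map_ne_zero σ).2 h.1, by rw [hH σ hσ, h.2]⟩

theorem Pres.LE (hH : Pres v H) {σ : Ω ≃ₐ[K] Ω} (hσ : σ ∈ H) {x : Ω} {a : ℝ} (h : v.LE x a) :
    v.LE (σ x) a :=
  ⟨(map_ne_zero σ).2 h.1, by rw [hH σ hσ]; exact h.2⟩

/-! ### powers of an automorphism -/

theorem pow_succ_apply (s : Ω ≃ₐ[K] Ω) (i : ℕ) (x : Ω) : (s ^ (i + 1)) x = s ((s ^ i) x) := by
  rw [pow_succ', AlgEquiv.mul_apply]

theorem pow_succ_apply' (s : Ω ≃ₐ[K] Ω) (i : ℕ) (x : Ω) : (s ^ (i + 1)) x = (s ^ i) (s x) := by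
  rw [pow_succ, AlgEquiv.mul_apply]

theorem pow_add_apply (s : Ω ≃ₐ[K] Ω) (i j : ℕ) (x : Ω) : (s ^ (i + j)) x = (s ^ i) ((s ^ j) x) := by
  rw [pow_add, AlgEquiv.mul_apply]

theorem pow_apply_of_fixed {x : Ω} (hx : s x = x) (i : ℕ) : (s ^ i) x = x := by
  induction i with
  | zero => simp
  | succ i ih => rw [pow_succ_apply, ih, hx]

theorem inv_apply_of_fixed {x : Ω} (hx : s x = x) : s⁻¹ x = x := by
  conv_lhs => rw [← hx]
  rw [← AlgEquiv.mul_apply, inv_mul_cancel, AlgEquiv.one_apply]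

theorem inv_apply_apply (s : Ω ≃ₐ[K] Ω) (x : Ω) : s⁻¹ (s x) = x := by
  rw [← AlgEquiv.mul_apply, inv_mul_cancel, AlgEquiv.one_apply]

theorem apply_inv_apply (s : Ω ≃ₐ[K] Ω) (x : Ω) : s (s⁻¹ x) = x := by
  rw [← AlgEquiv.mul_apply, mul_inv_cancel, AlgEquiv.one_apply]

theorem pow_mul_apply_of_fixed {x : Ω} {n : ℕ} (hx : (s ^ n) x = x) (k : ℕ) :
    (s ^ (n * k)) x = x := by
  rw [pow_mul]
  exact pow_apply_of_fixed hx k

/-! ### `Nm` and `Tr` -/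

@[simp] theorem Nm_zero' (s : Ω ≃ₐ[K] Ω) (x : Ω) : Nm s 0 x = 1 := by simp [Nm]

@[simp] theorem Tr_zero' (s : Ω ≃ₐ[K] Ω) (x : Ω) : Tr s 0 x = 0 := by simp [Tr]

theorem Nm_succ (s : Ω ≃ₐ[K] Ω) (n : ℕ) (x : Ω) : Nm s (n + 1) x = Nm s n x * (s ^ n) x := by
  rw [Nm, Finset.prod_range_succ, Nm]

theorem Nm_succ' (s : Ω ≃ₐ[K] Ω) (n : ℕ) (x : Ω) : Nm s (n + 1) x = x * s (Nm s n x) := by
  rw [Nm, Finset.prod_range_succ', Nm, map_prod, mul_comm]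
  simp [pow_succ_apply]

theorem Tr_succ (s : Ω ≃ₐ[K] Ω) (n : ℕ) (x : Ω) : Tr s (n + 1) x = Tr s n x + (s ^ n) x := by
  rw [Tr, Finset.sum_range_succ, Tr]

theorem Tr_succ' (s : Ω ≃ₐ[K] Ω) (n : ℕ) (x : Ω) : Tr s (n + 1) x = x + s (Tr s n x) := by
  rw [Tr, Finset.sum_range_succ', Tr, map_sum, add_comm]
  simp [pow_succ_apply]

@[simp] theorem Nm_one (s : Ω ≃ₐ[K] Ω) (n : ℕ) : Nm s n 1 = 1 := by
  simp [Nm]

@[simp] theorem Tr_zero (s : Ω ≃ₐ[K] Ω) (n : ℕ) : Tr s n 0 = 0 := by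
  simp [Tr]

theorem Nm_mul (s : Ω ≃ₐ[K] Ω) (n : ℕ) (x y : Ω) : Nm s n (x * y) = Nm s n x * Nm s n y := by
  simp [Nm, Finset.prod_mul_distrib]

theorem Nm_inv (s : Ω ≃ₐ[K] Ω) (n : ℕ) (x : Ω) : Nm s n x⁻¹ = (Nm s n x)⁻¹ := by
  simp [Nm]

theorem Nm_div (s : Ω ≃ₐ[K] Ω) (n : ℕ) (x y : Ω) : Nm s n (x / y) = Nm s n x / Nm s n y := by
  rw [div_eq_mul_inv, Nm_mul, Nm_inv, div_eq_mul_inv]

theorem Nm_pow (s : Ω ≃ₐ[K] Ω) (n : ℕ) (x : Ω) (k : ℕ) : Nm s n (x ^ k) = Nm s n x ^ k := by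
  simp [Nm, Finset.prod_pow]

theorem Nm_ne_zero (s : Ω ≃ₐ[K] Ω) (n : ℕ) {x : Ω} (hx : x ≠ 0) : Nm s n x ≠ 0 :=
  Finset.prod_ne_zero_iff.2 fun i _ => (map_ne_zero (s ^ i)).2 hx

theorem Nm_eq_zero_iff (s : Ω ≃ₐ[K] Ω) {n : ℕ} (hn : 0 < n) {x : Ω} : Nm s n x = 0 ↔ x = 0 := by
  constructor
  · intro h
    by_contra hx
    exact Nm_ne_zero s n hx h
  · rintro rfl
    exact Finset.prod_eq_zero (Finset.mem_range.2 hn) (by simp)

theorem Nm_of_fixed {x : Ω} (hx : s x = x) (n : ℕ) : Nm s n x = x ^ n := by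
  simp [Nm, pow_apply_of_fixed hx]

theorem Tr_of_fixed {x : Ω} (hx : s x = x) (n : ℕ) : Tr s n x = n * x := by
  simp [Tr, pow_apply_of_fixed hx]

theorem Tr_add (s : Ω ≃ₐ[K] Ω) (n : ℕ) (x y : Ω) : Tr s n (x + y) = Tr s n x + Tr s n y := by
  simp [Tr, Finset.sum_add_distrib]

theorem Tr_neg (s : Ω ≃ₐ[K] Ω) (n : ℕ) (x : Ω) : Tr s n (-x) = - Tr s n x := by
  simp [Tr]

theorem Tr_sub (s : Ω ≃ₐ[K] Ω) (n : ℕ) (x y : Ω) : Tr s n (x - y) = Tr s n x - Tr s n y := by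
  simp [Tr, Finset.sum_sub_distrib]

theorem Tr_mul_of_fixed {c : Ω} (hc : s c = c) (n : ℕ) (x : Ω) : Tr s n (c * x) = c * Tr s n x := by
  rw [Tr, Tr, Finset.mul_sum]
  exact Finset.sum_congr rfl fun i _ => by rw [map_mul, pow_apply_of_fixed hc]

/-- `s (N x) = N x` if `s ^ n x = x` -/
theorem apply_Nm {x : Ω} (hx : (s ^ n) x = x) : s (Nm s n x) = Nm s n x := by
  rcases eq_or_ne x 0 with rfl | h0
  · rcases Nat.eq_zero_or_pos n with rfl | hn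
    · simp
    · rw [(Nm_eq_zero_iff s hn).2 rfl, map_zero]
  · have h1 := Nm_succ s n x
    rw [Nm_succ', hx, mul_comm] at h1
    exact mul_right_cancel₀ h0 h1

theorem apply_Tr {x : Ω} (hx : (s ^ n) x = x) : s (Tr s n x) = Tr s n x := by
  have h1 := Tr_succ s n x
  rw [Tr_succ', hx, add_comm] at h1
  exact add_right_cancel h1

theorem Nm_apply' (s : Ω ≃ₐ[K] Ω) (n : ℕ) (x : Ω) : Nm s n (s x) = s (Nm s n x) := by
  rw [Nm, Nm, map_prod]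
  exact Finset.prod_congr rfl fun i _ => by rw [← pow_succ_apply, ← pow_succ_apply']

theorem Tr_apply' (s : Ω ≃ₐ[K] Ω) (n : ℕ) (x : Ω) : Tr s n (s x) = s (Tr s n x) := by
  rw [Tr, Tr, map_sum]
  exact Finset.sum_congr rfl fun i _ => by rw [← pow_succ_apply, ← pow_succ_apply']

/-- `N (s x) = N x` if `s ^ n x = x` -/
theorem Nm_apply {x : Ω} (hx : (s ^ n) x = x) : Nm s n (s x) = Nm s n x := by
  rw [Nm_apply', apply_Nm hx]

theorem Tr_apply {x : Ω} (hx : (s ^ n) x = x) : Tr s n (s x) = Tr s n x := by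
  rw [Tr_apply', apply_Tr hx]

/-- an automorphism `t` which commutes with `s` on the `s`-orbit of `x` commutes with the norm -/
theorem map_Nm_of_comm {t : Ω ≃ₐ[K] Ω} {x : Ω} (h : ∀ i, t ((s ^ i) x) = (s ^ i) (t x)) (n : ℕ) :
    t (Nm s n x) = Nm s n (t x) := by
  rw [Nm, Nm, map_prod]
  exact Finset.prod_congr rfl fun i _ => h i

theorem map_Tr_of_comm {t : Ω ≃ₐ[K] Ω} {x : Ω} (h : ∀ i, t ((s ^ i) x) = (s ^ i) (t x)) (n : ℕ) :
    t (Tr s n x) = Tr s n (t x) := by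
  rw [Tr, Tr, map_sum]
  exact Finset.sum_congr rfl fun i _ => h i

theorem w_Nm (hH : Pres v H) (hs : s ∈ H) (n : ℕ) {x : Ω} (hx : x ≠ 0) :
    v.w (Nm s n x) = n * v.w x := by
  induction n with
  | zero => simp [RVal.w_one]
  | succ n ih =>
    rw [Nm_succ, v.map_mul _ _ (Nm_ne_zero s n hx) ((map_ne_zero (s ^ n)).2 hx), ih,
      hH _ (H.pow_mem hs n)]
    push_cast
    ring

theorem GE_Tr (hH : Pres v H) (hs : s ∈ H) (n : ℕ) {x : Ω} {a : ℝ} (hx : v.GE x a) :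
    v.GE (Tr s n x) a := by
  induction n with
  | zero => simpa using RVal.GE_zero (v := v) a
  | succ n ih =>
    rw [Tr_succ]
    exact ih.add (hH.GE (H.pow_mem hs n) hx)

theorem GT_Tr (hH : Pres v H) (hs : s ∈ H) (n : ℕ) {x : Ω} {a : ℝ} (hx : v.GT x a) :
    v.GT (Tr s n x) a := by
  induction n with
  | zero => simpa using RVal.GT_zero (v := v) a
  | succ n ih =>
    rw [Tr_succ]
    exact ih.add (hH.GT (H.pow_mem hs n) hx)

/-- `Nm` only depends on the action of `s` on the orbit of `x` -/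
theorem Nm_congr {s' : Ω ≃ₐ[K] Ω} {x : Ω} (h : ∀ i, (s' ^ i) x = (s ^ i) x) (n : ℕ) :
    Nm s' n x = Nm s n x :=
  Finset.prod_congr rfl fun i _ => h i

theorem Tr_congr {s' : Ω ≃ₐ[K] Ω} {x : Ω} (h : ∀ i, (s' ^ i) x = (s ^ i) x) (n : ℕ) :
    Tr s' n x = Tr s n x :=
  Finset.sum_congr rfl fun i _ => h i

/-! ### `Cyc` -/

namespace Cyc

variable (hc : Cyc H H' s n)
include hc

theorem map_mem {x : Ω} (hx : x ∈ Fx H') : s x ∈ Fx H' := by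
  refine mem_Fx.2 fun h hh => ?_
  have h1 := mem_Fx.1 hx _ (hc.conj h hh).2
  rw [AlgEquiv.mul_apply, AlgEquiv.mul_apply] at h1
  have h2 := congrArg s h1
  rwa [apply_inv_apply] at h2

theorem inv_map_mem {x : Ω} (hx : x ∈ Fx H') : s⁻¹ x ∈ Fx H' := by
  refine mem_Fx.2 fun h hh => ?_
  have h1 := mem_Fx.1 hx _ (hc.conj h hh).1
  rw [AlgEquiv.mul_apply, AlgEquiv.mul_apply] at h1
  have h2 := congrArg (fun y => s⁻¹ y) h1
  simp only [inv_apply_apply] at h2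
  exact h2

theorem pow_map_mem {x : Ω} (hx : x ∈ Fx H') (i : ℕ) : (s ^ i) x ∈ Fx H' := by
  induction i with
  | zero => simpa using hx
  | succ i ih =>
    rw [pow_succ_apply]
    exact hc.map_mem ih

theorem pow_apply {x : Ω} (hx : x ∈ Fx H') : (s ^ n) x = x := mem_Fx.1 hx _ hc.pow

theorem pow_apply_mod {x : Ω} (hx : x ∈ Fx H') (i : ℕ) : (s ^ i) x = (s ^ (i % n)) x := by
  conv_lhs => rw [← Nat.mod_add_div i n]
  rw [pow_add_apply, pow_mul_apply_of_fixed (hc.pow_apply hx)]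

/-- every `σ ∈ H` acts on `Fx H'` as a power of `s` -/
theorem exists_pow {σ : Ω ≃ₐ[K] Ω} (hσ : σ ∈ H) : ∃ i < n, ∀ x ∈ Fx H', σ x = (s ^ i) x := by
  obtain ⟨i, hi, h⟩ := hc.gen σ hσ
  refine ⟨i, hi, fun x hx => ?_⟩
  have h1 := mem_Fx.1 hx _ h
  rw [AlgEquiv.mul_apply] at h1
  have h2 := congrArg (s ^ i) h1
  rwa [apply_inv_apply] at h2

theorem mem_Fx_iff {x : Ω} : x ∈ Fx H ↔ x ∈ Fx H' ∧ s x = x := by
  constructor
  · intro hx
    exact ⟨Fx_mono hc.le hx, mem_Fx.1 hx s hc.mem⟩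
  · rintro ⟨hx, hs⟩
    refine mem_Fx.2 fun σ hσ => ?_
    obtain ⟨i, -, h⟩ := hc.exists_pow hσ
    rw [h x hx, pow_apply_of_fixed hs]

theorem Nm_mem' {x : Ω} (hx : x ∈ Fx H') (k : ℕ) : Nm s k x ∈ Fx H' :=
  prod_mem fun i _ => hc.pow_map_mem hx i

theorem Tr_mem' {x : Ω} (hx : x ∈ Fx H') (k : ℕ) : Tr s k x ∈ Fx H' :=
  sum_mem fun i _ => hc.pow_map_mem hx i

theorem Nm_mem {x : Ω} (hx : x ∈ Fx H') : Nm s n x ∈ Fx H :=
  hc.mem_Fx_iff.2 ⟨hc.Nm_mem' hx n, apply_Nm (hc.pow_apply hx)⟩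

theorem Tr_mem {x : Ω} (hx : x ∈ Fx H') : Tr s n x ∈ Fx H :=
  hc.mem_Fx_iff.2 ⟨hc.Tr_mem' hx n, apply_Tr (hc.pow_apply hx)⟩

/-- for prime degree: an element of `Fx H'` fixed by `s ^ i`, `0 < i < p`, lies in `Fx H` -/
theorem mem_of_pow_fixed (hn : n.Prime) {x : Ω} (hx : x ∈ Fx H') {i : ℕ} (hi : 0 < i) (hin : i < n)
    (h : (s ^ i) x = x) : x ∈ Fx H := by
  refine hc.mem_Fx_iff.2 ⟨hx, ?_⟩
  have hcop : Nat.Coprime i n := (Nat.coprime_of_lt_prime hi.ne' hin hn).symm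
  -- `i * a ≡ 1 mod n`
  obtain ⟨a, ha⟩ := Nat.exists_mul_mod_eq_one_of_coprime hcop hn.one_lt
  have h1 : (s ^ (i * a)) x = x := pow_mul_apply_of_fixed h a
  rw [hc.pow_apply_mod hx, ha.2, pow_one] at h1
  exact h1

/-- for prime degree: every element of `Fx H'` outside `Fx H` is a primitive element -/
theorem injOn_of_not_mem (hn : n.Prime) {x : Ω} (hx : x ∈ Fx H') (hx' : x ∉ Fx H) :
    ∀ i < n, ∀ j < n, (s ^ i) x = (s ^ j) x → i = j := by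
  have key : ∀ i j, i < j → j < n → (s ^ i) x = (s ^ j) x → False := by
    intro i j hij hj h
    apply hx'
    refine hc.mem_of_pow_fixed hn hx (i := j - i) (by omega) (by omega) ?_
    have e : j = i + (j - i) := by omega
    rw [e, pow_add_apply] at h
    exact ((s ^ i).injective h).symm
  intro i hi j hj h
  rcases lt_trichotomy i j with hij | hij | hij
  · exact (key i j hij hj h).elim
  · exact hij
  · exact (key j i hij hi h.symm).elim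

theorem exists_mul_pow {h : Ω ≃ₐ[K] Ω} (hh : h ∈ H') (i : ℕ) :
    ∃ h' ∈ H', (s * h) ^ i = s ^ i * h' := by
  induction i with
  | zero => exact ⟨1, H'.one_mem, by simp⟩
  | succ i ih =>
    obtain ⟨h', hh', e⟩ := ih
    refine ⟨s⁻¹ * h' * s * h, H'.mul_mem (hc.conj h' hh').2 hh, ?_⟩
    rw [pow_succ, e, pow_succ]
    group

/-- another generator: `s' ∈ s H'` -/
theorem of_mul {h : Ω ≃ₐ[K] Ω} (hh : h ∈ H') : Cyc H H' (s * h) n where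
  pos := hc.pos
  le := hc.le
  mem := H.mul_mem hc.mem (hc.le hh)
  conj := by
    intro g hg
    constructor
    · have := (hc.conj (h * g * h⁻¹) (H'.mul_mem (H'.mul_mem hh hg) (H'.inv_mem hh))).1
      have e : s * h * g * (s * h)⁻¹ = s * (h * g * h⁻¹) * s⁻¹ := by group
      rwa [e]
    · have := H'.mul_mem (H'.mul_mem (H'.inv_mem hh) (hc.conj g hg).2) hh
      have e : (s * h)⁻¹ * g * (s * h) = h⁻¹ * (s⁻¹ * g * s) * h := by group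
      rwa [e]
  gen := by
    intro σ hσ
    obtain ⟨i, hi, hm⟩ := hc.gen σ hσ
    obtain ⟨h', hh', e⟩ := hc.exists_mul_pow hh i
    refine ⟨i, hi, ?_⟩
    have e2 : ((s * h) ^ i)⁻¹ * σ = h'⁻¹ * ((s ^ i)⁻¹ * σ) := by
      rw [e]; group
    rw [e2]
    exact H'.mul_mem (H'.inv_mem hh') hm
  pow := by
    obtain ⟨h', hh', e⟩ := hc.exists_mul_pow hh n
    rw [e]
    exact H'.mul_mem hc.pow hh'
  prim := by
    obtain ⟨θ, hθ, hinj⟩ := hc.prim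
    refine ⟨θ, hθ, fun i hi j hj hij => hinj i hi j hj ?_⟩
    obtain ⟨h', hh', e⟩ := hc.exists_mul_pow hh i
    obtain ⟨h'', hh'', e'⟩ := hc.exists_mul_pow hh j
    rwa [e, e', AlgEquiv.mul_apply, AlgEquiv.mul_apply, mem_Fx.1 hθ _ hh', mem_Fx.1 hθ _ hh''] at hij

/-- the powers of `s * h`, `h ∈ H'`, act on `Fx H'` as those of `s` -/
theorem mul_pow_apply {h : Ω ≃ₐ[K] Ω} (hh : h ∈ H') {x : Ω} (hx : x ∈ Fx H') (i : ℕ) :
    ((s * h) ^ i) x = (s ^ i) x := by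
  obtain ⟨h', hh', e⟩ := hc.exists_mul_pow hh i
  rw [e, AlgEquiv.mul_apply, mem_Fx.1 hx _ hh']

/-- for prime degree: there is no subgroup strictly between `H'` and `H` -/
theorem eq_of_le (hn : n.Prime) {H₁ : Subgroup (Ω ≃ₐ[K] Ω)} (h1 : H' ≤ H₁) (h2 : H₁ ≤ H)
    (h3 : s ∉ H₁) : H₁ = H' := by
  refine le_antisymm (fun σ hσ => ?_) h1
  obtain ⟨i, hi, hm⟩ := hc.gen σ (h2 hσ)
  rcases Nat.eq_zero_or_pos i with rfl | hi0
  · simpa using hm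
  exfalso
  apply h3
  have hsi : s ^ i ∈ H₁ := by
    have := H₁.mul_mem hσ (H₁.inv_mem (h1 hm))
    have e : σ * ((s ^ i)⁻¹ * σ)⁻¹ = s ^ i := by group
    rwa [e] at this
  have hcop : Nat.Coprime i n := (Nat.coprime_of_lt_prime hi0.ne' hi hn).symm
  obtain ⟨a, -, ha⟩ := Nat.exists_mul_mod_eq_one_of_coprime hcop hn.one_lt
  have h4 : s ^ (i * a) ∈ H₁ := by
    rw [pow_mul]; exact H₁.pow_mem hsi a
  rw [← Nat.mod_add_div (i * a) n, ha, pow_add, pow_one, pow_mul] at h4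
  have h5 := H₁.mul_mem h4 (H₁.inv_mem (H₁.pow_mem (h1 hc.pow) (i * a / n)))
  rwa [mul_inv_cancel_right] at h5

end Cyc

end Fermat.Agent.S55.B
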