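import Mathlib
import Fermat.Agent.S05.Defs

/-!
# S55, layer B (local theory): definitions of the ABSTRACT framework

`Ω` an algebraically closed field of characteristic `0` (in the application `ℚ̄`), `K` a subfield,
`v : RVal Ω` a real valued valuation on `Ω` (`Fermat.Agent.S05.RVal`: `v.w`, predicates
`v.GE x a`, `v.GT x a`, `v.EQ x a`, `v.LE x a` and about 80 lemmas in `S05/Defs.lean`).

A "local field" is NOT a type: it is a subgroup `H ≤ Gal(Ω/K)` which preserves `v`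
(`Pres v H`; this is what "henselian" means for us); the field is `Fx H`, the fixed field,
and `x ∈ Fx H ↔ ∀ σ ∈ H, σ x = x` (`mem_Fx`).  No closedness of `H` is ever needed.

* `LF v H π q Q` : `H` preserves `v`, `π ∈ Fx H` is a uniformiser (`w (Fx H)ˣ = ℤ w π`), the residue field
  has `Q = q ^ f` elements (`x ^ Q ≡ x` for the integral `x ∈ Fx H`, and `μ_{Q-1} ⊆ Fx H`).
* `Cyc H H' s n` : `H' ≤ H` is normalised by `s ∈ H`, `H = ⋃_{i<n} s^i H'`, `s ^ n ∈ H'`, and there is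
  `θ ∈ Fx H'` whose conjugates `s^i θ`, `i < n`, are distinct: `Fx H' / Fx H` is cyclic of degree `n`
  with generator `s`.
* `Nm s n x = ∏_{i<n} s^i x`, `Tr s n x = ∑_{i<n} s^i x`.
* `stab H z = {σ ∈ H | σ z = z}` (the field `Fx H (z)`).
-/

set_option autoImplicit false

namespace Fermat.Agent.S55.B

open Fermat.Agent.S05

variable {K Ω : Type*} [Field K] [Field Ω] [Algebra K Ω]

/-- the fixed field of a subgroup -/
abbrev Fx (H : Subgroup (Ω ≃ₐ[K] Ω)) : IntermediateField K Ω := IntermediateField.fixedField H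

theorem mem_Fx {H : Subgroup (Ω ≃ₐ[K] Ω)} {x : Ω} : x ∈ Fx H ↔ ∀ σ ∈ H, σ x = x := by
  rw [IntermediateField.mem_fixedField_iff]

/-- `H` preserves the valuation: "`Fx H` is henselian" -/
def Pres (v : RVal Ω) (H : Subgroup (Ω ≃ₐ[K] Ω)) : Prop := ∀ σ ∈ H, ∀ x, v.w (σ x) = v.w x

/-- `π` is a uniformiser of `Fx H` -/
structure IsUnif (v : RVal Ω) (H : Subgroup (Ω ≃ₐ[K] Ω)) (π : Ω) : Prop where
  mem : π ∈ Fx H
  ne : π ≠ 0
  pos : 0 < v.w π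
  gen : ∀ x ∈ Fx H, x ≠ 0 → ∃ n : ℤ, v.w x = n * v.w π

/-- the residue field of `Fx H` has `Q = q ^ f` elements -/
structure ResCard (v : RVal Ω) (H : Subgroup (Ω ≃ₐ[K] Ω)) (q Q : ℕ) : Prop where
  prime : q.Prime
  pow : ∃ f, 0 < f ∧ Q = q ^ f
  char : 0 < v.w (q : Ω)
  frob : ∀ x ∈ Fx H, v.GE x 0 → v.GT (x ^ Q - x) 0
  root : ∃ ω ∈ Fx H, IsPrimitiveRoot ω (Q - 1)

/-- "`Fx H` is a (henselian) local field with uniformiser `π` and residue field `𝔽_Q` of characteristic `q`" -/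
structure LF (v : RVal Ω) (H : Subgroup (Ω ≃ₐ[K] Ω)) (π : Ω) (q Q : ℕ) : Prop where
  pres : Pres v H
  unif : IsUnif v H π
  res : ResCard v H q Q

/-- the stabiliser of `z` in `H` -/
def stab (H : Subgroup (Ω ≃ₐ[K] Ω)) (z : Ω) : Subgroup (Ω ≃ₐ[K] Ω) where
  carrier := {σ | σ ∈ H ∧ σ z = z}
  one_mem' := ⟨H.one_mem, rfl⟩
  mul_mem' := by
    rintro a b ⟨ha, ha'⟩ ⟨hb, hb'⟩
    exact ⟨H.mul_mem ha hb, by rw [AlgEquiv.mul_apply, hb', ha']⟩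
  inv_mem' := by
    rintro a ⟨ha, ha'⟩
    refine ⟨H.inv_mem ha, ?_⟩
    conv_lhs => rw [← ha']
    rw [← AlgEquiv.mul_apply, inv_mul_cancel, AlgEquiv.one_apply]

theorem mem_stab {H : Subgroup (Ω ≃ₐ[K] Ω)} {z : Ω} {σ : Ω ≃ₐ[K] Ω} :
    σ ∈ stab H z ↔ σ ∈ H ∧ σ z = z := Iff.rfl

/-- the norm `∏_{i<n} s^i x` -/
def Nm (s : Ω ≃ₐ[K] Ω) (n : ℕ) (x : Ω) : Ω := ∏ i ∈ Finset.range n, (s ^ i) x

/-- the trace `∑_{i<n} s^i x` -/
def Tr (s : Ω ≃ₐ[K] Ω) (n : ℕ) (x : Ω) : Ω := ∑ i ∈ Finset.range n, (s ^ i) x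

/-- `Fx H' / Fx H` is cyclic of degree `n` with generator `s` -/
structure Cyc (H H' : Subgroup (Ω ≃ₐ[K] Ω)) (s : Ω ≃ₐ[K] Ω) (n : ℕ) : Prop where
  pos : 0 < n
  le : H' ≤ H
  mem : s ∈ H
  conj : ∀ h ∈ H', s * h * s⁻¹ ∈ H' ∧ s⁻¹ * h * s ∈ H'
  gen : ∀ σ ∈ H, ∃ i < n, (s ^ i)⁻¹ * σ ∈ H'
  pow : s ^ n ∈ H'
  prim : ∃ θ ∈ Fx H', ∀ i < n, ∀ j < n, (s ^ i) θ = (s ^ j) θ → i = j

end Fermat.Agent.S55.B
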