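import Fermat.Agent.S55.B.Low
import Fermat.Agent.S55.G.LocNorm

/-!
# S55/B : (loc-norm) in the shape of `G.IsLocNorm`      (key `S55/B-LOCNORM`)

`G.IsLocNorm p Γ H' y := Γ ≤ H' ∨ ∃ γ ∈ Γ, γ ∉ H' ∧ ∃ z ∈ Fx (Γ ⊓ H'), Nm γ p z = y`, here `Γ = HH q j`, `H' = Fix (jZ Z)`, `Γ ⊓ H' = HH q jZ` (`HH_inf`).

(⟹) If `Γ ≤ H'`: left.  Otherwise pick `s ∈ Γ`, `s ∉ H'` (so `s ∉ HH q jZ`): `Nloc_le`.
(⟸) Case `Γ ≤ H'`, i.e. `HH q jZ = HH q j`: `Z = F(a^(1/p))` (`C.exists_kummer`), a root `α ∈ Z` of `X^p - a`; `jZ α ∈ Fx (HH q jZ) = Fx (HH q j)`, `(jZ α)^p = j a`, so `a ∈ C.lp p v` (`loc_pow`),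
`v` splits (`C.isSplit_of_mem_lp`), `Nloc = ⊤` (`C.K1_split` with `hlow`).
Case `γ ∈ Γ`, `γ ∉ H'`: `N' = {b | ∃ y ∈ Fx (HH q jZ), y ≠ 0 ∧ Nm γ p y = j b}` is a subgroup of `Fˣ` containing `Nloc` (`Nloc_le`), `N' ≠ ⊤` (`exists_not_locNorm`); so `Nloc ≠ ⊤`, `v` is not split
(`C.K1_split`), `Nloc` has prime index `p` (`C.K1`), hence `N' = Nloc` (`Subgroup.index_dvd_of_le`/`relIndex_mul_index`: `N'.index ∣ p`, `≠ 1`, so `Nloc.relIndex N' = 1`).
(`z = 0` is impossible as `j b ≠ 0`.)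
-/

set_option autoImplicit false

noncomputable section

namespace Fermat.Agent.S55.B

open Fermat.Agent.S05 Fermat.Agent.S14 ExtCitation NumberField

variable {F Z : Type*} [Field F] [NumberField F] [Field Z] [NumberField Z] [Algebra F Z]
  [IsGalois F Z] {p : ℕ} [Fact p.Prime] {q : Nat.Primes} {j : F →ₐ[ℚ] Qb} {jZ : Z →ₐ[ℚ] Qb} {v : Pl F}

/-- **(loc-norm)** -/
theorem loc_norm (hp2 : p ≠ 2) {ζ : 𝓞 F} (hζ : IsPrimitiveRoot ζ p)
    (hj : ∀ x : F, jZ (algebraMap F Z x) = j x) (hdeg : Module.finrank F Z = p)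
    (hv : Br.Over j (primeLocalPlace q) v) (b : Fˣ) :
    b ∈ C.Nloc p Z v ↔ G.IsLocNorm p (HH q j) jZ.fieldRange.fixingSubgroup (j b) := by
  have hp : p.Prime := Fact.out
  have hlow' : ∀ v : Pl F, ¬ Tame p v → ¬ IsUnram Z v → C.Nloc p Z v ≠ ⊤ :=
    fun v _ h => hlow hdeg v h
  constructor
  · intro hb
    by_cases hle : HH q j ≤ jZ.fieldRange.fixingSubgroup
    · exact Or.inl hle
    · obtain ⟨s, hs, hsF⟩ := SetLike.not_le_iff_exists.1 hle
      have hs' : s ∉ HH q jZ := fun h => hsF (by rw [← HH_inf hj] at h; exact h.2)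
      obtain ⟨y, hy, -, hyb⟩ := Nloc_le hj hdeg hv hs hs' hb
      exact Or.inr ⟨s, hs, hsF, y, by rw [HH_inf hj]; exact hy, hyb⟩
  · rintro (hle | ⟨γ, hγ, hγF, z, hz, hzb⟩)
    · have hHH : HH q jZ = HH q j := by rw [← HH_inf hj]; exact inf_eq_left.2 hle
      obtain ⟨a, ha, hsf⟩ := C.exists_kummer (Z := Z) hζ hdeg
      obtain ⟨α, hα⟩ := kum_exists_root (Z := Z) (p := p) a
      have hα' : (α : Z) ^ p = algebraMap F Z (a : F) := by
        have := congrArg (fun u : Zˣ => (u : Z)) hα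
        simpa using this
      have hlp : a ∈ C.lp p v := by
        refine (loc_pow hv p a).2 ⟨jZ α, ?_, ?_⟩
        · rw [← hHH]; exact map_mem_Fx q jZ α
        · rw [← map_pow, hα', hj]
      have hsp := C.isSplit_of_mem_lp (Z := Z) a hζ ha v hlp
      rw [C.K1_split hp2 hζ hdeg hlow' v hsp]
      exact Subgroup.mem_top b
    · have hγ' : γ ∉ HH q jZ := fun h => hγF (by rw [← HH_inf hj] at h; exact h.2)
      have hle := Nloc_le_nlocSub hj hdeg hv hγ hγ'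
      have hne : nlocSub q j jZ γ p ≠ ⊤ := by
        intro htop
        obtain ⟨c, hc⟩ := exists_not_locNorm (p := p) hj hdeg hγ hγ'
        obtain ⟨y, hy, -, hyc⟩ := mem_nlocSub.1 (htop ▸ Subgroup.mem_top c)
        exact hc y hy hyc
      have hnsp : ¬ IsSplit Z v := by
        intro hsp
        apply hne
        rw [C.K1_split hp2 hζ hdeg hlow' v hsp] at hle
        exact top_le_iff.1 hle
      have h1 := Subgroup.relIndex_mul_index hle
      rw [C.K1 hp2 hζ hdeg hlow' v hnsp] at h1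
      have h2 : (nlocSub q j jZ γ p).index ≠ 1 := fun h => hne (Subgroup.index_eq_one.1 h)
      have h3 : (nlocSub q j jZ γ p).index = p :=
        ((Nat.dvd_prime hp).1 ⟨_, (mul_comm _ _).trans h1 |>.symm⟩).resolve_left h2
      rw [h3] at h1
      have h4 : (C.Nloc p Z v).relIndex (nlocSub q j jZ γ p) = 1 :=
        Nat.eq_of_mul_eq_mul_right hp.pos (h1.trans (one_mul _).symm)
      refine Subgroup.relIndex_eq_one.1 h4 (mem_nlocSub.2 ⟨z, ?_, ?_, hzb⟩)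
      · rw [← HH_inf hj]; exact hz
      · rintro rfl
        rw [(Nm_eq_zero_iff γ hp.pos).2 rfl] at hzb
        exact (map_ne_zero j).2 b.ne_zero hzb.symm

end Fermat.Agent.S55.B
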