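import Fermat.Agent.S55.B.Padic
import Fermat.Agent.S55.D.ProCycInst

/-!
# S55/B : inertia, roots of unity, the compactness lemma, Frobenius
(keys `S55/B-INER` = `apply_root_of_mem_Iq`, `exists_root_congr`, `mem_Iq_of_roots`;  `S55/B-CPT` = `isClosed_Dq`, `exists_stab_le`;
 `S55/B-FROB` = `exists_frobAll`, `ur_gen`, `ur_div`;  `S55/B-CYCP` = `cyclo_onto`)

## INER
`apply_root_of_mem_Iq`: `σ η ≡ η` (`GT_of_mem_Iq`), both are `M`-th roots of unity, `eq_of_pow_eq_one` (`w M = 0` by `w_natCast_eq_zero`, `wq_q`).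
`exists_root_congr`: `x` a unit of `OO (wq q)`.  `H = stab (Dq q) x` is open (`IsOp.stab`), so `LF (wq q) H π q Q` (`IsOp.exists_lf`), `x ∈ Fx H`, and
`exists_teich_unit` gives `x ≡ ω^a`, `ω^(Q-1) = 1`, `q ∤ Q - 1` (`LF.not_dvd` with `n = 1`).
`mem_Iq_of_roots`: `mem_Iq_of_GT`: `x` integral; if `w x > 0` then `w (σ x) > 0` too; otherwise `x ≡ η`, `σ x ≡ σ η = η ≡ x` (`Pres.GT`).

## CPT
`isClosed_Dq`: if `σ ∉ Dq q` there is `x` with (`x ∈ A`, `σ x ∉ A`) or (`x ∉ A`, `σ x ∈ A`)  [`σ ∈ Dq q ↔ σ • A = A`, `ValuationSubring.mem_pointwise_smul_iff_inv_smul_mem`;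
see `E.smul_mem_iff`]; all `τ ∈ σ • (ℚ(x)).fixingSubgroup` (an open set, `IntermediateField.fixingSubgroup_isOpen`) have `τ x = σ x`.
`exists_stab_le`: `C = {σ | σ ∈ H ∧ σ ∉ H'}` is closed in `GQ`: its complement is open: `σ ∉ Dq q`: previous point; `σ ∈ Dq q`, `σ ∉ H`: with `Dq q ⊓ F.fixingSubgroup ≤ H`,
no `τ = σ u`, `u ∈ F.fixingSubgroup`, is in `H` (else `u = σ⁻¹ τ ∈ Dq q ⊓ F.fixingSubgroup ≤ H`); `σ ∈ H'`: same with `F'`: every `τ = σ u ∈ Dq q` is in `H'`.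
Choose primitive `(q^(k!) - 1)`-th roots of unity `z_k`, `k ≥ 1`.  `C_k = C ∩ {σ | σ z_k = z_k}` is closed, decreasing (`z_k` is a power of `z_(k+1)` since
`q^(k!) - 1 ∣ q^((k+1)!) - 1`).  If all `C_k` are non empty, `⋂ C_k ≠ ∅` (`GQ` is compact;
`IsCompact.nonempty_iInter_of_sequence_nonempty_isCompact_isClosed`): `σ ∈ H`, `σ ∉ H'` fixing all `z_k`, hence all roots of unity of order `M` prime to `q`
(`M ∣ q^(φ M) - 1 ∣ q^(k!) - 1` for `k ≥ φ M`), so `σ ∈ Iq q` (`mem_Iq_of_roots`), `σ ∈ Iq q ⊓ H ≤ H'`: contradiction.  So `C_k = ∅` for some `k`; `n = k!`;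
for `n ∣ n'` and `ζ` primitive of order `q^n' - 1`, `z_k` is a power of `ζ`, so `stab H ζ ≤ stab H z_k ≤ H'`.

## FROB
`exists_frobAll`: `Frob.exists_isFrobeniusAt (primeLocalPlace q) q.2 (D.liesOverPrime_primeLocalPlace q)` gives `φ ∈ Dq q` with `φ x ≡ x^q` for `x ∈ A`
(unfold `IsFrobeniusAt`: `IsLocalRing.ResidueField.residue_smul`, as at the end of `Lib/Frobenius.lean`); `φ η` and `η^q` are congruent `M`-th roots of unity.
`ur_gen`: `exists_stab_le` for `H = Dq q`, `H' = U` gives `ζ`; `g ζ = ζ^(q^i) = φ^i ζ` (`exists_pow_of_mem (lf_Dq q)`).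
`ur_div`: `U' = stab (Dq q) ζ'`, `ζ'` primitive of order `q^(n p) - 1`, where `stab (Dq q) ζ ≤ U`, `ζ = ζ'^…` of order `q^n - 1`; `Cyc (Dq q) U' φ (n p)`.
## CYCP
`λ_a = 1 - ζ^a`, `a` prime to `p`: `λ_a / λ_1 = 1 + ζ + ... + ζ^(a-1)` is integral, and symmetrically (`ζ = (ζ^a)^b`): `w λ_a = w λ_1`.
`∏_{a} λ_a = Φ_{p^k}(1) = p` (`Polynomial.eval_one_cyclotomic_prime_pow`, `Polynomial.cyclotomic_eq_prod_X_sub_primitiveRoots`): `φ(p^k) w λ_1 = 1`.
The `Dq p`-orbit `T` of `ζ` (a set of primitive roots): `∏_{η ∈ T} (1 - η) ∈ Fx (Dq p)` has valuation `#T / φ(p^k) ∈ ℤ` (`w_int`), `> 0`: so `#T = φ(p^k)`.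
-/

set_option autoImplicit false

noncomputable section

namespace Fermat.Agent.S55.B

open Fermat.Agent.S05 ExtCitation
open scoped Pointwise

variable (q : Nat.Primes)

/-! ### INER -/

theorem inerAux_wq_pos : 0 < (wq q).w ((q : ℕ) : Qb) := by
  rw [wq_q]; norm_num

theorem inerAux_pos {M : ℕ} (hM : ¬ (q : ℕ) ∣ M) : 0 < M :=
  Nat.pos_of_ne_zero fun h => hM (h ▸ dvd_zero _)

/-- inertia fixes the roots of unity of order prime to `q` -/
theorem apply_root_of_mem_Iq {σ : GQ} (hσ : σ ∈ Iq q) {M : ℕ} (hM : ¬ (q : ℕ) ∣ M) {η : Qb}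
    (hη : η ^ M = 1) : σ η = η := by
  have hM0 := inerAux_pos q hM
  have h1 : (wq q).EQ η 0 := w_eq_zero_of_pow_eq_one hM0 hη
  exact eq_of_pow_eq_one hM0 (w_natCast_eq_zero q.2 (inerAux_wq_pos q) hM)
    (by rw [← map_pow, hη, map_one]) hη (GT_of_mem_Iq q hσ (h1.GE le_rfl))

/-- every unit of the valuation ring of `ℚ̄` is congruent to a root of unity of order prime to `q` -/
theorem exists_root_congr {x : Qb} (hx : (wq q).EQ x 0) :
    ∃ (M : ℕ) (η : Qb), ¬ (q : ℕ) ∣ M ∧ η ^ M = 1 ∧ (wq q).GT (x - η) 0 := by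
  obtain ⟨π, Q, h⟩ := (isOp_Dq (q := q)).stab x |>.exists_lf
  obtain ⟨ω, -, hω⟩ := h.res.root
  obtain ⟨a, ha⟩ := exists_teich_unit h hω (mem_Fx_stab (Dq q) x) hx
  refine ⟨Q - 1, ω ^ a, ?_, ?_, ha⟩
  · have := h.not_dvd (n := 1) one_pos
    rwa [pow_one] at this
  · rw [← pow_mul, mul_comm, pow_mul, hω.pow_eq_one, one_pow]

theorem mem_Iq_of_roots {σ : GQ} (hσ : σ ∈ Dq q)
    (h : ∀ (M : ℕ) (η : Qb), ¬ (q : ℕ) ∣ M → η ^ M = 1 → σ η = η) : σ ∈ Iq q := by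
  refine mem_Iq_of_GT q hσ fun x hx => ?_
  by_cases hx0 : (wq q).GT x 0
  · exact ((pres_Dq q).GT hσ hx0).sub hx0
  · have hxne : x ≠ 0 := fun h0 => hx0 (Or.inl h0)
    have hxu : (wq q).EQ x 0 := by
      refine ⟨hxne, le_antisymm ?_ (hx.le_w hxne)⟩
      by_contra h2
      exact hx0 (Or.inr (not_le.1 h2))
    obtain ⟨M, η, hM, hη, hxη⟩ := exists_root_congr q hxu
    have e : σ x - x = σ (x - η) - (x - η) := by
      rw [map_sub, h M η hM hη]
      ring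
    rw [e]
    exact ((pres_Dq q).GT hσ hxη).sub hxη

/-! ### CPT -/

theorem cptAux_isOpen (x : Qb) (P : Set Qb) : IsOpen {σ : GQ | σ x ∈ P} := by
  rw [isOpen_iff_forall_mem_open]
  intro σ₀ h₀
  refine ⟨{σ | σ x = σ₀ x}, fun σ hσ => ?_, ?_, rfl⟩
  · show σ x ∈ P
    rw [show σ x = σ₀ x from hσ]
    exact h₀
  · have h1 : IsOpen ((MulAction.stabilizer GQ x : Subgroup GQ) : Set GQ) :=
      stabilizer_isOpen_of_isIntegral (K := ℚ) (L := Qb) x
    have h2 : {σ : GQ | σ x = σ₀ x} =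
        (fun σ => σ₀⁻¹ * σ) ⁻¹' ((MulAction.stabilizer GQ x : Subgroup GQ) : Set GQ) := by
      ext σ
      simp only [Set.mem_ofPred_eq, Set.mem_preimage, SetLike.mem_coe, MulAction.mem_stabilizer_iff,
        AlgEquiv.smul_def, AlgEquiv.mul_apply]
      constructor
      · intro h
        rw [h, ← AlgEquiv.mul_apply, inv_mul_cancel, AlgEquiv.one_apply]
      · intro h
        have := congrArg σ₀ h
        rwa [← AlgEquiv.mul_apply, mul_inv_cancel, AlgEquiv.one_apply] at this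
    rw [h2]
    exact h1.preimage (continuous_const_mul σ₀⁻¹)

theorem cptAux_isClosed (x : Qb) (P : Set Qb) : IsClosed {σ : GQ | σ x ∈ P} := by
  rw [← isOpen_compl_iff]
  exact cptAux_isOpen x Pᶜ

theorem cptAux_mem_Dq_iff {σ : GQ} :
    σ ∈ Dq q ↔ ∀ x : Qb, σ x ∈ primeLocalPlace q ↔ x ∈ primeLocalPlace q := by
  constructor
  · intro hσ x
    have h : σ • primeLocalPlace q = primeLocalPlace q := hσ
    constructor
    · intro hx
      have h2 : σ x ∈ σ • primeLocalPlace q := by rw [h]; exact hx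
      rw [ValuationSubring.mem_pointwise_smul_iff_inv_smul_mem] at h2
      simpa [AlgEquiv.smul_def] using h2
    · intro hx
      rw [← h]
      exact ValuationSubring.smul_mem_pointwise_smul σ x _ hx
  · intro h
    show σ • primeLocalPlace q = primeLocalPlace q
    ext x
    rw [ValuationSubring.mem_pointwise_smul_iff_inv_smul_mem, ← h (σ⁻¹ • x), AlgEquiv.smul_def,
      ← AlgEquiv.mul_apply, mul_inv_cancel, AlgEquiv.one_apply]

theorem isClosed_Dq : IsClosed (Dq q : Set GQ) := by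
  have h : (Dq q : Set GQ) =
      ⋂ x : Qb, {σ : GQ | σ x ∈ primeLocalPlace q ↔ x ∈ primeLocalPlace q} := by
    ext σ
    simp only [SetLike.mem_coe, Set.mem_iInter, Set.mem_ofPred_eq]
    exact cptAux_mem_Dq_iff q
  rw [h]
  refine isClosed_iInter fun x => ?_
  by_cases hx : x ∈ primeLocalPlace q
  · simp only [hx, iff_true]
    exact cptAux_isClosed x (primeLocalPlace q : Set Qb)
  · simp only [hx, iff_false]
    exact cptAux_isClosed x (primeLocalPlace q : Set Qb)ᶜ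

variable {q}

theorem cptAux_isOpen_coset (F : IntermediateField ℚ Qb) [FiniteDimensional ℚ F] (σ : GQ) :
    IsOpen {τ : GQ | σ⁻¹ * τ ∈ F.fixingSubgroup} :=
  (IntermediateField.fixingSubgroup_isOpen F).preimage (continuous_const_mul σ⁻¹)

theorem cptAux_isClosed_diff {H H' : Subgroup GQ} (h : IsOp q H) (h' : IsOp q H') :
    IsClosed {σ : GQ | σ ∈ H ∧ σ ∉ H'} := by
  rw [← isOpen_compl_iff, isOpen_iff_forall_mem_open]
  intro σ hσ
  obtain ⟨F, hF, hFH⟩ := h.op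
  obtain ⟨F', hF', hFH'⟩ := h'.op
  by_cases hD : σ ∈ Dq q
  · by_cases hH : σ ∈ H
    · have hH' : σ ∈ H' := by
        by_contra hn
        exact hσ ⟨hH, hn⟩
      refine ⟨_, fun τ hτ hC => ?_, cptAux_isOpen_coset F' σ, ?_⟩
      · have hu : σ⁻¹ * τ ∈ H' :=
          hFH' ⟨(Dq q).mul_mem ((Dq q).inv_mem hD) (h.le hC.1), hτ⟩
        apply hC.2
        have := H'.mul_mem hH' hu
        rwa [mul_inv_cancel_left] at this
      · show σ⁻¹ * σ ∈ F'.fixingSubgroup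
        rw [inv_mul_cancel]
        exact one_mem _
    · refine ⟨_, fun τ hτ hC => ?_, cptAux_isOpen_coset F σ, ?_⟩
      · have hu : σ⁻¹ * τ ∈ H :=
          hFH ⟨(Dq q).mul_mem ((Dq q).inv_mem hD) (h.le hC.1), hτ⟩
        apply hH
        have := H.mul_mem hC.1 (H.inv_mem hu)
        rwa [mul_inv_rev, inv_inv, mul_inv_cancel_left] at this
      · show σ⁻¹ * σ ∈ F.fixingSubgroup
        rw [inv_mul_cancel]
        exact one_mem _
  · exact ⟨(Dq q : Set GQ)ᶜ, fun τ hτ hC => hτ (h.le hC.1), (isClosed_Dq q).isOpen_compl, hD⟩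

theorem cptAux_fixed_of_dvd {σ : GQ} {a b : ℕ} (hb : 0 < b) (hab : a ∣ b) {ζ η : Qb}
    (hζ : IsPrimitiveRoot ζ b) (hη : η ^ a = 1) (hσ : σ ζ = ζ) : σ η = η := by
  have : NeZero b := ⟨hb.ne'⟩
  obtain ⟨c, rfl⟩ := hab
  obtain ⟨i, -, rfl⟩ := hζ.eq_pow_of_pow_eq_one (by rw [pow_mul, hη, one_pow])
  rw [map_pow, hσ]

theorem cptAux_pos (q : Nat.Primes) {n : ℕ} (hn : 0 < n) : 0 < (q : ℕ) ^ n - 1 := by
  have := Nat.one_lt_pow hn.ne' q.2.one_lt
  omega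

/-- **compactness**: an open subgroup `H'` of `H` containing the inertia group of `H` contains `stab H ζ`
for a root of unity `ζ` of order prime to `q`: "an unramified extension is generated by a root of unity" -/
theorem exists_stab_le {H H' : Subgroup GQ} (h : IsOp q H) (h' : IsOp q H') (hle : H' ≤ H)
    (hI : Iq q ⊓ H ≤ H') :
    ∃ n, 0 < n ∧ ∀ n', 0 < n' → n ∣ n' → ∀ ζ : Qb, IsPrimitiveRoot ζ ((q : ℕ) ^ n' - 1) →
      stab H ζ ≤ H' := by
  have hex : ∀ k : ℕ, ∃ z : Qb, IsPrimitiveRoot z ((q : ℕ) ^ k.factorial - 1) := by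
    intro k
    have : NeZero (((q : ℕ) ^ k.factorial - 1 : ℕ) : Qb) :=
      ⟨Nat.cast_ne_zero.2 (cptAux_pos q k.factorial_pos).ne'⟩
    exact HasEnoughRootsOfUnity.exists_primitiveRoot Qb _
  choose z hz using hex
  let C : ℕ → Set GQ := fun k => {σ : GQ | σ ∈ H ∧ σ ∉ H'} ∩ {σ : GQ | σ (z k) ∈ ({z k} : Set Qb)}
  have hCcl : ∀ k, IsClosed (C k) := fun k =>
    (cptAux_isClosed_diff h h').inter (cptAux_isClosed (z k) {z k})
  have hCdec : ∀ k, C (k + 1) ⊆ C k := by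
    intro k σ hσ
    refine ⟨hσ.1, ?_⟩
    exact cptAux_fixed_of_dvd (cptAux_pos q (k + 1).factorial_pos)
      (Nat.pow_sub_one_dvd_pow_sub_one _ (Nat.factorial_dvd_factorial (Nat.le_succ k)))
      (hz (k + 1)) (hz k).pow_eq_one hσ.2
  have hempty : ∃ k, C k = ∅ := by
    by_contra hcon
    push Not at hcon
    obtain ⟨σ, hσ⟩ := IsCompact.nonempty_iInter_of_sequence_nonempty_isCompact_isClosed C hCdec
      hcon (hCcl 0).isCompact hCcl
    rw [Set.mem_iInter] at hσ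
    have hσH : σ ∈ H := (hσ 0).1.1
    have hσI : σ ∈ Iq q := by
      refine mem_Iq_of_roots q (h.le hσH) fun M η hM hη => ?_
      have hM0 := inerAux_pos q hM
      have hcop : Nat.Coprime (q : ℕ) M := (Nat.Prime.coprime_iff_not_dvd q.2).2 hM
      have h1 : M ∣ (q : ℕ) ^ M.totient - 1 :=
        (Nat.modEq_iff_dvd' (Nat.one_le_pow _ _ q.2.pos)).1 (Nat.ModEq.pow_totient hcop).symm
      have h2 : (q : ℕ) ^ M.totient - 1 ∣ (q : ℕ) ^ M.totient.factorial - 1 :=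
        Nat.pow_sub_one_dvd_pow_sub_one _
          (Nat.dvd_factorial (Nat.totient_pos.2 hM0) le_rfl)
      exact cptAux_fixed_of_dvd (cptAux_pos q M.totient.factorial_pos) (h1.trans h2)
        (hz M.totient) hη (hσ M.totient).2
    exact (hσ 0).1.2 (hI ⟨hσI, hσH⟩)
  obtain ⟨k, hk⟩ := hempty
  refine ⟨k.factorial, k.factorial_pos, fun n' hn' hdvd ζ hζ σ hσ => ?_⟩
  by_contra hn
  have hmem : σ ∈ C k := ⟨⟨hσ.1, hn⟩, cptAux_fixed_of_dvd (cptAux_pos q hn')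
    (Nat.pow_sub_one_dvd_pow_sub_one _ hdvd) hζ (hz k).pow_eq_one hσ.2⟩
  rw [hk] at hmem
  exact hmem


variable (q)

/-! ### FROB -/

/-- a Frobenius element: `φ η = η ^ q` for ALL roots of unity of order prime to `q` -/
theorem exists_frobAll : ∃ φ ∈ Dq q, ∀ (M : ℕ) (η : Qb), ¬ (q : ℕ) ∣ M → η ^ M = 1 →
    φ η = η ^ (q : ℕ) := by
  obtain ⟨φ, hφ⟩ := Frob.exists_isFrobeniusAt (primeLocalPlace q) q.2
    (D.liesOverPrime_primeLocalPlace q)
  refine ⟨φ, hφ.mem_decompositionSubgroup, fun M η hM hη => ?_⟩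
  have hηA : η ∈ primeLocalPlace q := D.mem_of_pow_eq_one _ (inerAux_pos q hM) hη
  have h1 := D.frob_pow_smul hφ 1 (IsLocalRing.residue (primeLocalPlace q) ⟨η, hηA⟩)
  rw [← IsLocalRing.ResidueField.residue_smul, ← map_pow, D.residue_eq_iff, pow_one, pow_one] at h1
  refine D.root_eq_of_sub_mem q.2 (D.liesOverPrime_primeLocalPlace q) hM ?_ ?_ h1
  · change (φ η) ^ M = 1
    rw [← map_pow, hη, map_one]
  · rw [← pow_mul, mul_comm, pow_mul, hη, one_pow]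

theorem frobAux_pow {φ : GQ}
    (hφ' : ∀ (M : ℕ) (η : Qb), ¬ (q : ℕ) ∣ M → η ^ M = 1 → φ η = η ^ (q : ℕ)) (k : ℕ)
    {M : ℕ} {η : Qb} (hM : ¬ (q : ℕ) ∣ M) (hη : η ^ M = 1) : (φ ^ k) η = η ^ ((q : ℕ) ^ k) := by
  induction k with
  | zero => simp
  | succ k ih =>
    rw [pow_succ', AlgEquiv.mul_apply, ih, map_pow, hφ' M η hM hη, ← pow_mul, pow_succ']

/-- two "Frobenius elements" have the same powers modulo inertia -/
theorem frobAux_mem_Iq {φ φ₀ : GQ} (hφ : φ ∈ Dq q) (hφ₀ : φ₀ ∈ Dq q)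
    (hφ' : ∀ (M : ℕ) (η : Qb), ¬ (q : ℕ) ∣ M → η ^ M = 1 → φ η = η ^ (q : ℕ))
    (hφ₀' : ∀ (M : ℕ) (η : Qb), ¬ (q : ℕ) ∣ M → η ^ M = 1 → φ₀ η = η ^ (q : ℕ)) (k : ℕ) :
    (φ ^ k)⁻¹ * φ₀ ^ k ∈ Iq q := by
  refine mem_Iq_of_roots q (mul_mem (inv_mem (pow_mem hφ k)) (pow_mem hφ₀ k)) fun M η hM hη => ?_
  rw [AlgEquiv.mul_apply, frobAux_pow q hφ₀' k hM hη, ← frobAux_pow q hφ' k hM hη,
    ← AlgEquiv.mul_apply, inv_mul_cancel, AlgEquiv.one_apply]

/-- `Dq q / Iq q` is topologically generated by `φ` -/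
theorem ur_gen {φ : GQ} (hφ : φ ∈ Dq q)
    (hφ' : ∀ (M : ℕ) (η : Qb), ¬ (q : ℕ) ∣ M → η ^ M = 1 → φ η = η ^ (q : ℕ))
    {U : Subgroup GQ} (hU : IsOp q U) (hI : Iq q ≤ U) {g : GQ} (hg : g ∈ Dq q) :
    ∃ k : ℕ, (φ ^ k)⁻¹ * g ∈ U := by
  obtain ⟨φ₀, hφ₀⟩ := Frob.exists_isFrobeniusAt (primeLocalPlace q) q.2
    (D.liesOverPrime_primeLocalPlace q)
  have hφ₀' : ∀ (M : ℕ) (η : Qb), ¬ (q : ℕ) ∣ M → η ^ M = 1 → φ₀ η = η ^ (q : ℕ) := by
    intro M η hM hη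
    have hηA : η ∈ primeLocalPlace q := D.mem_of_pow_eq_one _ (inerAux_pos q hM) hη
    have h1 := D.frob_pow_smul hφ₀ 1 (IsLocalRing.residue (primeLocalPlace q) ⟨η, hηA⟩)
    rw [← IsLocalRing.ResidueField.residue_smul, ← map_pow, D.residue_eq_iff, pow_one,
      pow_one] at h1
    refine D.root_eq_of_sub_mem q.2 (D.liesOverPrime_primeLocalPlace q) hM ?_ ?_ h1
    · change (φ₀ η) ^ M = 1
      rw [← map_pow, hη, map_one]
    · rw [← pow_mul, mul_comm, pow_mul, hη, one_pow]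
  obtain ⟨F, hF, hFU⟩ := hU.op
  obtain ⟨k, i, hi, d, hdF, hdD, h⟩ := D.exists_frob_pow_mul q.2
    (D.liesOverPrime_primeLocalPlace q) hφ₀ F hF hg
  refine ⟨k, ?_⟩
  have h1 : (φ ^ k)⁻¹ * g = ((φ ^ k)⁻¹ * φ₀ ^ k) * ((φ₀ ^ k)⁻¹ * g) := by group
  rw [h1, h]
  exact U.mul_mem (hI (frobAux_mem_Iq q hφ hφ₀.mem_decompositionSubgroup hφ' hφ₀' k))
    (U.mul_mem (hI hi) (hFU ⟨hdD, hdF⟩))

/-- `Dq q / Iq q` has open subgroups of index divisible by any `p` -/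
theorem ur_div (p : ℕ) (hp : 0 < p) {U : Subgroup GQ} (hU : IsOp q U) (hI : Iq q ≤ U) :
    ∃ F : IntermediateField ℚ Qb, FiniteDimensional ℚ F ∧ Iq q ≤ F.fixingSubgroup ∧
      Dq q ⊓ F.fixingSubgroup ≤ U ∧ p ∣ (Dq q ⊓ F.fixingSubgroup).relIndex U := by
  obtain ⟨φ, hφ, hφ'⟩ := exists_frobAll q
  obtain ⟨n, hn, hst⟩ := exists_stab_le (isOp_Dq (q := q)) hU hU.le (inf_le_left.trans hI)
  have hnp : 0 < n * p := Nat.mul_pos hn hp
  have hN0 := cptAux_pos q hnp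
  have hn0 := cptAux_pos q hn
  have hndvd : ∀ {m : ℕ}, 0 < m → ¬ (q : ℕ) ∣ (q : ℕ) ^ m - 1 := by
    intro m hm h
    have h1 : (q : ℕ) ∣ (q : ℕ) ^ m := dvd_pow_self _ hm.ne'
    have h2 : (q : ℕ) ∣ 1 := by
      have := Nat.dvd_sub h1 h
      rwa [Nat.sub_sub_self (Nat.one_le_pow _ _ q.2.pos)] at this
    exact q.2.one_lt.ne' (Nat.dvd_one.1 h2)
  have : NeZero (((q : ℕ) ^ (n * p) - 1 : ℕ) : Qb) := ⟨Nat.cast_ne_zero.2 hN0.ne'⟩
  obtain ⟨ζ, hζ⟩ := HasEnoughRootsOfUnity.exists_primitiveRoot Qb ((q : ℕ) ^ (n * p) - 1)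
  have := Frob.isAlgebraicQbar
  have hfix : ∀ σ : GQ, σ ∈ (IntermediateField.adjoin ℚ {ζ}).fixingSubgroup ↔ σ ζ = ζ := by
    intro σ
    constructor
    · intro h
      exact (IntermediateField.mem_fixingSubgroup_iff _ _).1 h ζ
        (IntermediateField.mem_adjoin_simple_self ℚ ζ)
    · intro h
      have h1 : IntermediateField.adjoin ℚ {ζ} ≤
          IntermediateField.fixedField (MulAction.stabilizer GQ ζ) := by
        rw [IntermediateField.adjoin_simple_le_iff, IntermediateField.mem_fixedField_iff]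
        intro τ hτ
        exact hτ
      exact (IntermediateField.le_iff_le _ _).1 h1 h
  refine ⟨IntermediateField.adjoin ℚ {ζ}, IntermediateField.adjoin.finiteDimensional
    (Algebra.IsAlgebraic.isAlgebraic ζ).isIntegral, fun i hi => ?_, fun σ hσ => ?_, ?_⟩
  · exact (hfix i).2 (apply_root_of_mem_Iq q hi (hndvd hnp) hζ.pow_eq_one)
  · exact hst (n * p) hnp (dvd_mul_right n p) ζ hζ ⟨hσ.1, (hfix σ).1 hσ.2⟩
  · set V : Subgroup GQ := Dq q ⊓ (IntermediateField.adjoin ℚ {ζ}).fixingSubgroup with hV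
    have hVmem : ∀ σ : GQ, σ ∈ V ↔ σ ∈ Dq q ∧ σ ζ = ζ := fun σ => by
      rw [hV, Subgroup.mem_inf, hfix]
    -- `φ ^ n ∈ U`
    have hφnU : φ ^ n ∈ U := by
      have : NeZero (((q : ℕ) ^ n - 1 : ℕ) : Qb) := ⟨Nat.cast_ne_zero.2 hn0.ne'⟩
      obtain ⟨z, hz⟩ := HasEnoughRootsOfUnity.exists_primitiveRoot Qb ((q : ℕ) ^ n - 1)
      refine hst n hn dvd_rfl z hz ⟨pow_mem hφ n, ?_⟩
      rw [frobAux_pow q hφ' n (hndvd hn) hz.pow_eq_one]
      have h1 : (q : ℕ) ^ n = ((q : ℕ) ^ n - 1) + 1 :=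
        (Nat.sub_add_cancel (Nat.one_le_pow _ _ q.2.pos)).symm
      rw [h1, pow_succ, hz.pow_eq_one, one_mul]
    -- `φ ^ m ∈ V ↔ n p ∣ m`
    have hφV : ∀ m : ℕ, φ ^ m ∈ V ↔ n * p ∣ m := by
      intro m
      rw [hVmem]
      constructor
      · rintro ⟨_, h⟩
        rw [frobAux_pow q hφ' m (hndvd hnp) hζ.pow_eq_one] at h
        have h6 : 0 < (q : ℕ) ^ m := Nat.pow_pos q.2.pos
        have h7 : ζ ^ ((q : ℕ) ^ m) = ζ ^ ((q : ℕ) ^ m - 1) * ζ := by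
          rw [← pow_succ, Nat.sub_add_cancel h6]
        rw [h7] at h
        have hζ0 : ζ ≠ 0 := hζ.ne_zero hN0.ne'
        have h5 : ζ ^ ((q : ℕ) ^ m - 1) = 1 := mul_right_cancel₀ hζ0 (by rw [one_mul]; exact h)
        exact D.dvd_of_pow_sub_one_dvd q.2.one_lt (hζ.dvd_of_pow_eq_one _ h5)
      · rintro ⟨c, rfl⟩
        refine ⟨pow_mem hφ _, ?_⟩
        rw [frobAux_pow q hφ' _ (hndvd hnp) hζ.pow_eq_one]
        have h1 : (q : ℕ) ^ (n * p) - 1 ∣ (q : ℕ) ^ (n * p * c) - 1 :=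
          Nat.pow_sub_one_dvd_pow_sub_one _ (dvd_mul_right _ _)
        obtain ⟨e, he⟩ := h1
        have h2 : (q : ℕ) ^ (n * p * c) = ((q : ℕ) ^ (n * p) - 1) * e + 1 := by
          rw [← he, Nat.sub_add_cancel (Nat.one_le_pow _ _ q.2.pos)]
        rw [h2, pow_succ, pow_mul, hζ.pow_eq_one, one_pow, one_mul]
    -- `V` is normal in `U`
    have hnorm : (V.subgroupOf U).Normal := by
      refine ⟨fun v hv u => ?_⟩
      rw [Subgroup.mem_subgroupOf, hVmem] at hv ⊢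
      refine ⟨hU.le (u * v * u⁻¹).2, ?_⟩
      have h1 : ((u : GQ)⁻¹ ζ) ^ ((q : ℕ) ^ (n * p) - 1) = 1 := by
        rw [← map_pow, hζ.pow_eq_one, map_one]
      have : NeZero ((q : ℕ) ^ (n * p) - 1) := ⟨hN0.ne'⟩
      obtain ⟨k, _, hk⟩ := hζ.eq_pow_of_pow_eq_one h1
      change (u : GQ) ((v : GQ) ((u : GQ)⁻¹ ζ)) = ζ
      rw [← hk, map_pow, hv.2, hk, ← AlgEquiv.mul_apply, mul_inv_cancel, AlgEquiv.one_apply]
    rw [Subgroup.relIndex, Subgroup.index_eq_card]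
    let x : ↥U ⧸ V.subgroupOf U := QuotientGroup.mk ⟨φ ^ n, hφnU⟩
    have hx : orderOf x = p := by
      rw [orderOf_eq_iff hp]
      have key : ∀ m : ℕ, x ^ m = 1 ↔ p ∣ m := by
        intro m
        rw [← QuotientGroup.mk_pow, QuotientGroup.eq_one_iff, Subgroup.mem_subgroupOf]
        change (φ ^ n) ^ m ∈ V ↔ _
        rw [← pow_mul, hφV]
        exact Nat.mul_dvd_mul_iff_left hn
      refine ⟨(key p).2 dvd_rfl, fun m hm hm0 h => ?_⟩
      exact absurd (Nat.le_of_dvd hm0 ((key m).1 h)) (by omega)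
    rw [← hx]
    exact orderOf_dvd_natCard x

/-! ### CYCP -/

theorem cycpAux_le (v : RVal Qb) {n : ℕ} {η η' : Qb} (hη : IsPrimitiveRoot η n) (hn : 1 < n)
    (hη' : IsPrimitiveRoot η' n) : v.w (1 - η) ≤ v.w (1 - η') := by
  have hn0 : 0 < n := by omega
  have : NeZero n := ⟨hn0.ne'⟩
  obtain ⟨b, -, rfl⟩ := hη.eq_pow_of_pow_eq_one hη'.pow_eq_one
  have h1 : (1 : Qb) - η ≠ 0 := sub_ne_zero.2 (hη.ne_one hn).symm
  have h2 : (1 : Qb) - η ^ b ≠ 0 := sub_ne_zero.2 (hη'.ne_one hn).symm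
  have e : (1 : Qb) - η ^ b = (1 - η) * ∑ i ∈ Finset.range b, η ^ i := by
    rw [mul_comm, geom_sum_mul_neg]
  have hη0 : v.GE η 0 := (w_eq_zero_of_pow_eq_one hn0 hη.pow_eq_one).GE
  have h3 : v.GE (∑ i ∈ Finset.range b, η ^ i) 0 :=
    GE_sum _ _ _ _ fun i _ => by simpa using hη0.pow i
  have h4 := ((RVal.EQ_self (v := v) h1).GE le_rfl).mul h3
  rw [← e, add_zero] at h4
  exact h4.le_w h2

theorem cycpAux_prod (v : RVal Qb) {n : ℕ} (hn : 1 < n) {ζ : Qb} (hζ : IsPrimitiveRoot ζ n)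
    (T : Finset Qb) (hT : ∀ η ∈ T, IsPrimitiveRoot η n) :
    v.EQ (∏ η ∈ T, (1 - η)) (T.card * v.w (1 - ζ)) := by
  classical
  induction T using Finset.induction_on with
  | empty => simpa using RVal.EQ_one (v := v)
  | insert η T hη ih =>
    rw [Finset.prod_insert hη, Finset.card_insert_of_notMem hη]
    have hη' := hT η (Finset.mem_insert_self _ _)
    have h1 : v.EQ (1 - η) (v.w (1 - ζ)) :=
      ⟨sub_ne_zero.2 (hη'.ne_one hn).symm,
        le_antisymm (cycpAux_le v hη' hn hζ) (cycpAux_le v hζ hn hη')⟩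
    refine (h1.mul (ih fun x hx => hT x (Finset.mem_insert_of_mem hx))).of_eq ?_
    push_cast
    ring

/-- `φ(p^(k+1)) w(1 - ζ) = 1` for a primitive `p^(k+1)`-th root of unity `ζ` -/
theorem totient_mul_w_one_sub (p : Nat.Primes) (k : ℕ) {ζ : Qb}
    (hζ : IsPrimitiveRoot ζ ((p : ℕ) ^ (k + 1))) :
    (Nat.totient ((p : ℕ) ^ (k + 1)) : ℝ) * (wq p).w (1 - ζ) = 1 := by
  have : Fact (p : ℕ).Prime := ⟨p.2⟩
  set n := (p : ℕ) ^ (k + 1) with hn
  have hn1 : 1 < n := Nat.one_lt_pow (by omega) p.2.one_lt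
  have hn0 : 0 < n := by omega
  have : NeZero n := ⟨hn0.ne'⟩
  have hP : ∏ η ∈ primitiveRoots n Qb, (1 - η) = ((p : ℕ) : Qb) := by
    have h1 := Polynomial.cyclotomic_eq_prod_X_sub_primitiveRoots hζ
    have h2 := Polynomial.eval_one_cyclotomic_prime_pow (R := Qb) (p := (p : ℕ)) k
    rw [← hn, h1, Polynomial.eval_prod] at h2
    simpa using h2
  have hfull := cycpAux_prod (wq p) hn1 hζ (primitiveRoots n Qb)
    fun η hη => (mem_primitiveRoots hn0).1 hη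
  rw [hP, hζ.card_primitiveRoots] at hfull
  rw [← hfull.w_eq, wq_q]

/-- `ℚ(ζ_{p^k})` is totally ramified at `p`: the decomposition group maps onto `Gal(ℚ(ζ_{p^k})/ℚ)` -/
theorem cyclo_onto (p : Nat.Primes) (k : ℕ) {ζ : Qb} (hζ : IsPrimitiveRoot ζ ((p : ℕ) ^ k)) {a : ℕ}
    (ha : ¬ (p : ℕ) ∣ a) : ∃ g ∈ Dq p, g ζ = ζ ^ a := by
  classical
  have : Fact (p : ℕ).Prime := ⟨p.2⟩
  rcases Nat.eq_zero_or_pos k with rfl | hk
  · rw [pow_zero, IsPrimitiveRoot.one_right_iff] at hζ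
    exact ⟨1, Subgroup.one_mem _, by rw [hζ]; simp⟩
  obtain ⟨k, rfl⟩ : ∃ k', k = k' + 1 := ⟨k - 1, by omega⟩
  set n := (p : ℕ) ^ (k + 1) with hn
  have hn1 : 1 < n := Nat.one_lt_pow (by omega) p.2.one_lt
  have hn0 : 0 < n := by omega
  have : NeZero n := ⟨hn0.ne'⟩
  set c := (wq p).w (1 - ζ) with hc
  have hmemP : ∀ η, η ∈ primitiveRoots n Qb ↔ IsPrimitiveRoot η n := fun η =>
    mem_primitiveRoots hn0
  have hfull' : ((primitiveRoots n Qb).card : ℝ) * c = 1 := by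
    rw [hζ.card_primitiveRoots]
    exact totient_mul_w_one_sub p k hζ
  have hcpos : 0 < c := by
    by_contra hneg
    have h1 : ((primitiveRoots n Qb).card : ℝ) * c ≤ 0 :=
      mul_nonpos_of_nonneg_of_nonpos (by positivity) (not_lt.1 hneg)
    linarith
  -- the orbit
  set T := (primitiveRoots n Qb).filter (fun η => ∃ g ∈ Dq p, g ζ = η) with hT
  have hmemT : ∀ η, η ∈ T ↔ ∃ g ∈ Dq p, g ζ = η := by
    intro η
    rw [hT, Finset.mem_filter, hmemP]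
    refine ⟨fun h => h.2, fun h => ⟨?_, h⟩⟩
    obtain ⟨g, -, rfl⟩ := h
    exact hζ.map_of_injective g.injective
  have hTP : T ⊆ primitiveRoots n Qb := Finset.filter_subset _ _
  have hprodT := cycpAux_prod (wq p) hn1 hζ T fun η hη => (hmemP η).1 (hTP hη)
  have hfix : ∏ η ∈ T, (1 - η) ∈ Fx (Dq p) := by
    refine mem_Fx.2 fun σ hσ => ?_
    rw [map_prod]
    refine Finset.prod_bij' (fun η _ => σ η) (fun η _ => σ⁻¹ η) ?_ ?_ ?_ ?_ ?_
    · intro η hη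
      obtain ⟨g, hg, rfl⟩ := (hmemT η).1 hη
      exact (hmemT _).2 ⟨σ * g, Subgroup.mul_mem _ hσ hg, rfl⟩
    · intro η hη
      obtain ⟨g, hg, rfl⟩ := (hmemT η).1 hη
      exact (hmemT _).2 ⟨σ⁻¹ * g, Subgroup.mul_mem _ (Subgroup.inv_mem _ hσ) hg, rfl⟩
    · intro η _
      exact inv_apply_apply σ η
    · intro η _
      exact apply_inv_apply σ η
    · intro η _
      rw [map_sub, map_one]
  obtain ⟨m, hm⟩ := w_int p hfix hprodT.ne_zero
  rw [hprodT.w_eq] at hm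
  have hζT : ζ ∈ T := (hmemT ζ).2 ⟨1, Subgroup.one_mem _, rfl⟩
  have hTpos : 0 < T.card := Finset.card_pos.2 ⟨ζ, hζT⟩
  have hm1 : (1 : ℤ) ≤ m := by
    have : (0 : ℝ) < m := by
      rw [← hm]
      have : (0 : ℝ) < T.card := by exact_mod_cast hTpos
      positivity
    have : (0 : ℤ) < m := by exact_mod_cast this
    omega
  have hcard : (primitiveRoots n Qb).card ≤ T.card := by
    have h1 : (1 : ℝ) ≤ m := by exact_mod_cast hm1
    have h2 : ((primitiveRoots n Qb).card : ℝ) * c ≤ T.card * c := by rw [hfull', hm]; exact h1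
    have h3 := le_of_mul_le_mul_right h2 hcpos
    exact_mod_cast h3
  have hTeq : T = primitiveRoots n Qb := Finset.eq_of_subset_of_card_le hTP hcard
  have hcop : Nat.Coprime a n := by
    rw [hn]
    exact Nat.Coprime.pow_right _ ((Nat.Prime.coprime_iff_not_dvd p.2).2 ha).symm
  have hmem : ζ ^ a ∈ T := by
    rw [hTeq, hmemP]
    exact hζ.pow_of_coprime a hcop
  exact (hmemT _).1 hmem

end Fermat.Agent.S55.B
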