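import Fermat.Agent.S55.B.Root

/-!
# S55/B : a finite extension of a local field is a local field   (ABSTRACT)
(keys `S55/B-FIN-a` = `prodCoset`-lemmas + `exists_unif_of_relIndex`;  `S55/B-FIN-b` = `exists_resCard_of_relIndex`)

`h : LF v H π q Q`, `H' ≤ H` of finite index `N = H'.relIndex H`, `E = Fx H`, `E' = Fx H'`.

## the norm and the characteristic polynomial
`X := ↥H ⧸ H'.subgroupOf H` is finite.  For `x ∈ E'`, `σ ↦ σ x` factors through `X` (`conjOf`).  Every `τ ∈ H` permutes `X` (left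
multiplication) and `τ (conjOf x c) = conjOf x (τ • c)`.  So `nmOf x = ∏_c conjOf x c ∈ E`, `w (nmOf x) = N w x`, and
`chOf x = ∏_c (X - C (conjOf x c))` is monic of degree `N`, has its coefficients in `E`, integral if `x` is, and `x` is a root.

## `exists_unif_of_relIndex`
`N w x ∈ ℤ w π` for `x ∈ E'ˣ`.  The set of `k > 0` with `∃ x ∈ E'ˣ, N w x = k w π` contains `N` (`x = π`); let `k₀` be its minimum
(`Nat.find`), attained by `π'`.  For `x ∈ E'ˣ`, `N w x = k w π`, `k = a k₀ + r`, `0 ≤ r < k₀` (`Int.emod`): `x / π'^a` gives `r`, so `r = 0`.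

## `exists_resCard_of_relIndex`
Work in `kk v` (characteristic `q`, `charP_kk`).  `𝔽 := {c | c^Q = c}` is a finite subfield (roots of `X^Q - X`) with exactly `Q` elements
(`0` and the residues of the powers of `ω`, distinct by `eq_of_pow_eq_one`).  The residue `x̄` of an integral `x ∈ E'` is a root of the reduction
of `chOf x`, which is monic of degree `N` with coefficients in `𝔽` (`ResCard.frob`).  So `d = [𝔽(x̄):𝔽] ≤ N`, `x̄^(Q^d) = x̄` (`FiniteField.pow_card`,
`Module.card_eq_pow_finrank`), hence `x̄^(Q^(N!)) = x̄`.  So `k' := {x̄ | x ∈ E' integral}`, a subfield of `kk v`, is finite; `Q' := #k' = q^f'`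
(`FiniteField.card`).  `frob`: `FiniteField.pow_card`.  `root`: a generator `ḡ` of `k'ˣ` (`IsCyclic`), `g^(Q'-1) ≡ 1`, `exists_rootOfUnity` gives
`η ∈ E'`, `η^(Q'-1) = 1`, `η ≡ g`; if `η^d = 1` then `ḡ^d = 1`, so `Q' - 1 ∣ d`: `η` is primitive.
-/

set_option autoImplicit false

namespace Fermat.Agent.S55.B

open Fermat.Agent.S05

variable {K Ω : Type*} [Field K] [Field Ω] [Algebra K Ω] [CharZero Ω] [IsAlgClosed Ω]
variable {H H' : Subgroup (Ω ≃ₐ[K] Ω)} {v : RVal Ω} {π : Ω} {q Q : ℕ}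

section FinAux

omit [CharZero Ω] [IsAlgClosed Ω]

/-- the conjugates of `x ∈ Fx H'` under `H`, indexed by the coset space -/
def conjOf (H : Subgroup (Ω ≃ₐ[K] Ω)) {H' : Subgroup (Ω ≃ₐ[K] Ω)} {x : Ω} (hx : x ∈ Fx H') :
    ↥H ⧸ H'.subgroupOf H → Ω :=
  Quotient.lift (fun σ : H => (σ : Ω ≃ₐ[K] Ω) x) (by
    intro a b hab
    have h1 : a⁻¹ * b ∈ H'.subgroupOf H := QuotientGroup.leftRel_apply.1 hab
    have h2 := mem_Fx.1 hx _ (Subgroup.mem_subgroupOf.1 h1)
    have h3 : ((a⁻¹ * b : H) : Ω ≃ₐ[K] Ω) = (a : Ω ≃ₐ[K] Ω)⁻¹ * b := rfl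
    rw [h3, AlgEquiv.mul_apply] at h2
    have h4 := congrArg (a : Ω ≃ₐ[K] Ω) h2
    rw [← AlgEquiv.mul_apply, mul_inv_cancel, AlgEquiv.one_apply] at h4
    exact h4.symm)

theorem conjOf_mk {x : Ω} (hx : x ∈ Fx H') (σ : H) :
    conjOf H hx (QuotientGroup.mk σ) = (σ : Ω ≃ₐ[K] Ω) x := rfl

theorem apply_conjOf {x : Ω} (hx : x ∈ Fx H') (τ : H) (c : ↥H ⧸ H'.subgroupOf H) :
    (τ : Ω ≃ₐ[K] Ω) (conjOf H hx c) = conjOf H hx (τ • c) := by
  induction c using QuotientGroup.induction_on with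
  | H σ => rfl

theorem exists_conjOf {x : Ω} (hx : x ∈ Fx H') (c : ↥H ⧸ H'.subgroupOf H) :
    ∃ σ ∈ H, conjOf H hx c = σ x := by
  induction c using QuotientGroup.induction_on with
  | H σ => exact ⟨σ, σ.2, rfl⟩

theorem finAux_w_prod {ι : Type*} (s : Finset ι) (f : ι → Ω) (hf : ∀ i ∈ s, f i ≠ 0) :
    v.w (∏ i ∈ s, f i) = ∑ i ∈ s, v.w (f i) := by
  classical
  induction s using Finset.induction_on with
  | empty => simp [RVal.w_one]
  | insert a s ha ih =>
    rw [Finset.prod_insert ha, Finset.sum_insert ha,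
      v.map_mul _ _ (hf a (Finset.mem_insert_self a s))
        (Finset.prod_ne_zero_iff.2 fun i hi => hf i (Finset.mem_insert_of_mem hi)),
      ih fun i hi => hf i (Finset.mem_insert_of_mem hi)]

theorem finAux_finite (hfin : H'.relIndex H ≠ 0) : Finite (↥H ⧸ H'.subgroupOf H) :=
  Nat.finite_of_card_ne_zero hfin

theorem finAux_card [Fintype (↥H ⧸ H'.subgroupOf H)] :
    Fintype.card (↥H ⧸ H'.subgroupOf H) = H'.relIndex H := by
  rw [← Nat.card_eq_fintype_card]
  rfl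

end FinAux

omit [CharZero Ω] [IsAlgClosed Ω] in
/-- the norm from `Fx H'` to `Fx H` -/
theorem exists_norm_of_relIndex (hH : Pres v H) (hle : H' ≤ H) (hfin : H'.relIndex H ≠ 0) {x : Ω}
    (hx : x ∈ Fx H') (hx0 : x ≠ 0) :
    ∃ y ∈ Fx H, y ≠ 0 ∧ v.w y = (H'.relIndex H : ℝ) * v.w x := by
  have := finAux_finite hfin
  cases nonempty_fintype (↥H ⧸ H'.subgroupOf H)
  have hne : ∀ c, conjOf H hx c ≠ 0 := by
    intro c
    obtain ⟨σ, -, hσ⟩ := exists_conjOf hx c
    rw [hσ]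
    exact (map_ne_zero σ).2 hx0
  refine ⟨∏ c, conjOf H hx c, ?_, Finset.prod_ne_zero_iff.2 fun c _ => hne c, ?_⟩
  · rw [mem_Fx]
    intro τ hτ
    rw [map_prod]
    have h1 : ∀ c, τ (conjOf H hx c) = conjOf H hx ((⟨τ, hτ⟩ : H) • c) :=
      fun c => apply_conjOf hx ⟨τ, hτ⟩ c
    simp only [h1]
    exact Equiv.prod_comp (MulAction.toPerm (⟨τ, hτ⟩ : H)) (fun c => conjOf H hx c)
  · rw [finAux_w_prod _ _ fun c _ => hne c]
    have h1 : ∀ c ∈ Finset.univ, v.w (conjOf H hx c) = v.w x := by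
      intro c _
      obtain ⟨σ, hσH, hσ⟩ := exists_conjOf hx c
      rw [hσ, hH σ hσH]
    rw [Finset.sum_congr rfl h1, Finset.sum_const, Finset.card_univ, finAux_card, nsmul_eq_mul]

open Polynomial in
omit [CharZero Ω] [IsAlgClosed Ω] in
/-- the characteristic polynomial, with coefficients in the valuation ring -/
theorem finAux_charpoly (hH : Pres v H) (hfin : H'.relIndex H ≠ 0)
    {x : Ω} (hx : x ∈ Fx H') (hx0 : v.GE x 0) :
    ∃ G : (OO v)[X], G.Monic ∧ G.natDegree = H'.relIndex H ∧ G.eval ⟨x, hx0⟩ = 0 ∧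
      ∀ i, ((G.coeff i : OO v) : Ω) ∈ Fx H := by
  have := finAux_finite hfin
  cases nonempty_fintype (↥H ⧸ H'.subgroupOf H)
  have hint : ∀ c, v.GE (conjOf H hx c) 0 := by
    intro c
    obtain ⟨σ, hσH, hσ⟩ := exists_conjOf hx c
    rw [hσ]
    exact hH.GE hσH hx0
  let a : ↥H ⧸ H'.subgroupOf H → OO v := fun c => ⟨conjOf H hx c, hint c⟩
  refine ⟨∏ c, (X - C (a c)), monic_prod_of_monic _ _ fun c _ => monic_X_sub_C _, ?_, ?_, ?_⟩
  · rw [natDegree_prod_of_monic _ _ fun c _ => monic_X_sub_C _]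
    simp only [natDegree_X_sub_C, Finset.sum_const, Finset.card_univ, smul_eq_mul, mul_one]
    exact finAux_card
  · rw [eval_prod]
    refine Finset.prod_eq_zero (Finset.mem_univ (QuotientGroup.mk (1 : H))) ?_
    rw [eval_sub, eval_X, eval_C, sub_eq_zero]
    exact Subtype.ext rfl
  · intro j
    have hGmap : (∏ c, (X - C (a c))).map (OO v).subtype = ∏ c, (X - C (conjOf H hx c)) := by
      simp only [Polynomial.map_prod, Polynomial.map_sub, map_X, map_C]
      rfl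
    have e : (((∏ c, (X - C (a c))).coeff j : OO v) : Ω) =
        ((∏ c, (X - C (a c))).map (OO v).subtype).coeff j := by
      rw [coeff_map]
      rfl
    rw [e, hGmap, mem_Fx]
    intro τ hτ
    set g : Polynomial Ω := ∏ c, (X - C (conjOf H hx c)) with hg
    have hmap : g.map (τ : Ω →+* Ω) = g := by
      simp only [hg, Polynomial.map_prod, Polynomial.map_sub, map_X, map_C]
      have h1 : ∀ c, (τ : Ω →+* Ω) (conjOf H hx c) = conjOf H hx ((⟨τ, hτ⟩ : H) • c) :=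
        fun c => apply_conjOf hx ⟨τ, hτ⟩ c
      simp only [h1]
      exact Equiv.prod_comp (MulAction.toPerm (⟨τ, hτ⟩ : H))
        (fun c => (X - C (conjOf H hx c) : Polynomial Ω))
    conv_rhs => rw [← hmap]
    rw [coeff_map]
    rfl

omit [CharZero Ω] [IsAlgClosed Ω] in
/-- the characteristic polynomial -/
theorem exists_charpoly_of_relIndex (hH : Pres v H) (hle : H' ≤ H) (hfin : H'.relIndex H ≠ 0)
    {x : Ω} (hx : x ∈ Fx H') (hx0 : v.GE x 0) :
    ∃ g : Polynomial Ω, g.Monic ∧ g.natDegree = H'.relIndex H ∧ g.eval x = 0 ∧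
      ∀ i, g.coeff i ∈ Fx H ∧ v.GE (g.coeff i) 0 := by
  obtain ⟨G, hG, hdeg, hev, hco⟩ := finAux_charpoly hH hfin hx hx0
  refine ⟨G.map (OO v).subtype, hG.map _, ?_, ?_, fun i => ?_⟩
  · rw [hG.natDegree_map, hdeg]
  · have h1 := congrArg (OO v).subtype hev
    rw [map_zero, ← Polynomial.eval_map_apply] at h1
    exact h1
  · rw [Polynomial.coeff_map]
    exact ⟨hco i, (G.coeff i).2⟩

theorem exists_unif_of_relIndex (h : LF v H π q Q) (hle : H' ≤ H) (hfin : H'.relIndex H ≠ 0) :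
    ∃ π', IsUnif v H' π' := by
  classical
  set N := H'.relIndex H with hN
  have hN0 : (0 : ℝ) < N := by exact_mod_cast Nat.pos_of_ne_zero hfin
  have hπ0 := h.unif.ne
  have hπpos := h.unif.pos
  have hval : ∀ x ∈ Fx H', x ≠ 0 → ∃ k : ℤ, (N : ℝ) * v.w x = k * v.w π := by
    intro x hx hx0
    obtain ⟨y, hy, hy0, hyw⟩ := exists_norm_of_relIndex h.pres hle hfin hx hx0
    obtain ⟨k, hk⟩ := h.unif.gen y hy hy0
    exact ⟨k, by rw [← hyw, hk]⟩
  have hex : ∃ k : ℕ, 0 < k ∧ ∃ x ∈ Fx H', x ≠ 0 ∧ (N : ℝ) * v.w x = k * v.w π :=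
    ⟨N, Nat.pos_of_ne_zero hfin, π, Fx_mono hle h.unif.mem, hπ0, rfl⟩
  obtain ⟨hk₀, π', hπ', hπ'0, hπ'w⟩ := Nat.find_spec hex
  set k₀ := Nat.find hex with hk₀def
  have hk₀R : (0 : ℝ) < k₀ := by exact_mod_cast hk₀
  refine ⟨π', hπ', hπ'0, ?_, ?_⟩
  · have h1 : 0 < (N : ℝ) * v.w π' := by rw [hπ'w]; positivity
    exact (pos_iff_pos_of_mul_pos h1).1 hN0
  · intro x hx hx0
    obtain ⟨k, hk⟩ := hval x hx hx0
    set a : ℤ := k / k₀ with ha
    set r : ℤ := k % k₀ with hr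
    have hkar : k = k₀ * a + r := (Int.mul_ediv_add_emod k k₀).symm
    have hr0 : 0 ≤ r := Int.emod_nonneg _ (by exact_mod_cast hk₀.ne')
    have hrlt : r < k₀ := Int.emod_lt_of_pos _ (by exact_mod_cast hk₀)
    have hz0 : x * (π' ^ a)⁻¹ ≠ 0 := mul_ne_zero hx0 (inv_ne_zero (zpow_ne_zero _ hπ'0))
    have hzw : (N : ℝ) * v.w (x * (π' ^ a)⁻¹) = r * v.w π := by
      rw [v.map_mul _ _ hx0 (inv_ne_zero (zpow_ne_zero _ hπ'0)), RVal.w_inv (zpow_ne_zero _ hπ'0),
        RVal.w_zpow hπ'0]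
      have h1 : (k : ℝ) = k₀ * a + r := by exact_mod_cast hkar
      calc (N : ℝ) * (v.w x + -(a * v.w π')) = N * v.w x - a * (N * v.w π') := by ring
        _ = r * v.w π := by rw [hk, hπ'w, h1]; ring
    have hr' : r = 0 := by
      by_contra hne
      have hrpos : 0 < r := lt_of_le_of_ne hr0 (Ne.symm hne)
      have hmem : 0 < r.toNat ∧ ∃ x ∈ Fx H', x ≠ 0 ∧ (N : ℝ) * v.w x = (r.toNat : ℕ) * v.w π := by
        refine ⟨by omega, _, mul_mem hx (inv_mem (zpow_mem hπ' a)), hz0, ?_⟩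
        rw [hzw]
        congr 1
        have : ((r.toNat : ℤ) : ℝ) = (r : ℝ) := by rw [Int.toNat_of_nonneg hr0]
        exact_mod_cast this.symm
      have := Nat.find_min' hex hmem
      omega
    refine ⟨a, ?_⟩
    have h1 : (k : ℝ) = k₀ * a := by
      have : k = k₀ * a := by rw [hkar, hr', add_zero]
      exact_mod_cast this
    have h2 : (N : ℝ) * (v.w x - a * v.w π') = 0 := by
      calc (N : ℝ) * (v.w x - a * v.w π') = N * v.w x - a * (N * v.w π') := by ring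
        _ = 0 := by rw [hk, hπ'w, h1]; ring
    have := (mul_eq_zero.1 h2).resolve_left hN0.ne'
    linarith

section FinB

open Polynomial

/-- Frobenius orbits of the roots of a polynomial with coefficients in `𝔽_Q` -/
theorem finAux_pow_of_poly {k : Type*} [Field k] {q f : ℕ} [Fact q.Prime] [CharP k q] (gb : k[X])
    (hgb : gb ≠ 0) (hfrob : ∀ j, gb.coeff j ^ (q ^ f) = gb.coeff j) {z : k}
    (hz : gb.eval z = 0) : ∃ d, 0 < d ∧ d ≤ gb.natDegree ∧ z ^ ((q ^ f) ^ d) = z := by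
  classical
  have hq0 : q ≠ 0 := (Fact.out : q.Prime).ne_zero
  have hroot : ∀ y, gb.eval y = 0 → gb.eval (y ^ (q ^ f)) = 0 := by
    intro y hy
    rw [eval_eq_sum_range] at hy ⊢
    have e : ∑ j ∈ Finset.range (gb.natDegree + 1), gb.coeff j * (y ^ (q ^ f)) ^ j =
        (∑ j ∈ Finset.range (gb.natDegree + 1), gb.coeff j * y ^ j) ^ (q ^ f) := by
      rw [sum_pow_char_pow]
      refine Finset.sum_congr rfl fun j _ => ?_
      rw [mul_pow, hfrob, ← pow_mul, ← pow_mul, mul_comm (q ^ f) j]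
    rw [e, hy, zero_pow (pow_ne_zero _ hq0)]
  have hall : ∀ n : ℕ, gb.eval (z ^ ((q ^ f) ^ n)) = 0 := by
    intro n
    induction n with
    | zero => simpa using hz
    | succ n ih =>
      rw [pow_succ, pow_mul]
      exact hroot _ ih
  have hcard : gb.roots.toFinset.card < (Finset.range (gb.natDegree + 1)).card := by
    rw [Finset.card_range]
    exact Nat.lt_succ_of_le ((Multiset.toFinset_card_le _).trans (card_roots' gb))
  obtain ⟨a, ha, b, hb, hab, heq⟩ := Finset.exists_ne_map_eq_of_card_lt_of_maps_to hcard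
    (f := fun n : ℕ => z ^ ((q ^ f) ^ n)) (fun n _ => by
      simp only [Finset.mem_coe, Multiset.mem_toFinset]
      exact (mem_roots hgb).2 (hall n))
  have key : ∀ a b : ℕ, a < b → b ∈ Finset.range (gb.natDegree + 1) →
      z ^ ((q ^ f) ^ a) = z ^ ((q ^ f) ^ b) →
      ∃ d, 0 < d ∧ d ≤ gb.natDegree ∧ z ^ ((q ^ f) ^ d) = z := by
    intro a b hlt hb heq
    obtain ⟨d, rfl⟩ := Nat.exists_eq_add_of_lt hlt
    rw [Finset.mem_range] at hb
    refine ⟨d + 1, Nat.succ_pos d, by omega, ?_⟩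
    have h1 : (z ^ ((q ^ f) ^ (d + 1)) - z) ^ ((q ^ f) ^ a) = 0 := by
      have e : (q ^ f) ^ a = q ^ (f * a) := by rw [pow_mul]
      rw [e, sub_pow_char_pow, ← e, ← pow_mul, ← pow_add, sub_eq_zero, heq]
      congr 2
      ring
    exact sub_eq_zero.1 ((pow_eq_zero_iff (pow_ne_zero _ (pow_ne_zero _ hq0))).1 h1)
  rcases lt_or_gt_of_ne hab with h | h
  · exact key a b h hb heq
  · exact key b a h ha heq.symm

theorem finAux_pow_mul {k : Type*} [Monoid k] {Q d : ℕ} {z : k} (h : z ^ (Q ^ d) = z) (m : ℕ) :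
    z ^ (Q ^ (d * m)) = z := by
  induction m with
  | zero => simp
  | succ m ih => rw [Nat.mul_succ, pow_add, pow_mul, ih, h]

omit [CharZero Ω] [IsAlgClosed Ω] in
/-- the residue field of `Fx H'`, as a subfield of `kk v` -/
def resF (v : RVal Ω) (H' : Subgroup (Ω ≃ₐ[K] Ω)) : Subfield (kk v) where
  carrier := {z | ∃ x : OO v, (x : Ω) ∈ Fx H' ∧ rs v x = z}
  mul_mem' := by
    rintro _ _ ⟨x, hx, rfl⟩ ⟨y, hy, rfl⟩
    exact ⟨x * y, mul_mem hx hy, map_mul _ _ _⟩
  one_mem' := ⟨1, one_mem _, map_one _⟩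
  add_mem' := by
    rintro _ _ ⟨x, hx, rfl⟩ ⟨y, hy, rfl⟩
    exact ⟨x + y, add_mem hx hy, map_add _ _ _⟩
  zero_mem' := ⟨0, zero_mem _, map_zero _⟩
  neg_mem' := by
    rintro _ ⟨x, hx, rfl⟩
    exact ⟨-x, neg_mem hx, map_neg _ _⟩
  inv_mem' := by
    rintro _ ⟨x, hx, rfl⟩
    by_cases h0 : rs v x = 0
    · exact ⟨0, zero_mem _, by rw [h0, inv_zero, map_zero]⟩
    · have hu : v.EQ (x : Ω) 0 := (rs_ne_zero_iff v x).1 h0
      have hi : v.GE (x : Ω)⁻¹ 0 := by simpa using hu.inv.GE le_rfl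
      refine ⟨⟨(x : Ω)⁻¹, hi⟩, inv_mem hx, ?_⟩
      apply eq_inv_of_mul_eq_one_left
      rw [← map_mul, ← map_one (rs v)]
      congr 1
      exact Subtype.ext (inv_mul_cancel₀ hu.1)

theorem exists_resCard_of_relIndex (h : LF v H π q Q) (hle : H' ≤ H)
    (hfin : H'.relIndex H ≠ 0) : ∃ Q', ResCard v H' q Q' := by
  classical
  have hchar : CharP (kk v) q := charP_kk v h.res.prime (Or.inr h.res.char)
  have hfact : Fact q.Prime := ⟨h.res.prime⟩
  obtain ⟨f, hf, hQ⟩ := h.res.pow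
  set N := H'.relIndex H with hN
  -- every residue is a root of `X ^ (Q ^ N!) - X`
  have hpow : ∀ z ∈ resF v H', z ^ (Q ^ N.factorial) = z := by
    rintro _ ⟨x, hx, rfl⟩
    obtain ⟨G, hG, hdeg, hev, hco⟩ := finAux_charpoly h.pres hfin hx x.2
    have hfrob : ∀ j, (G.map (rs v)).coeff j ^ (q ^ f) = (G.map (rs v)).coeff j := by
      intro j
      rw [coeff_map, ← map_pow, rs_eq_iff, ← hQ]
      exact h.res.frob _ (hco j) (G.coeff j).2
    have hz : (G.map (rs v)).eval (rs v x) = 0 := by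
      rw [eval_map_apply, hev, map_zero]
    obtain ⟨d, hd, hdN, hzd⟩ := finAux_pow_of_poly (G.map (rs v)) (hG.map (rs v)).ne_zero hfrob hz
    rw [hG.natDegree_map, hdeg] at hdN
    obtain ⟨m, hm⟩ := Nat.dvd_factorial hd hdN
    rw [hm, hQ]
    exact finAux_pow_mul hzd m
  have hQ1 : 1 < Q ^ N.factorial :=
    Nat.one_lt_pow (Nat.factorial_ne_zero N) (by
      rw [hQ]; exact Nat.one_lt_pow hf.ne' h.res.prime.one_lt)
  have hfinite : Finite (resF v H') := by
    have h1 : {z : kk v | IsRoot (X ^ (Q ^ N.factorial) - X : (kk v)[X]) z}.Finite :=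
      finite_setOfPred_isRoot (FiniteField.X_pow_card_sub_X_ne_zero (kk v) hQ1)
    refine (h1.subset fun z hz => ?_).to_subtype
    show IsRoot _ z
    rw [IsRoot.def, eval_sub, eval_pow, eval_X, hpow z hz, sub_self]
  cases nonempty_fintype (resF v H')
  have hchar' : CharP (resF v H') q :=
    (RingHom.charP_iff (resF v H').subtype (resF v H').subtype.injective q).2 hchar
  obtain ⟨n, -, hcard⟩ := FiniteField.card (resF v H') q
  set Q' := Fintype.card (resF v H') with hQ'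
  have hQ'1 : 1 < Q' := Fintype.one_lt_card
  have hM0 : 0 < Q' - 1 := by omega
  have hMq : ¬ q ∣ Q' - 1 := by
    intro hdvd
    have h1 : q ∣ Q' := by rw [hcard]; exact dvd_pow_self q n.ne_zero
    have h2 : q ∣ 1 := by
      have := (Nat.dvd_sub h1 hdvd)
      rwa [Nat.sub_sub_self hQ'1.le] at this
    exact h.res.prime.one_lt.ne' (Nat.dvd_one.1 h2)
  refine ⟨Q', h.res.prime, ⟨n, n.pos, hcard⟩, h.res.char, ?_, ?_⟩
  · intro x hx hx0
    have h1 := FiniteField.pow_card (⟨rs v ⟨x, hx0⟩, ⟨x, hx0⟩, hx, rfl⟩ : resF v H')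
    have h2 : rs v ⟨x, hx0⟩ ^ Q' = rs v ⟨x, hx0⟩ := congrArg Subtype.val h1
    rw [← map_pow, rs_eq_iff] at h2
    exact h2
  · obtain ⟨g, hg⟩ := IsCyclic.exists_generator (α := (resF v H')ˣ)
    have hord : orderOf g = Q' - 1 := by
      rw [orderOf_eq_card_of_forall_mem_zpowers hg, Nat.card_eq_fintype_card, Fintype.card_units]
    obtain ⟨x, hx, hxg⟩ := (g : resF v H').2
    have hxM : v.GT ((x : Ω) ^ (Q' - 1) - 1) 0 := by
      have h1 : g ^ (Q' - 1) = 1 := by rw [← hord]; exact pow_orderOf_eq_one g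
      have h2 : ((g : resF v H') : kk v) ^ (Q' - 1) = 1 := by
        have := congrArg (fun u : (resF v H')ˣ => ((u : resF v H') : kk v)) h1
        simpa using this
      rw [← hxg, ← map_pow, ← map_one (rs v), rs_eq_iff] at h2
      exact h2
    obtain ⟨η, hη, hηM, hηx⟩ := exists_rootOfUnity (h.pres.mono hle) hM0
      (w_natCast_eq_zero h.res.prime h.res.char hMq) hx hxM
    refine ⟨η, hη, (IsPrimitiveRoot.iff_def _ _).2 ⟨hηM, fun l hl => ?_⟩⟩
    have hη0 : v.GE η 0 := (w_eq_zero_of_pow_eq_one hM0 hηM).GE le_rfl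
    have h3 : rs v ⟨η, hη0⟩ = rs v x := (rs_eq_iff v _ _).2 hηx
    have h4 : ((g : resF v H') : kk v) ^ l = 1 := by
      rw [← hxg, ← h3, ← map_pow, ← map_one (rs v)]
      congr 1
      exact Subtype.ext hl
    have h5 : g ^ l = 1 := by
      apply Units.ext
      apply Subtype.ext
      simpa using h4
    rw [← hord]
    exact orderOf_dvd_of_pow_eq_one h5

end FinB


/-- **a finite extension of a local field is a local field** -/
theorem lf_of_relIndex (h : LF v H π q Q) (hle : H' ≤ H) (hfin : H'.relIndex H ≠ 0) :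
    ∃ π' Q', LF v H' π' q Q' := by
  obtain ⟨π', h1⟩ := exists_unif_of_relIndex h hle hfin
  obtain ⟨Q', h2⟩ := exists_resCard_of_relIndex h hle hfin
  exact ⟨π', Q', h.pres.mono hle, h1, h2⟩

end Fermat.Agent.S55.B
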