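import Fermat.Agent.S55.B.Loc

/-!
# S55/B : Galois theory of `Z/F` inside `Qb`    (key `S55/B-GALZ`)
-/

set_option autoImplicit false
set_option linter.unusedSectionVars false
set_option linter.style.haveILetI false

noncomputable section

namespace Fermat.Agent.S55.B

open Fermat.Agent.S05 Fermat.Agent.S14 ExtCitation NumberField

variable {F Z : Type*} [Field F] [NumberField F] [Field Z] [NumberField Z] [Algebra F Z]
  {p : ℕ} [Fact p.Prime] {q : Nat.Primes} {j : F →ₐ[ℚ] Qb} {jZ : Z →ₐ[ℚ] Qb}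

theorem HH_le (hj : ∀ x : F, jZ (algebraMap F Z x) = j x) : HH q jZ ≤ HH q j := by
  intro σ hσ
  rw [mem_HH] at hσ ⊢
  exact ⟨hσ.1, fun x => by rw [← hj, hσ.2]⟩

theorem mem_fix_fieldRange {E : Type*} [Field E] [Algebra ℚ E] (i : E →ₐ[ℚ] Qb) {σ : GQ} :
    σ ∈ i.fieldRange.fixingSubgroup ↔ ∀ x : E, σ (i x) = i x := by
  rw [IntermediateField.mem_fixingSubgroup_iff]
  constructor
  · intro h x
    exact h _ (AlgHom.mem_fieldRange.2 ⟨x, rfl⟩)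
  · rintro h _ hx
    obtain ⟨x, rfl⟩ := AlgHom.mem_fieldRange.1 hx
    exact h x

theorem HH_inf (hj : ∀ x : F, jZ (algebraMap F Z x) = j x) :
    HH q j ⊓ jZ.fieldRange.fixingSubgroup = HH q jZ := by
  ext σ
  rw [Subgroup.mem_inf, mem_HH, mem_HH, mem_fix_fieldRange]
  constructor
  · rintro ⟨⟨h1, -⟩, h2⟩
    exact ⟨h1, h2⟩
  · rintro ⟨h1, h2⟩
    exact ⟨⟨h1, fun x => by rw [← hj, h2]⟩, h2⟩

variable [IsGalois F Z]

theorem exists_res (hj : ∀ x : F, jZ (algebraMap F Z x) = j x) {σ : GQ}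
    (hσ : ∀ x : F, σ (j x) = j x) : ∃ g : Z ≃ₐ[F] Z, ∀ z, σ (jZ z) = jZ (g z) := by
  letI : Algebra F Qb := j.toRingHom.toAlgebra
  letI : Algebra Z Qb := jZ.toRingHom.toAlgebra
  haveI : IsScalarTower F Z Qb := IsScalarTower.of_algebraMap_eq (fun x => (hj x).symm)
  let σ' : Qb ≃ₐ[F] Qb := AlgEquiv.ofRingEquiv (f := (σ : Qb ≃+* Qb)) (fun x => hσ x)
  refine ⟨σ'.restrictNormal Z, fun z => ?_⟩
  exact (AlgEquiv.restrictNormal_commutes σ' Z z).symm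

/-- `σ` acts on `jZ Z` through `g` -/
def RelZ (jZ : Z →ₐ[ℚ] Qb) (σ : GQ) (g : Z ≃ₐ[F] Z) : Prop := ∀ z, σ (jZ z) = jZ (g z)

theorem RelZ.unique {σ : GQ} {g g' : Z ≃ₐ[F] Z} (h : RelZ jZ σ g) (h' : RelZ jZ σ g') : g = g' := by
  ext z
  exact jZ.injective ((h z).symm.trans (h' z))

theorem RelZ.mul {σ τ : GQ} {g h : Z ≃ₐ[F] Z} (hg : RelZ jZ σ g) (hh : RelZ jZ τ h) :
    RelZ jZ (σ * τ) (g * h) := fun z => by
  rw [AlgEquiv.mul_apply, hh z, hg, AlgEquiv.mul_apply]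

theorem RelZ.one : RelZ jZ (1 : GQ) (1 : Z ≃ₐ[F] Z) := fun _ => rfl

theorem RelZ.inv {σ : GQ} {g : Z ≃ₐ[F] Z} (hg : RelZ jZ σ g) : RelZ jZ σ⁻¹ g⁻¹ := fun z => by
  have h1 := hg (g⁻¹ z)
  have h2 : g (g⁻¹ z) = z := by rw [← AlgEquiv.mul_apply, mul_inv_cancel, AlgEquiv.one_apply]
  rw [h2] at h1
  rw [← h1, ← AlgEquiv.mul_apply, inv_mul_cancel, AlgEquiv.one_apply]

theorem RelZ.pow {σ : GQ} {g : Z ≃ₐ[F] Z} (hg : RelZ jZ σ g) (i : ℕ) : RelZ jZ (σ ^ i) (g ^ i) := by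
  induction i with
  | zero => simpa using RelZ.one
  | succ i ih => rw [pow_succ, pow_succ]; exact ih.mul hg

theorem mem_HH_iff_rel {σ : GQ} : σ ∈ HH q jZ ↔ σ ∈ Dq q ∧ RelZ jZ σ (1 : Z ≃ₐ[F] Z) := by
  rw [mem_HH]; rfl

theorem orderOf_eq_of_ne_one (hdeg : Module.finrank F Z = p) {g : Z ≃ₐ[F] Z} (hg : g ≠ 1) :
    orderOf g = p := by
  have hcard : Nat.card (Z ≃ₐ[F] Z) = p := by rw [IsGalois.card_aut_eq_finrank, hdeg]
  have h1 : orderOf g ∣ p := hcard ▸ orderOf_dvd_natCard g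
  rcases (Nat.dvd_prime (Fact.out : p.Prime)).1 h1 with h | h
  · exact absurd (orderOf_eq_one_iff.1 h) hg
  · exact h

theorem exists_pow_eq (hdeg : Module.finrank F Z = p) {g : Z ≃ₐ[F] Z} (hg : g ≠ 1)
    (h : Z ≃ₐ[F] Z) : ∃ i < p, g ^ i = h := by
  classical
  have hcard : Nat.card (Z ≃ₐ[F] Z) = p := by rw [IsGalois.card_aut_eq_finrank, hdeg]
  have h1 : h ∈ Subgroup.zpowers g := mem_zpowers_of_prime_card hcard hg
  have h2 : h ∈ Submonoid.powers g := (mem_powers_iff_mem_zpowers).2 h1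
  rw [mem_powers_iff_mem_range_orderOf, orderOf_eq_of_ne_one hdeg hg] at h2
  obtain ⟨i, hi, rfl⟩ := Finset.mem_image.1 h2
  exact ⟨i, Finset.mem_range.1 hi, rfl⟩

theorem exists_rel_ne_one (hj : ∀ x : F, jZ (algebraMap F Z x) = j x)
    {s : GQ} (hs : s ∈ HH q j) (hs' : s ∉ HH q jZ) : ∃ g : Z ≃ₐ[F] Z, RelZ jZ s g ∧ g ≠ 1 := by
  obtain ⟨g, hg⟩ := exists_res hj ((mem_HH q j).1 hs).2
  refine ⟨g, hg, ?_⟩
  rintro rfl
  exact hs' (mem_HH_iff_rel.2 ⟨((mem_HH q j).1 hs).1, hg⟩)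

theorem cyc_HH (hj : ∀ x : F, jZ (algebraMap F Z x) = j x) (hdeg : Module.finrank F Z = p)
    {s : GQ} (hs : s ∈ HH q j) (hs' : s ∉ HH q jZ) : Cyc (HH q j) (HH q jZ) s p := by
  obtain ⟨g, hg, hg1⟩ := exists_rel_ne_one hj hs hs'
  have hsD : s ∈ Dq q := ((mem_HH q j).1 hs).1
  have hord := orderOf_eq_of_ne_one hdeg hg1
  refine (isOp_HH q jZ).cyc inf_le_left (HH_le hj) hs (Fact.out : p.Prime).pos ?_ ?_ ?_ ?_
  · intro h hh
    obtain ⟨hD, hr⟩ := (mem_HH_iff_rel (F := F)).1 hh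
    constructor
    · refine (mem_HH_iff_rel (F := F)).2
        ⟨(Dq q).mul_mem ((Dq q).mul_mem hsD hD) ((Dq q).inv_mem hsD), ?_⟩
      have := (hg.mul hr).mul hg.inv
      simpa using this
    · refine (mem_HH_iff_rel (F := F)).2
        ⟨(Dq q).mul_mem ((Dq q).mul_mem ((Dq q).inv_mem hsD) hD) hsD, ?_⟩
      have := (hg.inv.mul hr).mul hg
      simpa using this
  · intro σ hσ
    obtain ⟨k, hk⟩ := exists_res hj ((mem_HH q j).1 hσ).2
    obtain ⟨i, hi, hik⟩ := exists_pow_eq hdeg hg1 k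
    refine ⟨i, hi, (mem_HH_iff_rel (F := F)).2
      ⟨(Dq q).mul_mem ((Dq q).inv_mem ((Dq q).pow_mem hsD i)) ((mem_HH q j).1 hσ).1, ?_⟩⟩
    have h1 : RelZ jZ ((s ^ i)⁻¹ * σ) ((g ^ i)⁻¹ * k) := (hg.pow i).inv.mul hk
    rwa [hik, inv_mul_cancel] at h1
  · refine (mem_HH_iff_rel (F := F)).2 ⟨(Dq q).pow_mem hsD p, ?_⟩
    have h1 := hg.pow p
    have h2 : g ^ p = 1 := by rw [← hord, pow_orderOf_eq_one]
    rwa [h2] at h1
  · intro i hi hip hmem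
    obtain ⟨-, hr⟩ := (mem_HH_iff_rel (F := F)).1 hmem
    have h1 : g ^ i = 1 := (hg.pow i).unique hr
    have h2 := orderOf_dvd_of_pow_eq_one h1
    rw [hord] at h2
    exact absurd (Nat.le_of_dvd hi h2) (not_le.2 hip)

theorem Nm_map (hj : ∀ x : F, jZ (algebraMap F Z x) = j x) (hdeg : Module.finrank F Z = p)
    {s : GQ} (hs : s ∈ HH q j) (hs' : s ∉ HH q jZ) (z : Z) :
    Nm s p (jZ z) = j (Algebra.norm F z) := by
  classical
  obtain ⟨g, hg, hg1⟩ := exists_rel_ne_one hj hs hs'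
  have hord := orderOf_eq_of_ne_one hdeg hg1
  rw [← hj, Algebra.norm_eq_prod_automorphisms, map_prod, Nm]
  have huniv : (Finset.univ : Finset (Z ≃ₐ[F] Z)) = (Finset.range p).image (fun i => g ^ i) := by
    ext h
    simp only [Finset.mem_univ, Finset.mem_image, Finset.mem_range, true_iff]
    exact exists_pow_eq hdeg hg1 h
  rw [huniv, Finset.prod_image]
  · exact Finset.prod_congr rfl fun i _ => hg.pow i z
  · intro a ha b hb hab
    have ha' : a < orderOf g := by rw [hord]; exact Finset.mem_range.1 ha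
    have hb' : b < orderOf g := by rw [hord]; exact Finset.mem_range.1 hb
    exact pow_injOn_Iio_orderOf ha' hb' hab

end Fermat.Agent.S55.B
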