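import Fermat.Agent.S55.B.Loc

/-!
# S55/B : open subgroups of `Dq q` are stabilisers; Kummer generators defined over number fields   (key `S55/B-L6b`)
-/

set_option autoImplicit false
set_option linter.unusedSectionVars false
set_option linter.style.haveILetI false
set_option linter.unusedVariables false

noncomputable section

namespace Fermat.Agent.S55.B

open Fermat.Agent.S05 Fermat.Agent.S14 ExtCitation NumberField

variable {p : ℕ} [Fact p.Prime] {q : Nat.Primes}

/-- every open subgroup of `Dq q` is the stabiliser of an element -/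
theorem exists_gen {H : Subgroup GQ} (h : IsOp q H) : ∃ θ : Qb, stab (Dq q) θ = H := by
  obtain ⟨F, hFfin, hF⟩ := h.op
  have key : ∃ θ ∈ Fx H, ∀ σ ∈ Dq q, σ ∉ H → σ θ ≠ θ := by
    by_contra hcon
    push Not at hcon
    haveI : (H.subgroupOf (Dq q)).FiniteIndex := ⟨h.relIndex_ne_zero⟩
    let X := ↥(Dq q) ⧸ H.subgroupOf (Dq q)
    haveI : Finite X := Subgroup.finite_quotient_of_finiteIndex
    let ι := {c : X // ((c.out : ↥(Dq q)) : GQ) ∉ H}
    let V : ι → Subspace ℚ (Fx H) := fun c =>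
      { carrier := {x | ((c.1.out : ↥(Dq q)) : GQ) (x : Qb) = x}
        add_mem' := by
          intro a b ha hb
          change ((c.1.out : ↥(Dq q)) : GQ) ((a : Qb) + b) = (a : Qb) + b
          rw [map_add, ha, hb]
        zero_mem' := map_zero _
        smul_mem' := by
          intro r a ha
          change ((c.1.out : ↥(Dq q)) : GQ) (r • (a : Qb)) = r • (a : Qb)
          rw [Algebra.smul_def, map_mul, AlgEquiv.commutes, ha] }
    have hcov : ⋃ c, (V c : Set (Fx H)) = Set.univ := by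
      rw [Set.eq_univ_iff_forall]
      intro x
      obtain ⟨σ, hσD, hσH, hfix⟩ := hcon x x.2
      obtain ⟨k, hk⟩ := QuotientGroup.mk_out_eq_mul (H.subgroupOf (Dq q)) (⟨σ, hσD⟩ : ↥(Dq q))
      have hkH : ((k : ↥(Dq q)) : GQ) ∈ H := Subgroup.mem_subgroupOf.1 k.2
      have hout : (((QuotientGroup.mk (⟨σ, hσD⟩ : ↥(Dq q)) : X).out : ↥(Dq q)) : GQ) =
          σ * ((k : ↥(Dq q)) : GQ) := by
        rw [hk]; rfl
      refine Set.mem_iUnion.2 ⟨⟨QuotientGroup.mk (⟨σ, hσD⟩ : ↥(Dq q)), ?_⟩, ?_⟩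
      · rw [hout]
        intro hmem
        apply hσH
        have := H.mul_mem hmem (H.inv_mem hkH)
        rwa [mul_inv_cancel_right] at this
      · change (((QuotientGroup.mk (⟨σ, hσD⟩ : ↥(Dq q)) : X).out : ↥(Dq q)) : GQ) (x : Qb) = x
        rw [hout, AlgEquiv.mul_apply, mem_Fx.1 x.2 _ hkH, hfix]
    obtain ⟨c, hc⟩ := Subspace.exists_eq_top_of_iUnion_eq_univ hcov
    obtain ⟨x, hx, hne⟩ := exists_moved F hF h.le (c.1.out).2 c.2
    apply hne
    have : (⟨x, hx⟩ : Fx H) ∈ V c := by rw [hc]; trivial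
    exact this
  obtain ⟨θ, hθ, hne⟩ := key
  refine ⟨θ, le_antisymm ?_ ?_⟩
  · intro σ hσ
    by_contra hσH
    exact hne σ hσ.1 hσH hσ.2
  · intro σ hσ
    exact ⟨h.le hσ, mem_Fx.1 hθ σ hσ⟩

theorem HH_val (F : IntermediateField ℚ Qb) [NumberField F] :
    HH q F.val = Dq q ⊓ F.fixingSubgroup := by
  ext σ
  refine (mem_HH q F.val).trans ?_
  rw [Subgroup.mem_inf, IntermediateField.mem_fixingSubgroup_iff]
  constructor
  · rintro ⟨h1, h2⟩
    exact ⟨h1, fun x hx => h2 ⟨x, hx⟩⟩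
  · rintro ⟨h1, h2⟩
    exact ⟨h1, fun x => h2 x x.2⟩

/-- a cyclic extension of degree `p` of local fields containing `μ_p` comes from a Kummer extension of
number fields -/
theorem exists_kummer_gen {H H' : Subgroup GQ} (h : IsOp q H) (h' : IsOp q H') {s : GQ}
    (hc : Cyc H H' s p) {ζ : Qb} (hζ : IsPrimitiveRoot ζ p) (hζH : ζ ∈ Fx H) :
    ∃ (F : IntermediateField ℚ Qb) (α₀ : Qb), FiniteDimensional ℚ F ∧ ζ ∈ F ∧ α₀ ^ p ∈ F ∧ α₀ ≠ 0 ∧
      s α₀ = ζ * α₀ ∧ α₀ ∈ Fx H' ∧ Dq q ⊓ F.fixingSubgroup = H := by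
  have hp : p.Prime := Fact.out
  obtain ⟨θ, hθ⟩ := exists_gen h
  have hθH : θ ∈ Fx H := by
    rw [← hθ]; exact mem_Fx_stab _ _
  let F : IntermediateField ℚ Qb := IntermediateField.adjoin ℚ {θ, ζ}
  have hFfin : FiniteDimensional ℚ F := by
    apply IntermediateField.finiteDimensional_adjoin
    intro x _
    exact (AlgebraicClosure.isAlgebraic ℚ).isIntegral.isIntegral x
  have hθF : θ ∈ F := IntermediateField.subset_adjoin ℚ _ (by simp)
  have hζF : ζ ∈ F := IntermediateField.subset_adjoin ℚ _ (by simp)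
  have hFle : F ≤ Fx H := by
    rw [IntermediateField.adjoin_le_iff]
    rintro x (rfl | rfl)
    · exact hθH
    · exact hζH
  have hDF : Dq q ⊓ F.fixingSubgroup = H := by
    apply le_antisymm
    · rintro σ ⟨h1, h2⟩
      rw [← hθ]
      exact ⟨h1, (IntermediateField.mem_fixingSubgroup_iff F σ).1 h2 θ hθF⟩
    · intro σ hσ
      refine ⟨h.le hσ, ?_⟩
      change σ ∈ F.fixingSubgroup
      rw [IntermediateField.mem_fixingSubgroup_iff]
      intro x hx
      exact mem_Fx.1 (hFle hx) σ hσ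
  -- Hilbert 90
  have hsζ : s ζ = ζ := mem_Fx.1 hζH s hc.mem
  have hN : Nm s p ζ = 1 := by rw [Nm_of_fixed hsζ, hζ.pow_eq_one]
  obtain ⟨α, hα, hα0, hαζ⟩ := hc.h90 (Fx_mono hc.le hζH) hN
  have hsα : s α = ζ * α := by
    rw [hαζ]; field_simp
  have haH : α ^ p ∈ Fx H := by
    rw [hc.mem_Fx_iff]
    refine ⟨pow_mem hα p, ?_⟩
    rw [map_pow, hsα, mul_pow, hζ.pow_eq_one, one_mul]
  haveI : NumberField F := { to_charZero := inferInstance, to_finiteDimensional := hFfin }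
  have hHH : HH q F.val = H := by rw [HH_val, hDF]
  have ha0 : α ^ p ≠ 0 := pow_ne_zero _ hα0
  obtain ⟨y, hy⟩ := dense_units q F.val (x := α ^ p) (by rw [hHH]; exact haH) ha0
    (2 * (wq q).w ((p : ℕ) : Qb))
  have hyH : F.val (y : F) ∈ Fx H := hFle (y : F).2
  have hy0 : F.val (y : F) ≠ 0 := by
    rw [Ne, map_eq_zero]; exact y.ne_zero
  obtain ⟨b, hb, hbp, -⟩ := exists_root h.pres hp.pos (u := α ^ p / F.val (y : F))
    (div_mem haH hyH) hy
  have hb0 : b ≠ 0 := by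
    rintro rfl
    rw [zero_pow hp.ne_zero] at hbp
    exact div_ne_zero ha0 hy0 hbp.symm
  refine ⟨F, α / b, hFfin, hζF, ?_, div_ne_zero hα0 hb0, ?_, div_mem hα (Fx_mono hc.le hb), hDF⟩
  · have : (α / b) ^ p = F.val (y : F) := by
      rw [div_pow, hbp]; field_simp
    rw [this]
    exact (y : F).2
  · rw [map_div₀, hsα, mem_Fx.1 hb s hc.mem, mul_div_assoc]

end Fermat.Agent.S55.B
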