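import Fermat.Agent.S55.B.UnramNorm

/-!
# S55/B : ramified cyclic extensions of prime degree, LOW (abstract form), the dichotomy
(keys `S55/B-RAM` = `lf_ram`;  `S55/B-LOWABS` = `exists_not_norm`;  `S55/B-DICH` = `dichotomy`)

`h : LF v H π q Q`, `hc : Cyc H H' s p`, `p` prime, `E = Fx H`, `E' = Fx H'`.

## `lf_ram`  (`y ∈ E'` with `w y ∉ ℤ w π`)
`p w y = w (Nm s p y) = a w π` (`w_Nm`, `Cyc.Nm_mem`, `IsUnif.gen`), `p ∤ a`.  `r a + t p = 1`, `π' = y^r π^t` (zpow):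
`p w π' = w π`.  For `x ∈ E'ˣ`: `w x = w (N x) / p ∈ ℤ w π'`.  `π' ∉ E`, so `π'` is a primitive element
(`Cyc.injOn_of_not_mem`), `x = ∑_{i<p} c_i π'^i`, `c_i ∈ E` (`Cyc.exists_coeffs`); the valuations of the non zero terms are in
`(i/p + ℤ) w π`, pairwise distinct, so (`GE_of_sum_of_distinct`) `x` integral `⇒` all terms integral, and those with `i ≥ 1` have
valuation `> 0`: `x ≡ c_0`, `x^Q ≡ c_0^Q ≡ c_0 ≡ x` (`GT_pow_sub_pow`).  `root`: the same `ω` (`Fx_mono`).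

## `exists_not_norm`
Case A: `w (E'ˣ) ⊆ ℤ w π`.  Then `w (N y) = p w y ∈ p ℤ w π`: `c = π` is not a norm.
Case B: otherwise `lf_ram` gives `h' : LF v H' π' q Q`, `p w π' = w π`.  Let `ζ` be a primitive `(Q^p - 1)`-th root of unity
(`IsAlgClosed`, `HasEnoughRootsOfUnity`/`IsCyclotomicExtension` or `exists_root` of the cyclotomic polynomial).
`φ' ∈ H'`, `φ' ζ = ζ^Q` (`exists_frob h'`); `s ζ = ζ^(Q^i) = φ'^i ζ` (`exists_pow_of_mem h`); `s₀ = s * (φ'^i)⁻¹`... choose the order so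
that `s₀ ∈ s H'` and `s₀ ζ = ζ` (use `φ'^i` normalises nothing: `s₀ := (φ'^i)⁻¹ * s` fixes `ζ`; it is `s * h`, `h = s⁻¹ (φ'^i)⁻¹ s ∈ H'` by
`hc.conj`), so `Cyc H H' s₀ p` (`Cyc.of_mul`) and `Nm s₀ p = Nm s p` on `E'` (`Nm_congr`).
`H0 = stab H' ζ`, `H1 = H'`, `H2 = stab H ζ`.  `Cyc H' H0 φ' p` (`cyc_stab h'`).  `Cyc H2 H0 s₀ p`: `gen`: `σ ∈ H2`, `σ = s₀^i h`, `h ∈ H'`,
and `h ζ = ζ`; `prim`: `π'`.  Commutation on `Fx H0`: `s₀ φ' s₀⁻¹ φ'⁻¹ ∈ H'` (as `φ' ∈ H'`, `conj`) and it fixes `ζ`.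
`π = π'^p u`, `u ∈ E'` a unit, `u = Nm φ' p y₀` (`exists_norm_unit h'`), `π'^p = Nm φ' p π'`.  `bicyclic` gives `c`.
If `c` were a norm from `E'`, `π = Nm φ' p t`, `t ∈ Fx (stab H ζ)`: contradiction with `lf_stab h`: `w π = p w t ∈ p ℤ w π`.

## `dichotomy`
Assume `w (E'ˣ) ⊆ ℤ w π`.  (1) There is an integral `x ∈ E'` which is not congruent to any element of `E`: otherwise every `x ∈ E'` is
approximated by elements of `E` to any order (`x = c₀ + π x₁`, `x₁ ∈ E'` integral, ...), `w (s x - x) = w (s (x - c) - (x - c)) > N` for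
all `N`, `s x = x`, contradicting `hc.prim` (`p ≥ 2`).  `x` is a unit.  (2) The residues of the powers of `x` lie in the set of the
residues of `∑_{i<p} c_i x^i`, `c_i ∈ {0} ∪ μ_{Q-1}` (because `x` is a root of `∏ (X - s^i x)`, monic of degree `p` with integral
coefficients in `E`, `exists_teich`), a finite set: so `x^M ≡ 1` for some `M > 0`, and we can take `M` prime to `q`
(`(x^(M/q))^q ≡ 1 ⇒ x^(M/q) ≡ 1` in characteristic `q`).  (3) `exists_rootOfUnity`: `η ∈ E'`, `η^M = 1`, `η ≡ x`, so `η ∉ E`.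
(4) `φ ∈ H` with `φ η = η^Q` (`exists_frob`); `φ^p` acts trivially on `E'` (`Cyc.exists_pow`), so `η^(Q^p) = η`, `η = ζ^a`.
(5) `stab H ζ ≤ stab H η`, `H' ≤ stab H η ≠ H`; both `H'` and `stab H ζ` are "of index `p`" in `H`: `Cyc.eq_of_le` twice.
-/

set_option autoImplicit false

namespace Fermat.Agent.S55.B

open Fermat.Agent.S05

variable {K Ω : Type*} [Field K] [Field Ω] [Algebra K Ω] [CharZero Ω] [IsAlgClosed Ω]
variable {H H' : Subgroup (Ω ≃ₐ[K] Ω)} {v : RVal Ω} {π : Ω} {q Q p : ℕ} {s : Ω ≃ₐ[K] Ω}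

omit [CharZero Ω] [IsAlgClosed Ω] in
/-- no integer `n` satisfies `p n = 1` -/
theorem ramAux_false_of_mul (hp : p.Prime) {x : ℝ} (hx : 0 < x) {n : ℤ}
    (h : x = (p : ℝ) * ((n : ℝ) * x)) : False := by
  have h1 : ((p : ℝ) * n - 1) * x = 0 := by linarith
  have h2 : (p : ℝ) * n - 1 = 0 := (mul_eq_zero.1 h1).resolve_right hx.ne'
  have h3 : (p : ℤ) * n = 1 := by
    have : (((p : ℤ) * n : ℤ) : ℝ) = ((1 : ℤ) : ℝ) := by push_cast; linarith
    exact_mod_cast this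
  have h4 : (p : ℤ) ∣ 1 := ⟨n, h3.symm⟩
  have h5 : p ∣ 1 := by exact_mod_cast h4
  exact hp.one_lt.ne' (Nat.dvd_one.1 h5)

omit [CharZero Ω] [IsAlgClosed Ω] in
/-- the valuation of an element of `E'` in terms of its norm -/
theorem ramAux_w (h : LF v H π q Q) (hc : Cyc H H' s p) {x : Ω} (hx : x ∈ Fx H') (hx0 : x ≠ 0) :
    ∃ a : ℤ, (p : ℝ) * v.w x = a * v.w π := by
  obtain ⟨a, ha⟩ := h.unif.gen _ (hc.Nm_mem hx) (Nm_ne_zero s p hx0)
  exact ⟨a, by rw [← ha, w_Nm h.pres hc.mem p hx0]⟩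

/-- a ramified cyclic extension of prime degree is totally ramified -/
theorem lf_ram (h : LF v H π q Q) (hp : p.Prime) (hc : Cyc H H' s p) {y : Ω} (hy : y ∈ Fx H')
    (hy0 : y ≠ 0) (hyw : ∀ n : ℤ, v.w y ≠ n * v.w π) :
    ∃ π', LF v H' π' q Q ∧ p * v.w π' = v.w π := by
  have hp0 : (0 : ℝ) < p := by exact_mod_cast hp.pos
  have hπ0 := h.unif.ne
  have hπpos := h.unif.pos
  have hπmem : π ∈ Fx H' := Fx_mono hc.le h.unif.mem
  obtain ⟨a, ha⟩ := ramAux_w h hc hy hy0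
  have hpa : ¬ (p : ℤ) ∣ a := by
    rintro ⟨b, rfl⟩
    apply hyw b
    push_cast at ha
    have : (p : ℝ) * (v.w y - b * v.w π) = 0 := by linarith
    have := (mul_eq_zero.1 this).resolve_left hp0.ne'
    linarith
  have hcop : IsCoprime a (p : ℤ) :=
    ((Nat.prime_iff_prime_int.1 hp).coprime_iff_not_dvd.2 hpa).symm
  obtain ⟨r, t, hrt⟩ := hcop
  set π' : Ω := y ^ r * π ^ t with hπ'
  have hπ'0 : π' ≠ 0 := mul_ne_zero (zpow_ne_zero _ hy0) (zpow_ne_zero _ hπ0)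
  have hπ'mem : π' ∈ Fx H' := mul_mem (zpow_mem hy _) (zpow_mem hπmem _)
  have hw : (p : ℝ) * v.w π' = v.w π := by
    rw [hπ', v.map_mul _ _ (zpow_ne_zero _ hy0) (zpow_ne_zero _ hπ0), RVal.w_zpow hy0,
      RVal.w_zpow hπ0]
    have h1 : ((r * a + t * p : ℤ) : ℝ) = 1 := by rw [hrt]; norm_num
    push_cast at h1
    calc (p : ℝ) * (r * v.w y + t * v.w π) = r * (p * v.w y) + t * p * v.w π := by ring
      _ = (r * a + t * p) * v.w π := by rw [ha]; ring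
      _ = v.w π := by rw [h1, one_mul]
  have hπ'pos : 0 < v.w π' := by
    by_contra hneg
    push Not at hneg
    have : (p : ℝ) * v.w π' ≤ 0 := mul_nonpos_of_nonneg_of_nonpos hp0.le hneg
    linarith
  have hgen : ∀ x ∈ Fx H', x ≠ 0 → ∃ n : ℤ, v.w x = n * v.w π' := by
    intro x hx hx0
    obtain ⟨n, hn⟩ := ramAux_w h hc hx hx0
    refine ⟨n, ?_⟩
    rw [← hw] at hn
    have : (p : ℝ) * (v.w x - n * v.w π') = 0 := by linarith
    have := (mul_eq_zero.1 this).resolve_left hp0.ne'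
    linarith
  have hπ'not : π' ∉ Fx H := by
    intro hmem
    obtain ⟨n, hn⟩ := h.unif.gen _ hmem hπ'0
    rw [hn] at hw
    exact ramAux_false_of_mul hp hπpos hw.symm
  refine ⟨π', ⟨h.pres.mono hc.le, ⟨hπ'mem, hπ'0, hπ'pos, hgen⟩,
    ⟨h.res.prime, h.res.pow, h.res.char, ?_, ?_⟩⟩, hw⟩
  · intro x hx hx0
    obtain ⟨c, hcmem, hxc⟩ := hc.exists_coeffs hπ'mem (hc.injOn_of_not_mem hp hπ'mem hπ'not) hx
    -- valuations of the terms
    have hterm : ∀ i, c i * π' ^ i ≠ 0 → ∃ n : ℤ, v.w (c i * π' ^ i) = ((n * p + i : ℤ) : ℝ) * v.w π' := by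
      intro i hi
      have hci : c i ≠ 0 := left_ne_zero_of_mul hi
      obtain ⟨n, hn⟩ := h.unif.gen _ (hcmem i) hci
      refine ⟨n, ?_⟩
      rw [v.map_mul _ _ hci (pow_ne_zero _ hπ'0), RVal.w_pow hπ'0, hn, ← hw]
      push_cast
      ring
    have hd : ∀ i ∈ Finset.range p, ∀ j ∈ Finset.range p, c i * π' ^ i ≠ 0 → c j * π' ^ j ≠ 0 →
        v.w (c i * π' ^ i) = v.w (c j * π' ^ j) → i = j := by
      intro i hi j hj hi0 hj0 hij
      obtain ⟨n, hn⟩ := hterm i hi0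
      obtain ⟨m, hm⟩ := hterm j hj0
      rw [hn, hm] at hij
      have h1 : ((n * p + i : ℤ) : ℝ) = ((m * p + j : ℤ) : ℝ) := mul_right_cancel₀ hπ'pos.ne' hij
      have h2 : n * p + i = m * p + j := by exact_mod_cast h1
      rw [Finset.mem_range] at hi hj
      have h3 : (i : ℤ) % p = (j : ℤ) % p := by
        have e1 : (n * p + i) % (p : ℤ) = (i : ℤ) % p := by
          rw [add_comm, Int.add_mul_emod_self_right]
        have e2 : (m * p + j) % (p : ℤ) = (j : ℤ) % p := by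
          rw [add_comm, Int.add_mul_emod_self_right]
        rw [← e1, ← e2, h2]
      rw [Int.emod_eq_of_lt (by positivity) (by exact_mod_cast hi),
        Int.emod_eq_of_lt (by positivity) (by exact_mod_cast hj)] at h3
      exact_mod_cast h3
    have hge := GE_of_sum_of_distinct v (Finset.range p) (fun i => c i * π' ^ i) hd
      (a := 0) (by rw [← hxc]; exact hx0)
    have h0mem : 0 ∈ Finset.range p := Finset.mem_range.2 hp.pos
    have hc0 : v.GE (c 0) 0 := by simpa using hge 0 h0mem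
    have hdiff : v.GT (x - c 0) 0 := by
      have e : x - c 0 = ∑ i ∈ (Finset.range p).erase 0, c i * π' ^ i := by
        rw [hxc, ← Finset.add_sum_erase _ _ h0mem]
        simp
      rw [e]
      refine GT_sum v _ _ 0 fun i hi => ?_
      obtain ⟨hi0, hir⟩ := Finset.mem_erase.1 hi
      by_cases hz : c i * π' ^ i = 0
      · exact Or.inl hz
      refine Or.inr ?_
      have h1 := (hge i hir).le_w hz
      obtain ⟨n, hn⟩ := hterm i hz
      refine lt_of_le_of_ne h1 fun h2 => ?_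
      rw [hn] at h2
      have h3 : ((n * p + i : ℤ) : ℝ) = 0 := (mul_eq_zero.1 h2.symm).resolve_right hπ'pos.ne'
      have h4 : n * p + i = 0 := by exact_mod_cast h3
      have h5 : (p : ℤ) ∣ i := ⟨-n, by linarith⟩
      have h6 : p ∣ i := by exact_mod_cast h5
      exact absurd (Nat.le_of_dvd (Nat.pos_of_ne_zero hi0) h6) (not_le.2 (Finset.mem_range.1 hir))
    have e : x ^ Q - x = (x ^ Q - c 0 ^ Q) + (c 0 ^ Q - c 0) - (x - c 0) := by ring
    rw [e]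
    exact ((GT_pow_sub_pow v hx0 hc0 hdiff Q).add (h.res.frob _ (hcmem 0) hc0)).sub hdiff
  · obtain ⟨ω, hω, hω'⟩ := h.res.root
    exact ⟨ω, Fx_mono hc.le hω, hω'⟩

omit [CharZero Ω] [IsAlgClosed Ω] in
theorem ramAux_pow_frob {φ : Ω ≃ₐ[K] Ω} {ζ : Ω} (hφ : φ ζ = ζ ^ Q) (i : ℕ) :
    (φ ^ i) ζ = ζ ^ (Q ^ i) := by
  induction i with
  | zero => simp
  | succ i ih =>
    rw [pow_succ', AlgEquiv.mul_apply, ih, map_pow, hφ, ← pow_mul, pow_succ']

omit [CharZero Ω] [IsAlgClosed Ω] in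
theorem ramAux_inv_apply {σ : Ω ≃ₐ[K] Ω} {x y : Ω} (h : σ x = y) : σ⁻¹ y = x := by
  rw [← h, ← AlgEquiv.mul_apply, inv_mul_cancel, AlgEquiv.one_apply]

omit [CharZero Ω] [IsAlgClosed Ω] in
theorem ramAux_pow_fixed {σ : Ω ≃ₐ[K] Ω} {x : Ω} (h : σ x = x) (i : ℕ) : (σ ^ i) x = x := by
  induction i with
  | zero => simp
  | succ i ih => rw [pow_succ, AlgEquiv.mul_apply, h, ih]

theorem ramAux_exists_prim (h : LF v H π q Q) {n : ℕ} (hn : 0 < n) :
    ∃ ζ : Ω, IsPrimitiveRoot ζ (Q ^ n - 1) := by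
  have h1 : 1 < Q ^ n := Nat.one_lt_pow hn.ne' h.one_lt
  have : NeZero ((Q ^ n - 1 : ℕ) : Ω) := ⟨by
    rw [Nat.cast_ne_zero]; omega⟩
  exact HasEnoughRootsOfUnity.exists_primitiveRoot Ω (Q ^ n - 1)

/-- **LOW, abstract form**: the norm of a cyclic extension of prime degree of local fields is not onto -/
theorem exists_not_norm (h : LF v H π q Q) (hp : p.Prime) (hc : Cyc H H' s p) :
    ∃ c ∈ Fx H, c ≠ 0 ∧ ∀ y ∈ Fx H', Nm s p y ≠ c := by
  have hπ0 := h.unif.ne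
  have hπpos := h.unif.pos
  by_cases hA : ∀ y ∈ Fx H', y ≠ 0 → ∃ n : ℤ, v.w y = n * v.w π
  · -- unramified case
    refine ⟨π, h.unif.mem, hπ0, fun y hy hN => ?_⟩
    have hy0 : y ≠ 0 := by
      rintro rfl
      rw [(Nm_eq_zero_iff s hp.pos).2 rfl] at hN
      exact hπ0 hN.symm
    obtain ⟨n, hn⟩ := hA y hy hy0
    have h1 := w_Nm h.pres hc.mem p hy0
    rw [hN, hn] at h1
    exact ramAux_false_of_mul hp hπpos h1
  · push Not at hA
    obtain ⟨y, hy, hy0, hyw⟩ := hA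
    obtain ⟨π', h', hw⟩ := lf_ram h hp hc hy hy0 hyw
    have hπ'0 := h'.unif.ne
    have hπ'mem := h'.unif.mem
    have hπ'not : π' ∉ Fx H := by
      intro hmem
      obtain ⟨n, hn⟩ := h.unif.gen _ hmem hπ'0
      rw [hn] at hw
      exact ramAux_false_of_mul hp hπpos hw.symm
    obtain ⟨ζ, hζ⟩ := ramAux_exists_prim h hp.pos
    have hM0 : 0 < Q ^ p - 1 := by
      have := Nat.one_lt_pow hp.pos.ne' h.one_lt
      omega
    obtain ⟨φ, hφ, hφζ⟩ := exists_frob h' hM0 (h.not_dvd hp.pos) hζ.pow_eq_one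
    obtain ⟨i, -, hi⟩ := exists_pow_of_mem h hp.pos hζ hc.mem
    -- the new generator
    have hφi : (φ ^ i)⁻¹ ∈ H' := H'.inv_mem (H'.pow_mem hφ i)
    set k : Ω ≃ₐ[K] Ω := s⁻¹ * (φ ^ i)⁻¹ * s with hk
    have hkmem : k ∈ H' := (hc.conj _ hφi).2
    set s₀ : Ω ≃ₐ[K] Ω := s * k with hs₀
    have hs₀' : s₀ = (φ ^ i)⁻¹ * s := by rw [hs₀, hk]; group
    have hc₀ : Cyc H H' s₀ p := hc.of_mul hkmem
    have hs₀ζ : s₀ ζ = ζ := by
      rw [hs₀', AlgEquiv.mul_apply, hi]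
      exact ramAux_inv_apply (ramAux_pow_frob hφζ i)
    have hs₀iζ : s₀⁻¹ ζ = ζ := ramAux_inv_apply hs₀ζ
    have hNm : ∀ x ∈ Fx H', Nm s₀ p x = Nm s p x := by
      intro x hx
      refine Nm_congr (fun j => ?_) p
      induction j with
      | zero => simp
      | succ j ih =>
        rw [pow_succ', pow_succ', AlgEquiv.mul_apply s₀, ih, AlgEquiv.mul_apply s (s ^ j), hs₀,
          AlgEquiv.mul_apply, mem_Fx.1 (hc.pow_map_mem hx j) k hkmem]
    have h1 : Cyc H' (stab H' ζ) φ p := cyc_stab h' hp.pos hζ hφ hφζ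
    have h2 : Cyc (stab H ζ) (stab H' ζ) s₀ p :=
      { pos := hp.pos
        le := fun σ hσ => ⟨hc.le hσ.1, hσ.2⟩
        mem := ⟨hc₀.mem, hs₀ζ⟩
        conj := fun σ hσ => ⟨⟨(hc₀.conj σ hσ.1).1, by
            rw [AlgEquiv.mul_apply, AlgEquiv.mul_apply, hs₀iζ, hσ.2, hs₀ζ]⟩,
          ⟨(hc₀.conj σ hσ.1).2, by
            rw [AlgEquiv.mul_apply, AlgEquiv.mul_apply, hs₀ζ, hσ.2, hs₀iζ]⟩⟩
        gen := fun σ hσ => by
          obtain ⟨j, hj, hjm⟩ := hc₀.gen σ hσ.1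
          refine ⟨j, hj, hjm, ?_⟩
          rw [AlgEquiv.mul_apply, hσ.2]
          exact ramAux_inv_apply (ramAux_pow_fixed hs₀ζ j)
        pow := ⟨hc₀.pow, ramAux_pow_fixed hs₀ζ p⟩
        prim := ⟨π', Fx_mono (stab_le H' ζ) hπ'mem, hc₀.injOn_of_not_mem hp hπ'mem hπ'not⟩ }
    have hcomm : ∀ x ∈ Fx (stab H' ζ), s₀ (φ x) = φ (s₀ x) := by
      intro x hx
      have hmem : s₀⁻¹ * φ⁻¹ * s₀ * φ ∈ stab H' ζ := by
        refine ⟨H'.mul_mem (hc₀.conj _ (H'.inv_mem hφ)).2 hφ, ?_⟩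
        rw [AlgEquiv.mul_apply, AlgEquiv.mul_apply, AlgEquiv.mul_apply, hφζ, map_pow, hs₀ζ,
          ramAux_inv_apply hφζ, hs₀iζ]
      have h3 := mem_Fx.1 hx _ hmem
      rw [AlgEquiv.mul_apply, AlgEquiv.mul_apply, AlgEquiv.mul_apply] at h3
      have h4 := congrArg (fun z => φ (s₀ z)) h3
      rw [← AlgEquiv.mul_apply s₀ s₀⁻¹, mul_inv_cancel, AlgEquiv.one_apply,
        ← AlgEquiv.mul_apply φ φ⁻¹, mul_inv_cancel, AlgEquiv.one_apply] at h4
      exact h4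
    have hE : ∀ x ∈ Fx (stab H' ζ), s₀ x = x → φ x = x → x ∈ Fx H := fun x hx hs hf =>
      hc₀.mem_Fx_iff.2 ⟨h1.mem_Fx_iff.2 ⟨hx, hf⟩, hs⟩
    -- `π` is a norm from `L` to `E'`
    have hu : π / π' ^ p ∈ Fx H' := div_mem (Fx_mono hc.le h.unif.mem) (pow_mem hπ'mem p)
    have hu0 : v.EQ (π / π' ^ p) 0 := by
      refine ⟨div_ne_zero hπ0 (pow_ne_zero _ hπ'0), ?_⟩
      rw [RVal.w_div hπ0 (pow_ne_zero _ hπ'0), RVal.w_pow hπ'0, hw, sub_self]
    obtain ⟨y₀, hy₀, -, hy₀N⟩ := exists_norm_unit h' hp.pos hζ hφ hφζ hu hu0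
    have hyN : Nm φ p (π' * y₀) = π := by
      rw [Nm_mul, Nm_of_fixed (mem_Fx.1 hπ'mem φ hφ), hy₀N, mul_div_cancel₀ _ (pow_ne_zero _ hπ'0)]
    obtain ⟨c, hcmem, hc0, hcN⟩ := bicyclic h1 h2 hcomm hE hπ0 (mem_Fx.1 h.unif.mem _ hc₀.mem)
      (mul_mem (Fx_mono (stab_le H' ζ) hπ'mem) hy₀) hyN
    refine ⟨c, hcmem, hc0, fun z hz hzN => ?_⟩
    obtain ⟨t, ht, htN⟩ := hcN z hz (by rw [hNm z hz, hzN])
    have ht0 : t ≠ 0 := by
      rintro rfl
      rw [(Nm_eq_zero_iff φ hp.pos).2 rfl] at htN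
      exact hπ0 htN.symm
    obtain ⟨n, hn⟩ := (lf_stab h hp.pos hζ).unif.gen t ht ht0
    have h5 := w_Nm h.pres (hc.le hφ) p ht0
    rw [htN, hn] at h5
    exact ramAux_false_of_mul hp hπpos h5


section Dich

open Polynomial

omit [CharZero Ω] [IsAlgClosed Ω] in
theorem dichAux_approx (h : LF v H π q Q) (hc : Cyc H H' s p)
    (hA : ∀ y ∈ Fx H', y ≠ 0 → ∃ n : ℤ, v.w y = n * v.w π)
    (hB : ∀ x ∈ Fx H', v.GE x 0 → ∃ c ∈ Fx H, v.GT (x - c) 0) (N : ℕ) :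
    ∀ x ∈ Fx H', v.GE x 0 → ∃ c ∈ Fx H, v.GE (x - c) (N * v.w π) := by
  have hπ0 := h.unif.ne
  have hπpos := h.unif.pos
  induction N with
  | zero =>
    intro x hx hx0
    exact ⟨0, zero_mem _, by simpa using hx0⟩
  | succ N ih =>
    intro x hx hx0
    obtain ⟨c, hcm, hcx⟩ := ih x hx hx0
    have hπN : v.EQ (π ^ N) (N * v.w π) := (RVal.EQ_self hπ0).pow N
    set x₁ : Ω := (x - c) * (π ^ N)⁻¹ with hx₁def
    have hx₁ : x₁ ∈ Fx H' :=
      mul_mem (sub_mem hx (Fx_mono hc.le hcm)) (inv_mem (pow_mem (Fx_mono hc.le h.unif.mem) N))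
    have hx₁0 : v.GE x₁ 0 := (hcx.mul (hπN.inv.GE le_rfl)).mono (by linarith)
    obtain ⟨c₁, hc₁m, hc₁⟩ := hB x₁ hx₁ hx₁0
    have h2 : v.GE (x₁ - c₁) (v.w π) := by
      by_cases hz : x₁ - c₁ = 0
      · exact Or.inl hz
      obtain ⟨n, hn⟩ := hA _ (sub_mem hx₁ (Fx_mono hc.le hc₁m)) hz
      have h3 := hc₁.lt_w hz
      rw [hn] at h3
      have hn1 : 1 ≤ n := by
        by_contra hlt
        have h4 : n ≤ 0 := by omega
        have h5 : (n : ℝ) ≤ 0 := by exact_mod_cast h4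
        have h6 : (n : ℝ) * v.w π ≤ 0 := mul_nonpos_of_nonpos_of_nonneg h5 hπpos.le
        linarith
      refine Or.inr ?_
      rw [hn]
      have h7 : (1 : ℝ) ≤ n := by exact_mod_cast hn1
      nlinarith
    refine ⟨c + π ^ N * c₁, add_mem hcm (mul_mem (pow_mem h.unif.mem N) hc₁m), ?_⟩
    have e : x - (c + π ^ N * c₁) = π ^ N * (x₁ - c₁) := by
      rw [hx₁def]
      field_simp
      ring
    rw [e]
    refine ((hπN.GE le_rfl).mul h2).mono ?_
    push_cast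
    linarith

omit [CharZero Ω] [IsAlgClosed Ω] in
/-- in the unramified case the residue field grows -/
theorem dichAux_exists (h : LF v H π q Q) (hp : p.Prime) (hc : Cyc H H' s p)
    (hA : ∀ y ∈ Fx H', y ≠ 0 → ∃ n : ℤ, v.w y = n * v.w π) :
    ∃ x ∈ Fx H', v.GE x 0 ∧ ∀ c ∈ Fx H, ¬ v.GT (x - c) 0 := by
  have hπpos := h.unif.pos
  by_contra hcon
  push Not at hcon
  have hfix : ∀ x ∈ Fx H', v.GE x 0 → s x = x := by
    intro x hx hx0
    by_contra hne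
    have hne' : s x - x ≠ 0 := sub_ne_zero.2 hne
    obtain ⟨N, hN⟩ := exists_nat_gt (v.w (s x - x) / v.w π)
    obtain ⟨c, hcm, hcx⟩ := dichAux_approx h hc hA hcon N x hx hx0
    have e : s x - x = s (x - c) - (x - c) := by
      rw [map_sub, mem_Fx.1 hcm s hc.mem]
      ring
    have h1 : v.GE (s x - x) (N * v.w π) := by
      rw [e]
      exact (h.pres.GE hc.mem hcx).sub hcx
    have h2 := h1.le_w hne'
    rw [div_lt_iff₀ hπpos] at hN
    linarith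
  obtain ⟨θ, hθ, hinj⟩ := hc.prim
  have hsθ : s θ = θ := by
    rcases (OO v).mem_or_inv_mem θ with h1 | h1
    · exact hfix θ hθ h1
    · have h2 := hfix θ⁻¹ (inv_mem hθ) h1
      rw [map_inv₀] at h2
      exact inv_injective h2
  have h3 := hinj 0 hp.pos 1 hp.one_lt (by simp [hsθ])
  exact zero_ne_one h3

omit [CharZero Ω] [IsAlgClosed Ω] in
/-- the residue of a unit of `E'` is a root of unity of order `Q ^ d - 1` -/
theorem dichAux_pow (h : LF v H π q Q) (hc : Cyc H H' s p) {x : Ω} (hx : x ∈ Fx H')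
    (hx0 : v.EQ x 0) : ∃ d, 0 < d ∧ v.GT (x ^ (Q ^ d - 1) - 1) 0 := by
  classical
  have hchar : CharP (kk v) q := charP_kk v h.res.prime (Or.inr h.res.char)
  have hfact : Fact q.Prime := ⟨h.res.prime⟩
  obtain ⟨f, hf, hQ⟩ := h.res.pow
  have hint : ∀ i, v.GE ((s ^ i) x) 0 := fun i => h.pres.GE (H.pow_mem hc.mem i) (hx0.GE le_rfl)
  let a : ℕ → OO v := fun i => ⟨(s ^ i) x, hint i⟩
  let G : (OO v)[X] := ∏ i ∈ Finset.range p, (X - C (a i))
  have hGmap : G.map (OO v).subtype = ∏ i ∈ Finset.range p, (X - C ((s ^ i) x)) := by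
    simp only [G, Polynomial.map_prod, Polynomial.map_sub, map_X, map_C]
    rfl
  -- the coefficients lie in `E`
  have hcoeff : ∀ j, ((G.coeff j : OO v) : Ω) ∈ Fx H := by
    intro j
    have e : ((G.coeff j : OO v) : Ω) = (G.map (OO v).subtype).coeff j := by
      rw [coeff_map]
      rfl
    rw [e, hGmap]
    set g : Polynomial Ω := ∏ i ∈ Finset.range p, (X - C ((s ^ i) x)) with hg
    have key : ∀ σ : Ω ≃ₐ[K] Ω, g.map (σ : Ω →+* Ω) = g → σ (g.coeff j) = g.coeff j := by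
      intro σ hσ
      conv_rhs => rw [← hσ]
      rw [coeff_map]
      rfl
    rw [hc.mem_Fx_iff]
    constructor
    · rw [mem_Fx]
      intro σ hσ
      apply key
      simp only [hg, Polynomial.map_prod, Polynomial.map_sub, map_X, map_C]
      refine Finset.prod_congr rfl fun i _ => ?_
      rw [show (σ : Ω →+* Ω) ((s ^ i) x) = σ ((s ^ i) x) from rfl,
        mem_Fx.1 (hc.pow_map_mem hx i) σ hσ]
    · apply key
      simp only [hg, Polynomial.map_prod, Polynomial.map_sub, map_X, map_C]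
      have h0 : ∀ i, (s : Ω →+* Ω) ((s ^ i) x) = (s ^ (i + 1)) x := by
        intro i
        rw [pow_succ']
        rfl
      simp only [h0]
      have h1 := Finset.prod_range_succ (fun i => (X - C ((s ^ i) x) : Polynomial Ω)) p
      have h2 := Finset.prod_range_succ' (fun i => (X - C ((s ^ i) x) : Polynomial Ω)) p
      rw [h1, hc.pow_apply hx, pow_zero, AlgEquiv.one_apply] at h2
      exact (mul_right_cancel₀ (X_sub_C_ne_zero x) h2).symm
  set gb : (kk v)[X] := G.map (rs v) with hgb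
  have hGmonic : G.Monic := monic_prod_of_monic _ _ fun i _ => monic_X_sub_C _
  have hgb0 : gb ≠ 0 := (hGmonic.map (rs v)).ne_zero
  have hfrob : ∀ j, gb.coeff j ^ Q = gb.coeff j := by
    intro j
    rw [hgb, coeff_map, ← map_pow, rs_eq_iff]
    exact h.res.frob _ (hcoeff j) (G.coeff j).2
  have hroot : ∀ z, gb.eval z = 0 → gb.eval (z ^ Q) = 0 := by
    intro z hz
    rw [eval_eq_sum_range] at hz ⊢
    have e : ∑ j ∈ Finset.range (gb.natDegree + 1), gb.coeff j * (z ^ Q) ^ j =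
        (∑ j ∈ Finset.range (gb.natDegree + 1), gb.coeff j * z ^ j) ^ Q := by
      rw [hQ, sum_pow_char_pow]
      refine Finset.sum_congr rfl fun j _ => ?_
      rw [mul_pow, ← hQ, hfrob, ← pow_mul, ← pow_mul, mul_comm Q j]
    rw [e, hz, zero_pow]
    rw [hQ]
    exact pow_ne_zero _ h.res.prime.ne_zero
  let xO : OO v := ⟨x, hx0.GE le_rfl⟩
  have ha0 : a 0 = xO := Subtype.ext (by simp [a, xO])
  set xb : kk v := rs v xO with hxb
  have hxb0 : xb ≠ 0 := (rs_ne_zero_iff v xO).2 hx0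
  have hev : gb.eval xb = 0 := by
    rw [hgb]
    simp only [G, Polynomial.map_prod, Polynomial.map_sub, map_X, map_C, eval_prod, eval_sub,
      eval_X, eval_C]
    exact Finset.prod_eq_zero (Finset.mem_range.2 hc.pos) (by rw [ha0, sub_self])
  have hall : ∀ k : ℕ, xb ^ (Q ^ k) ∈ {z | gb.IsRoot z} := by
    intro k
    induction k with
    | zero => simpa using hev
    | succ k ih =>
      rw [pow_succ, pow_mul]
      exact hroot _ ih
  obtain ⟨k₁, k₂, hk, heq⟩ := Set.Finite.exists_lt_map_eq_of_forall_mem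
    (f := fun k : ℕ => xb ^ (Q ^ k)) hall (finite_setOfPred_isRoot hgb0)
  obtain ⟨d, rfl⟩ := Nat.exists_eq_add_of_lt hk
  refine ⟨d + 1, Nat.succ_pos d, ?_⟩
  have h1 : (xb ^ (Q ^ (d + 1)) - xb) ^ (Q ^ k₁) = 0 := by
    have e : Q ^ k₁ = q ^ (f * k₁) := by rw [hQ, pow_mul]
    rw [e, sub_pow_char_pow, ← e, ← pow_mul, ← pow_add, sub_eq_zero]
    rw [heq]
    congr 2
    ring
  have h2 : xb ^ (Q ^ (d + 1)) = xb := sub_eq_zero.1 (pow_eq_zero_iff (by
    exact pow_ne_zero _ (by rw [hQ]; exact pow_ne_zero _ h.res.prime.ne_zero)) |>.1 h1)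
  have hQd : 1 ≤ Q ^ (d + 1) := Nat.one_le_pow _ _ (by
    rw [hQ]; exact pow_pos h.res.prime.pos _)
  have h3 : xb ^ (Q ^ (d + 1) - 1) = 1 := by
    apply mul_right_cancel₀ hxb0
    rw [← pow_succ, Nat.sub_add_cancel hQd, h2, one_mul]
  have h4 : rs v (xO ^ (Q ^ (d + 1) - 1)) = rs v 1 := by rw [map_pow, map_one]; exact h3
  rw [rs_eq_iff] at h4
  exact h4

/-- **dichotomy**: a cyclic extension of prime degree is ramified or it is `E(ζ_{Q^p - 1})` -/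
theorem dichotomy (h : LF v H π q Q) (hp : p.Prime) (hc : Cyc H H' s p) {ζ : Ω}
    (hζ : IsPrimitiveRoot ζ (Q ^ p - 1)) :
    (∃ y ∈ Fx H', y ≠ 0 ∧ ∀ n : ℤ, v.w y ≠ n * v.w π) ∨ H' = stab H ζ := by
  by_cases hA : ∀ y ∈ Fx H', y ≠ 0 → ∃ n : ℤ, v.w y = n * v.w π
  swap
  · left
    push Not at hA
    exact hA
  right
  obtain ⟨x, hx, hx0, hxE⟩ := dichAux_exists h hp hc hA
  have hxu : v.EQ x 0 := by
    have h1 : ¬ v.GT x 0 := by simpa using hxE 0 (zero_mem _)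
    have hxne : x ≠ 0 := fun h0 => h1 (Or.inl h0)
    refine ⟨hxne, le_antisymm ?_ (hx0.le_w hxne)⟩
    by_contra h2
    exact h1 (Or.inr (not_le.1 h2))
  obtain ⟨d, hd, hxd⟩ := dichAux_pow h hc hx hxu
  have hM0 : 0 < Q ^ d - 1 := by
    have := Nat.one_lt_pow hd.ne' h.one_lt
    omega
  have hMq : ¬ q ∣ Q ^ d - 1 := h.not_dvd hd
  obtain ⟨η, hη, hηM, hηx⟩ := exists_rootOfUnity (h.pres.mono hc.le) hM0
    (w_natCast_eq_zero h.res.prime h.res.char hMq) hx hxd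
  have hηE : η ∉ Fx H := fun hmem => hxE η hmem (by
    have := hηx.neg
    rwa [neg_sub] at this)
  have hη0 : η ≠ 0 := by
    rintro rfl
    rw [zero_pow hM0.ne'] at hηM
    exact zero_ne_one hηM
  -- `η` is a power of `ζ`
  obtain ⟨φ, hφ, hφη⟩ := exists_frob h hM0 hMq hηM
  obtain ⟨i, -, hi⟩ := hc.exists_pow hφ
  have hpow : ∀ k : ℕ, ∀ z ∈ Fx H', (φ ^ k) z = (s ^ (i * k)) z := by
    intro k
    induction k with
    | zero => intro z _; simp
    | succ k ih =>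
      intro z hz
      rw [pow_succ, AlgEquiv.mul_apply, hi z hz, ih _ (hc.pow_map_mem hz i), ← AlgEquiv.mul_apply,
        ← pow_add]
      congr 2
  have hφp : (φ ^ p) η = η := by
    rw [hpow p η hη, hc.pow_apply_mod hη, Nat.mul_mod_left, pow_zero, AlgEquiv.one_apply]
  rw [ramAux_pow_frob hφη] at hφp
  have hQp : 1 ≤ Q ^ p := Nat.one_le_pow _ _ (by have := h.one_lt; omega)
  have hηp : η ^ (Q ^ p - 1) = 1 := by
    apply mul_right_cancel₀ hη0
    rw [← pow_succ, Nat.sub_add_cancel hQp, hφp, one_mul]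
  have hN0 : 0 < Q ^ p - 1 := by
    have := Nat.one_lt_pow hp.pos.ne' h.one_lt
    omega
  have : NeZero (Q ^ p - 1) := ⟨hN0.ne'⟩
  obtain ⟨a, -, ha⟩ := hζ.eq_pow_of_pow_eq_one hηp
  -- comparison of the three subgroups
  have h1 : stab H η = H' := by
    refine hc.eq_of_le hp (fun σ hσ => ⟨hc.le hσ, mem_Fx.1 hη σ hσ⟩) (stab_le H η) fun hs => ?_
    exact hηE (hc.mem_Fx_iff.2 ⟨hη, hs.2⟩)
  obtain ⟨φ₂, hφ₂, hφ₂ζ⟩ := exists_frob h hN0 (h.not_dvd hp.pos) hζ.pow_eq_one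
  have hcζ : Cyc H (stab H ζ) φ₂ p := cyc_stab h hp.pos hζ hφ₂ hφ₂ζ
  have h2 : stab H η = stab H ζ := by
    refine hcζ.eq_of_le hp (fun σ hσ => ⟨hσ.1, by rw [← ha, map_pow, hσ.2]⟩) (stab_le H η)
      fun hs => ?_
    have h3 : η ^ Q = η := by
      have h4 := hs.2
      rw [← ha, map_pow, hφ₂ζ, ← pow_mul, mul_comm, pow_mul] at h4
      rw [← ha]
      exact h4
    have hQ1 : 1 ≤ Q := by have := h.one_lt; omega
    have h5 : η ^ (Q - 1) = 1 := by
      apply mul_right_cancel₀ hη0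
      rw [← pow_succ, Nat.sub_add_cancel hQ1, h3, one_mul]
    obtain ⟨ω, hω, hω'⟩ := h.res.root
    have : NeZero (Q - 1) := ⟨by have := h.one_lt; omega⟩
    obtain ⟨b, -, hb⟩ := hω'.eq_pow_of_pow_eq_one h5
    exact hηE (hb ▸ pow_mem hω b)
  rw [← h1, h2]


end Dich

end Fermat.Agent.S55.B
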