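import Fermat.Agent.S55.B.Cpt
import Fermat.Agent.S55.B.Ram

/-!
# S55/B : the arithmetic inputs (L1)-(L5), (L7) of `B7.LocArith` in SUBGROUP language
(keys `S55/B-S2` = `tower`;  `S55/B-S3457` = `Cyc.Nm_eq`, `val_unr`, `eq_stab_of_unr`, `unit_norm`, `unr_of_val`, `unr_unique`)

`H`, `H'`, ... are open subgroups of `Dq q` (`IsOp q H`), the fields are `Fx H`.  "`Fx H' / Fx H` unramified" means `Iq q ⊓ H ≤ H'`.

* `tower`: `LF (wq q) H π q Q` (`IsOp.exists_lf`).  `ζ₂` primitive of order `Q^(p^2) - 1` (`HasEnoughRootsOfUnity.exists_primitiveRoot`),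
  `ζ₁ = ζ₂^((Q^(p^2)-1)/(Q^p-1))` primitive of order `Q^p - 1` (`IsPrimitiveRoot.pow`), `φ ∈ H`, `φ ζ₂ = ζ₂^Q` (`exists_frob`), so `φ ζ₁ = ζ₁^Q`.
  `H₁ = stab H ζ₁`, `H₂ = stab H ζ₂ = stab H₁ ζ₂`.  `cyc_stab` for `(H, p, ζ₁)`, `(H, p^2, ζ₂)` and, with `lf_stab : LF (wq q) H₁ π q (Q^p)`, for
  `(H₁, p, ζ₂)` (`(Q^p)^p = Q^(p^2)`, `φ^p ζ₂ = ζ₂^(Q^p)`).  Inertia fixes `ζ₂` (`apply_root_of_mem_Iq`, `LF.not_dvd`).
* `Cyc.Nm_eq`: `s'` acts on `Fx H'` as `s^a` (`Cyc.exists_pow`), `i ↦ a i mod n` is injective on `range n` (use `prim` of the `s'`-structure), hence a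
  permutation: the two products have the same factors.
* `val_unr`: `Q = q^f`; `exists_stab_le` with `n' = n f`: `ζ` primitive of order `Q^n - 1 = q^(n f) - 1`, `stab H ζ ≤ H'`, so `Fx H' ≤ Fx (stab H ζ)` and
  `lf_stab` says `w c = k w π = w (π^k)`.
* `eq_stab_of_unr`: `dichotomy`; the ramified case contradicts `val_unr` (`IsUnif.gen`).
* `unit_norm`: `H' = stab H ζ`, `exists_norm_unit` for a Frobenius `φ` (`exists_frob`), `Cyc.Nm_eq` (`cyc_stab`).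
* `unr_of_val`: `dichotomy`; `H' = stab H ζ ⊇ Iq q ⊓ H`.      * `unr_unique`: `eq_stab_of_unr` twice.
-/

set_option autoImplicit false

noncomputable section

namespace Fermat.Agent.S55.B

open Fermat.Agent.S05 ExtCitation

variable {q : Nat.Primes}

/-- (L1) -/
theorem base_val {b : Qb} (hb : b ∈ Fx (Dq q)) (hb0 : b ≠ 0) :
    ∃ k : ℤ, (wq q).w b = k * (wq q).w ((q : ℕ) : Qb) := (lf_Dq q).unif.gen b hb hb0

/-- (L2) the unramified tower `E ⊂ E_p ⊂ E_{p²}` -/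
theorem tower {H : Subgroup GQ} (h : IsOp q H) {p : ℕ} (hp : p.Prime) :
    ∃ (H₁ H₂ : Subgroup GQ) (φ : GQ), IsOp q H₁ ∧ IsOp q H₂ ∧ Cyc H H₁ φ p ∧ Cyc H H₂ φ (p ^ 2) ∧
      Cyc H₁ H₂ (φ ^ p) p ∧ Iq q ⊓ H ≤ H₂ := by
  obtain ⟨π, Q, hL⟩ := h.exists_lf
  have hp2 : 0 < p ^ 2 := pow_pos hp.pos 2
  obtain ⟨ζ₂, hζ₂⟩ := ramAux_exists_prim hL hp2
  have hQQ : Q ^ p ^ 2 = (Q ^ p) ^ p := by rw [← pow_mul, sq]
  obtain ⟨e, he⟩ : Q ^ p - 1 ∣ Q ^ p ^ 2 - 1 := by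
    rw [hQQ]
    simpa only [one_pow] using Nat.sub_dvd_pow_sub_pow (Q ^ p) 1 p
  have hζ₁ : IsPrimitiveRoot (ζ₂ ^ e) (Q ^ p - 1) :=
    hζ₂.pow (frobAux_pos hL hp2) (by rw [he, mul_comm])
  obtain ⟨φ, hφ, hφζ₂⟩ := exists_frob hL (frobAux_pos hL hp2) (hL.not_dvd hp2) hζ₂.pow_eq_one
  have hφζ₁ : φ (ζ₂ ^ e) = (ζ₂ ^ e) ^ Q := by
    rw [map_pow, hφζ₂, ← pow_mul, ← pow_mul, mul_comm]
  have hL₁ := lf_stab hL hp.pos hζ₁
  have hst : stab (stab H (ζ₂ ^ e)) ζ₂ = stab H ζ₂ := by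
    ext σ
    constructor
    · rintro ⟨⟨h1, -⟩, h2⟩
      exact ⟨h1, h2⟩
    · rintro ⟨h1, h2⟩
      exact ⟨⟨h1, by rw [map_pow, h2]⟩, h2⟩
  have hφp : φ ^ p ∈ stab H (ζ₂ ^ e) :=
    ⟨H.pow_mem hφ p, by rw [frobAux_pow_apply hφζ₁, frobAux_pow_self hL hp.pos hζ₁]⟩
  have hc₃ : Cyc (stab H (ζ₂ ^ e)) (stab H ζ₂) (φ ^ p) p := by
    have := cyc_stab hL₁ hp.pos (ζ := ζ₂) (by rwa [← hQQ]) hφp (frobAux_pow_apply hφζ₂ p)
    rwa [hst] at this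
  refine ⟨stab H (ζ₂ ^ e), stab H ζ₂, φ, h.stab _, h.stab _, cyc_stab hL hp.pos hζ₁ hφ hφζ₁,
    cyc_stab hL hp2 hζ₂ hφ hφζ₂, hc₃, ?_⟩
  intro σ hσ
  exact ⟨hσ.2, apply_root_of_mem_Iq q hσ.1 (hL.not_dvd hp2) hζ₂.pow_eq_one⟩

theorem locsAux_pow_apply {K Ω : Type*} [Field K] [Field Ω] [Algebra K Ω] {H H' : Subgroup (Ω ≃ₐ[K] Ω)}
    {s s' : Ω ≃ₐ[K] Ω} {n : ℕ} (hc : Cyc H H' s n) {a : ℕ}
    (ha : ∀ x ∈ Fx H', s' x = (s ^ a) x) (i : ℕ) : ∀ x ∈ Fx H', (s' ^ i) x = (s ^ (a * i)) x := by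
  induction i with
  | zero => intro x _; simp
  | succ i ih =>
    intro x hx
    rw [pow_succ_apply', ih _ (by rw [ha x hx]; exact hc.pow_map_mem hx a), ha x hx, ← pow_add_apply,
      Nat.mul_succ]

/-- the norm does not depend on the generator -/
theorem Cyc.Nm_eq {K Ω : Type*} [Field K] [Field Ω] [Algebra K Ω] {H H' : Subgroup (Ω ≃ₐ[K] Ω)}
    {s s' : Ω ≃ₐ[K] Ω} {n : ℕ} (hc : Cyc H H' s n) (hc' : Cyc H H' s' n) {y : Ω} (hy : y ∈ Fx H') :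
    Nm s n y = Nm s' n y := by
  obtain ⟨a, -, ha⟩ := hc.exists_pow hc'.mem
  have hpow := locsAux_pow_apply hc ha
  have hpow' : ∀ i, ∀ x ∈ Fx H', (s' ^ i) x = (s ^ ((a * i) % n)) x := fun i x hx => by
    rw [hpow i x hx, hc.pow_apply_mod hx]
  obtain ⟨θ, hθ, hinj⟩ := hc'.prim
  have hinj' : Set.InjOn (fun i => (a * i) % n) (Finset.range n : Set ℕ) := by
    intro i hi j hj hij
    simp only [Finset.coe_range, Set.mem_Iio] at hi hj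
    refine hinj i hi j hj ?_
    rw [hpow' i θ hθ, hpow' j θ hθ]
    exact congrArg (fun k => (s ^ k) θ) hij
  have himg : (Finset.range n).image (fun i => (a * i) % n) = Finset.range n := by
    refine Finset.eq_of_subset_of_card_le ?_ ?_
    · intro j hj
      obtain ⟨i, -, rfl⟩ := Finset.mem_image.1 hj
      exact Finset.mem_range.2 (Nat.mod_lt _ hc.pos)
    · rw [Finset.card_image_of_injOn hinj']
  unfold Nm
  conv_lhs => rw [← himg]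
  rw [Finset.prod_image hinj']
  exact Finset.prod_congr rfl fun i _ => (hpow' i y hy).symm

/-- (L3) an unramified extension has the same value group -/
theorem val_unr {H H' : Subgroup GQ} (h : IsOp q H) (h' : IsOp q H') (hle : H' ≤ H)
    (hI : Iq q ⊓ H ≤ H') {c : Qb} (hc : c ∈ Fx H') (hc0 : c ≠ 0) :
    ∃ b ∈ Fx H, b ≠ 0 ∧ (wq q).w c = (wq q).w b := by
  obtain ⟨π, Q, hL⟩ := h.exists_lf
  obtain ⟨f, hf, rfl⟩ := hL.res.pow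
  obtain ⟨n, hn, hst⟩ := exists_stab_le h h' hle hI
  obtain ⟨ζ, hζ⟩ := ramAux_exists_prim hL hn
  have hle' : stab H ζ ≤ H' := by
    refine hst (f * n) (Nat.mul_pos hf hn) (Dvd.intro_left f rfl) ζ ?_
    rwa [pow_mul]
  obtain ⟨k, hk⟩ := (lf_stab hL hn hζ).unif.gen c (Fx_mono hle' hc) hc0
  refine ⟨π ^ k, zpow_mem hL.unif.mem k, zpow_ne_zero _ hL.unif.ne, ?_⟩
  rw [hk, RVal.w_zpow hL.unif.ne]

/-- the unramified extension of degree `p` -/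
theorem eq_stab_of_unr {H H' : Subgroup GQ} (h : IsOp q H) (h' : IsOp q H') {π : Qb} {Q : ℕ}
    (hL : LF (wq q) H π q Q) {p : ℕ} (hp : p.Prime) {s : GQ} (hc : Cyc H H' s p)
    (hI : Iq q ⊓ H ≤ H') {ζ : Qb} (hζ : IsPrimitiveRoot ζ (Q ^ p - 1)) : H' = stab H ζ := by
  rcases dichotomy hL hp hc hζ with ⟨y, hy, hy0, hyn⟩ | h2
  · exfalso
    obtain ⟨b, hb, hb0, hyb⟩ := val_unr h h' hc.le hI hy hy0
    obtain ⟨n, hn⟩ := hL.unif.gen b hb hb0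
    exact hyn n (hyb.trans hn)
  · exact h2

/-- (L4) units are norms from the unramified extension of degree `p` -/
theorem unit_norm {H H' : Subgroup GQ} (h : IsOp q H) (h' : IsOp q H') {p : ℕ} (hp : p.Prime)
    {s : GQ} (hc : Cyc H H' s p) (hI : Iq q ⊓ H ≤ H') {b : Qb} (hb : b ∈ Fx H)
    (hb0 : (wq q).EQ b 0) : ∃ c ∈ Fx H', c ≠ 0 ∧ Nm s p c = b := by
  obtain ⟨π, Q, hL⟩ := h.exists_lf
  obtain ⟨ζ, hζ⟩ := ramAux_exists_prim hL hp.pos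
  have hH' := eq_stab_of_unr h h' hL hp hc hI hζ
  obtain ⟨φ, hφ, hφζ⟩ := exists_frob hL (frobAux_pos hL hp.pos) (hL.not_dvd hp.pos) hζ.pow_eq_one
  obtain ⟨y, hy, hy0, hyN⟩ := exists_norm_unit hL hp.pos hζ hφ hφζ hb hb0
  have hcφ : Cyc H H' φ p := by
    rw [hH']
    exact cyc_stab hL hp.pos hζ hφ hφζ
  rw [← hH'] at hy
  exact ⟨y, hy, hy0.1, (hc.Nm_eq hcφ hy).trans hyN⟩

/-- (L5) a cyclic extension of degree `p` with the same value group is unramified -/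
theorem unr_of_val {H H' : Subgroup GQ} (h : IsOp q H) (h' : IsOp q H') {p : ℕ} (hp : p.Prime)
    {s : GQ} (hc : Cyc H H' s p)
    (hv : ∀ c ∈ Fx H', c ≠ 0 → ∃ b ∈ Fx H, b ≠ 0 ∧ (wq q).w c = (wq q).w b) : Iq q ⊓ H ≤ H' := by
  obtain ⟨π, Q, hL⟩ := h.exists_lf
  obtain ⟨ζ, hζ⟩ := ramAux_exists_prim hL hp.pos
  rcases dichotomy hL hp hc hζ with ⟨y, hy, hy0, hyn⟩ | h2
  · exfalso
    obtain ⟨b, hb, hb0, hyb⟩ := hv y hy hy0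
    obtain ⟨n, hn⟩ := hL.unif.gen b hb hb0
    exact hyn n (hyb.trans hn)
  · rw [h2]
    intro σ hσ
    exact ⟨hσ.2, apply_root_of_mem_Iq q hσ.1 (hL.not_dvd hp.pos) hζ.pow_eq_one⟩

/-- (L7) uniqueness of the unramified extension of degree `p` -/
theorem unr_unique {H H₁ H₂ : Subgroup GQ} (h : IsOp q H) (h₁ : IsOp q H₁) (h₂ : IsOp q H₂) {p : ℕ}
    (hp : p.Prime) {s₁ s₂ : GQ} (hc₁ : Cyc H H₁ s₁ p) (hc₂ : Cyc H H₂ s₂ p) (hI₁ : Iq q ⊓ H ≤ H₁)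
    (hI₂ : Iq q ⊓ H ≤ H₂) : H₁ = H₂ := by
  obtain ⟨π, Q, hL⟩ := h.exists_lf
  obtain ⟨ζ, hζ⟩ := ramAux_exists_prim hL hp.pos
  rw [eq_stab_of_unr h h₁ hL hp hc₁ hI₁ hζ, eq_stab_of_unr h h₂ hL hp hc₂ hI₂ hζ]

end Fermat.Agent.S55.B
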