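import Fermat.Agent.S55.B.GalZ
import Fermat.Agent.S55.B.L6b

/-!
# S55/B : local norms.  `hlow` for `C.Main`, the local norm index (L6)
(keys `S55/B-GALZ` = section GalZ;  `S55/B-NLOC` = section Nloc;  `S55/B-HLOW` = section Hlow;  `S55/B-L6a`, `S55/B-L6b`, `S55/B-L6c` = section L6)

`F ⊂ Z` number fields (types), `Z/F` Galois of prime degree `p`, `jZ : Z →ₐ[ℚ] Qb`, `j : F →ₐ[ℚ] Qb`, `hj : jZ ∘ algebraMap = j`.
`H = HH q j`, `H' = HH q jZ ≤ H`.

## GalZ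
`exists_res`: `σ ∘ jZ` and `jZ` are two `F`-embeddings of the normal extension `Z` (make `Qb` an `F`-algebra via `j`): `σ (jZ Z) = jZ Z`
(`AlgHom.fieldRange_of_normal`/`AlgHom.restrictNormal`, or: `σ (jZ z)` is a root of `minpoly F z` mapped by `j`, which splits in `jZ Z`); `g := jZ⁻¹ ∘ σ ∘ jZ`.
`cyc_HH`: `ρ : {σ | σ fixes j F} → Gal(Z/F)`, `ρ (σ τ) = ρ σ ρ τ` (uniqueness, `jZ` injective), `σ ∈ H' ↔ σ ∈ H ∧ ρ σ = 1`.  `#Gal(Z/F) = p`
(`IsGalois.card_aut_eq_finrank`), `ρ s ≠ 1` generates it (`isCyclic_of_prime_card`, `zpowers_eq_top_of_prime_card`, `orderOf_eq_prime`).  Then `IsOp.cyc`.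
`Nm_map`: `algebraMap (norm z) = ∏_{g ∈ Gal} g z` (`Algebra.norm_eq_prod_automorphisms`) `= ∏_{i<p} (ρ s)^i z`.
## Nloc
`Nloc_le`: the set `{b : Fˣ | ∃ y ∈ Fx H', y ≠ 0 ∧ Nm s p y = j b}` is a subgroup (`Nm_mul`, `Nm_inv`); it contains `range normU` (`Nm_map`), `pows F p`
(`Nm_of_fixed`: `Nm s p (j t) = (j t)^p`) and `Ulev v (2e+1) ⊆ lp p v` (`loc_pow`: `j u = t^p = Nm s p t`, `t ∈ Fx H`).  `Subgroup.sup_le`.
`exists_not_locNorm`: `IsOp.exists_lf (isOp_HH q j)`, `exists_not_norm` gives `c ∈ Fx H`; `dense_units` with `r = 2 w p`: `c / j y = t^p = Nm s p t` (`exists_root`); so `j y` is not a norm.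
## Hlow
`exists_moved_of_ram`: `ϖ_w : Zˣ`, `ord w ϖ_w = 1` (`S14.exists_ord_eq`), `ϖ : Fˣ`, `ord v ϖ = 1`; `ord w (upU ϖ) = ram F w` (`S14.ord_upU`), so by `Over.w_eq` (for `Z`):
`w (j ϖ) = ram * w (jZ ϖ_w)`, `ram ≥ 2`: `w (jZ ϖ_w) ∉ ℤ w (j ϖ)`, so `jZ ϖ_w ∉ Fx H` (`Over.isUnif`): some `s ∈ H` moves it, `s ∉ H'`.
`hlow`: `¬ IsUnram Z v` gives `w` above `v` with `ram F w ≠ 1`; `exists_embedding_ext w`.
## L6
(a) `index_le_of_fields`: `(C.Nloc p Z v).index ∈ {1, p}` (`C.K1`, `C.K1_split` with `hlow`); representatives `b_1, ..., b_k` of `Fˣ / Nloc` (`k ≤ p`); `R = {j b_i}`.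
`x ∈ Fx H`, `x ≠ 0`: `dense_units`: `x = j b * t^p`; `b = b_i n`, `n ∈ Nloc`, `j n = Nm s p y` (`Nloc_le`); `x = j b_i * Nm s p (y t)`.
(b) `exists_gen`: finitely many cosets `σ H ≠ H` in `Dq q` (`IsOp.relIndex_ne_zero`), each `V_σ = {x ∈ Fx H | σ x = x}` is a proper `ℚ`-subspace (`exists_moved`), take `θ` outside their union
(as in `exists_prim`).  `exists_kummer_gen`: `Nm s p ζ = ζ^p = 1`, `hc.h90`: `ζ = s α / α`.  `a = α^p ∈ Fx H` (`hc.mem_Fx_iff`).  `F = ℚ(θ, ζ)`, `Dq q ⊓ Fix F = stab (stab (Dq q) θ) ζ = H`.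
`dense_units` (for `j = F.val`): `a / a₀ = t^p`, `t ∈ Fx H` (`exists_root`), `α₀ = α / t`.
(c) `index_le`: `Z = F(α₀)` (`IntermediateField.adjoin F {α₀}` or `extendScalars`, see helper12's `G/DictGlob.lean` `ZZ`): `X^p - a₀` is irreducible over `F` (`X_pow_sub_C_irreducible_of_prime`; a root in `F` would be
`ζ^i α₀`, fixed by `s`), `Z` is its splitting field: Galois of degree `p` (`isGalois_of_isSplittingField_X_pow_sub_C`, `finrank_of_isSplittingField_X_pow_sub_C`).  `HH q jZ = stab H α₀ = H'` (`Cyc.eq_of_le`).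
-/

set_option autoImplicit false
set_option linter.style.haveILetI false
set_option linter.unusedVariables false

noncomputable section

namespace Fermat.Agent.S55.B

open Fermat.Agent.S05 Fermat.Agent.S14 ExtCitation NumberField

variable {F Z : Type*} [Field F] [NumberField F] [Field Z] [NumberField Z] [Algebra F Z]
  {p : ℕ} [Fact p.Prime] {q : Nat.Primes} {j : F →ₐ[ℚ] Qb} {jZ : Z →ₐ[ℚ] Qb}

section Nloc

variable [IsGalois F Z] {v : Pl F}

/-- the subgroup of `Fˣ` of the local norms -/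
def nlocSub (q : Nat.Primes) (j : F →ₐ[ℚ] Qb) (jZ : Z →ₐ[ℚ] Qb) (s : GQ) (p : ℕ) : Subgroup Fˣ where
  carrier := {b | ∃ y ∈ Fx (HH q jZ), y ≠ 0 ∧ Nm s p y = j b}
  one_mem' := ⟨1, one_mem _, one_ne_zero, by simp⟩
  mul_mem' := by
    rintro a b ⟨y, hy, hy0, hya⟩ ⟨y', hy', hy0', hyb⟩
    exact ⟨y * y', mul_mem hy hy', mul_ne_zero hy0 hy0',
      by rw [Nm_mul, hya, hyb, Units.val_mul, map_mul]⟩
  inv_mem' := by
    rintro a ⟨y, hy, hy0, hya⟩
    exact ⟨y⁻¹, inv_mem hy, inv_ne_zero hy0,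
      by rw [Nm_inv, hya, Units.val_inv_eq_inv_val, map_inv₀]⟩

theorem mem_nlocSub {s : GQ} {b : Fˣ} :
    b ∈ nlocSub q j jZ s p ↔ ∃ y ∈ Fx (HH q jZ), y ≠ 0 ∧ Nm s p y = j b := Iff.rfl

theorem Nloc_le_nlocSub (hj : ∀ x : F, jZ (algebraMap F Z x) = j x)
    (hdeg : Module.finrank F Z = p) (hv : Br.Over j (primeLocalPlace q) v) {s : GQ}
    (hs : s ∈ HH q j) (hs' : s ∉ HH q jZ) : C.Nloc p Z v ≤ nlocSub q j jZ s p := by
  refine sup_le ?_ ?_
  · rintro _ ⟨z, rfl⟩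
    exact ⟨jZ z, map_mem_Fx q jZ z, (map_ne_zero jZ).2 z.ne_zero, Nm_map hj hdeg hs hs' z⟩
  · intro a ha
    obtain ⟨t, ht, hta⟩ := (loc_pow hv p a).1 ha
    refine ⟨t, Fx_mono (HH_le hj) ht, ?_, ?_⟩
    · rintro rfl
      rw [zero_pow (Fact.out : p.Prime).ne_zero] at hta
      exact (map_ne_zero j).2 a.ne_zero hta.symm
    · rw [Nm_of_fixed (mem_Fx.1 ht s hs), hta]

theorem Nloc_le (hj : ∀ x : F, jZ (algebraMap F Z x) = j x) (hdeg : Module.finrank F Z = p)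
    (hv : Br.Over j (primeLocalPlace q) v) {s : GQ} (hs : s ∈ HH q j) (hs' : s ∉ HH q jZ) {b : Fˣ}
    (hb : b ∈ C.Nloc p Z v) : ∃ y ∈ Fx (HH q jZ), y ≠ 0 ∧ Nm s p y = j b :=
  Nloc_le_nlocSub hj hdeg hv hs hs' hb

theorem exists_not_locNorm (hj : ∀ x : F, jZ (algebraMap F Z x) = j x)
    (hdeg : Module.finrank F Z = p) {s : GQ} (hs : s ∈ HH q j) (hs' : s ∉ HH q jZ) :
    ∃ b : Fˣ, ∀ y ∈ Fx (HH q jZ), Nm s p y ≠ j b := by
  have hp : p.Prime := Fact.out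
  obtain ⟨π, Q, hL⟩ := (isOp_HH q j).exists_lf
  have hc := cyc_HH hj hdeg hs hs'
  obtain ⟨c, hcH, hc0, hcN⟩ := exists_not_norm hL hp hc
  obtain ⟨y, hy⟩ := dense_units q j hcH hc0 (2 * (wq q).w ((p : ℕ) : Qb))
  have hyH : j y ∈ Fx (HH q j) := map_mem_Fx q j y
  have hy0 : j y ≠ 0 := (map_ne_zero j).2 y.ne_zero
  obtain ⟨t, ht, htp, -⟩ := exists_root (isOp_HH q j).pres hp.pos (div_mem hcH hyH) hy
  refine ⟨y, fun y' hy' hN => hcN (y' * t) (mul_mem hy' (Fx_mono (HH_le hj) ht)) ?_⟩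
  rw [Nm_mul, hN, Nm_of_fixed (mem_Fx.1 ht s hs), htp]
  field_simp

theorem Nloc_ne_top (hj : ∀ x : F, jZ (algebraMap F Z x) = j x) (hdeg : Module.finrank F Z = p)
    (hv : Br.Over j (primeLocalPlace q) v) {s : GQ} (hs : s ∈ HH q j) (hs' : s ∉ HH q jZ) :
    C.Nloc p Z v ≠ ⊤ := by
  intro htop
  obtain ⟨b, hb⟩ := exists_not_locNorm (p := p) hj hdeg hs hs'
  obtain ⟨y, hy, -, hyb⟩ := Nloc_le hj hdeg hv hs hs' (b := b) (htop ▸ Subgroup.mem_top b)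
  exact hb y hy hyb

end Nloc

section Hlow

theorem exists_moved_of_ram (hj : ∀ x : F, jZ (algebraMap F Z x) = j x) {w : Pl Z}
    (hw : Br.Over jZ (primeLocalPlace q) w) (hv : Br.Over j (primeLocalPlace q) (below w))
    (hram : ram F w ≠ 1) : ∃ s ∈ HH q j, s ∉ HH q jZ := by
  by_contra hcon
  have hle : HH q j ≤ HH q jZ := fun s hs => by_contra fun hs' => hcon ⟨s, hs, hs'⟩
  obtain ⟨ϖw, hϖw⟩ := exists_ord_eq {w} (fun _ => 1)
  obtain ⟨ϖ, hϖ⟩ := exists_ord_eq {below (K := F) w} (fun _ => 1)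
  have hϖw := hϖw w (Finset.mem_singleton_self w)
  have hϖ := hϖ _ (Finset.mem_singleton_self _)
  have h1 := Over.w_eq hw hϖw (upU ϖ)
  rw [ord_upU, hϖ, mul_one, coe_upU, hj] at h1
  have hpos := Over.w_pos hw hϖw
  obtain ⟨n, hn⟩ := (Over.isUnif hv hϖ).gen (jZ ϖw) (Fx_mono hle (map_mem_Fx q jZ ϖw))
    ((map_ne_zero jZ).2 ϖw.ne_zero)
  rw [h1] at hn
  have h2 : ((n * (ram F w : ℤ) : ℤ) : ℝ) = 1 := by
    push_cast
    have h3 : ((n : ℝ) * (ram F w : ℝ) - 1) * (wq q).w (jZ ϖw) = 0 := by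
      push_cast at hn
      linarith
    rcases mul_eq_zero.1 h3 with h4 | h4
    · linarith
    · exact absurd h4 hpos.ne'
  have h3 : n * (ram F w : ℤ) = 1 := by exact_mod_cast h2
  have h4 : ((ram F w : ℕ) : ℤ) ∣ 1 := ⟨n, by rw [mul_comm]; exact h3.symm⟩
  have h5 : ram F w ∣ 1 := by exact_mod_cast h4
  exact hram (Nat.dvd_one.1 h5)

/-- **LOW** : the hypothesis `hlow` of `C.Main` (even without the wildness assumption) -/
theorem hlow [IsGalois F Z] (hdeg : Module.finrank F Z = p) (v : Pl F) (h : ¬ IsUnram Z v) :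
    C.Nloc p Z v ≠ ⊤ := by
  have h1 : ∃ w : Pl Z, below w = v ∧ ram F w ≠ 1 := by
    by_contra hcon
    exact h fun w hw => by_contra fun hne => hcon ⟨w, hw, hne⟩
  obtain ⟨w, rfl, hram⟩ := h1
  obtain ⟨q, j, jZ, hj, hw, hv⟩ := exists_embedding_ext (F := F) w
  obtain ⟨s, hs, hs'⟩ := exists_moved_of_ram hj hw hv hram
  exact Nloc_ne_top hj hdeg hv hs hs'

end Hlow

section L6

/-- [S55/B-L6a] the local norm index is `≤ p`, for the local fields attached to number fields -/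
theorem index_le_of_fields [IsGalois F Z] (hp2 : p ≠ 2) {ζ : 𝓞 F} (hζ : IsPrimitiveRoot ζ p)
    (hj : ∀ x : F, jZ (algebraMap F Z x) = j x) (hdeg : Module.finrank F Z = p) {s : GQ}
    (hs : s ∈ HH q j) (hs' : s ∉ HH q jZ) :
    ∃ R : Finset Qb, R.card ≤ p ∧ (∀ r ∈ R, r ∈ Fx (HH q j) ∧ r ≠ 0) ∧
      ∀ x ∈ Fx (HH q j), x ≠ 0 → ∃ r ∈ R, ∃ y ∈ Fx (HH q jZ), y ≠ 0 ∧ x = r * Nm s p y := by
  classical
  have hp : p.Prime := Fact.out
  obtain ⟨v, hv⟩ := exists_place q j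
  have hlow' : ∀ v : Pl F, ¬ Tame p v → ¬ IsUnram Z v → C.Nloc p Z v ≠ ⊤ :=
    fun v _ h => hlow hdeg v h
  have hidx : (C.Nloc p Z v).index ≠ 0 ∧ (C.Nloc p Z v).index ≤ p := by
    by_cases hsp : IsSplit Z v
    · rw [C.K1_split hp2 hζ hdeg hlow' v hsp, Subgroup.index_top]
      exact ⟨one_ne_zero, hp.one_lt.le⟩
    · rw [C.K1 hp2 hζ hdeg hlow' v hsp]
      exact ⟨hp.ne_zero, le_rfl⟩
  have hFI : (C.Nloc p Z v).FiniteIndex := ⟨hidx.1⟩
  have hfin : Finite (Fˣ ⧸ C.Nloc p Z v) := Subgroup.finite_quotient_of_finiteIndex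
  have := Fintype.ofFinite (Fˣ ⧸ C.Nloc p Z v)
  refine ⟨Finset.univ.image fun c : Fˣ ⧸ C.Nloc p Z v => j (c.out : Fˣ), ?_, ?_, ?_⟩
  · refine Finset.card_image_le.trans ?_
    rw [Finset.card_univ, ← Nat.card_eq_fintype_card]
    exact hidx.2
  · intro r hr
    obtain ⟨c, -, rfl⟩ := Finset.mem_image.1 hr
    exact ⟨map_mem_Fx q j _, (map_ne_zero j).2 (Units.ne_zero _)⟩
  · intro x hx hx0
    obtain ⟨b, hb⟩ := dense_units q j hx hx0 (2 * (wq q).w ((p : ℕ) : Qb))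
    have hbH : j b ∈ Fx (HH q j) := map_mem_Fx q j b
    have hb0 : j b ≠ 0 := (map_ne_zero j).2 b.ne_zero
    obtain ⟨t, ht, htp, -⟩ := exists_root (isOp_HH q j).pres hp.pos (div_mem hx hbH) hb
    have ht0 : t ≠ 0 := by
      rintro rfl
      rw [zero_pow hp.ne_zero] at htp
      exact div_ne_zero hx0 hb0 htp.symm
    obtain ⟨h, hh⟩ := QuotientGroup.mk_out_eq_mul (C.Nloc p Z v) b
    obtain ⟨y, hy, hy0, hyN⟩ := Nloc_le hj hdeg hv hs hs' (inv_mem h.2)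
    refine ⟨_, Finset.mem_image.2 ⟨(b : Fˣ ⧸ C.Nloc p Z v), Finset.mem_univ _, rfl⟩, y * t,
      mul_mem hy (Fx_mono (HH_le hj) ht), mul_ne_zero hy0 ht0, ?_⟩
    rw [Nm_mul, hyN, Nm_of_fixed (mem_Fx.1 ht s hs), htp, hh, Units.val_mul, map_mul,
      Units.val_inv_eq_inv_val, map_inv₀]
    have hh0 : j ((h : Fˣ) : F) ≠ 0 := (map_ne_zero j).2 (Units.ne_zero _)
    field_simp

open Polynomial in
/-- [S55/B-L6c] **(L6)** in subgroup language -/
theorem index_le (hp2 : p ≠ 2) {H H' : Subgroup GQ} (h : IsOp q H) (h' : IsOp q H') {s : GQ}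
    (hc : Cyc H H' s p) {ζ : Qb} (hζ : IsPrimitiveRoot ζ p) (hζH : ζ ∈ Fx H) :
    ∃ R : Finset Qb, R.card ≤ p ∧ (∀ r ∈ R, r ∈ Fx H ∧ r ≠ 0) ∧
      ∀ x ∈ Fx H, x ≠ 0 → ∃ r ∈ R, ∃ y ∈ Fx H', y ≠ 0 ∧ x = r * Nm s p y := by
  have hp : p.Prime := Fact.out
  obtain ⟨F, α₀, hFfin, hζF, haF, hα0, hsα, hαH', hDF⟩ := exists_kummer_gen h h' hc hζ hζH
  haveI : NumberField F := { to_charZero := inferInstance, to_finiteDimensional := hFfin }
  have hFle : ∀ x ∈ F, x ∈ Fx H := by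
    intro x hx
    refine mem_Fx.2 fun σ hσ => ?_
    rw [← hDF] at hσ
    exact (IntermediateField.mem_fixingSubgroup_iff F σ).1 hσ.2 x hx
  have hζ1 : ζ ≠ 1 := hζ.ne_one hp.one_lt
  have hsα' : s α₀ ≠ α₀ := by
    rw [hsα]
    intro h1
    exact hζ1 (mul_right_cancel₀ hα0 (h1.trans (one_mul _).symm))
  -- the base field data
  let ζF : F := ⟨ζ, hζF⟩
  have hζF' : IsPrimitiveRoot ζF p :=
    IsPrimitiveRoot.of_map_of_injective (f := algebraMap F Qb)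
      (show IsPrimitiveRoot (algebraMap F Qb ζF) p from hζ) (algebraMap F Qb).injective
  let a₀ : F := ⟨α₀ ^ p, haF⟩
  have hirr : Irreducible (X ^ p - C a₀ : Polynomial F) := by
    apply X_pow_sub_C_irreducible_of_prime hp
    intro b hb
    have hb' : (b : Qb) ^ p = α₀ ^ p := congrArg (fun x : F => (x : Qb)) hb
    have hb0 : (b : Qb) ≠ 0 := by
      intro h0
      rw [h0, zero_pow hp.ne_zero] at hb'
      exact pow_ne_zero p hα0 hb'.symm
    have h1 : (α₀ / b) ^ p = 1 := by rw [div_pow, hb', div_self (pow_ne_zero p hα0)]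
    obtain ⟨i, -, hi⟩ := hζ.eq_pow_of_pow_eq_one h1
    have h2 : α₀ = ζ ^ i * b := by rw [hi]; field_simp
    apply hsα'
    have h3 : α₀ ∈ Fx H := by
      rw [h2]; exact mul_mem (pow_mem hζH i) (hFle _ b.2)
    exact mem_Fx.1 h3 s hc.mem
  haveI : Fact (Irreducible (X ^ p - C a₀ : Polynomial F)) := ⟨hirr⟩
  let Z := AdjoinRoot (X ^ p - C a₀ : Polynomial F)
  have hprim : (primitiveRoots p F).Nonempty := ⟨ζF, (mem_primitiveRoots hp.pos).2 hζF'⟩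
  haveI hspl : IsSplittingField F Z (X ^ p - C a₀) := isSplittingField_AdjoinRoot_X_pow_sub_C hprim hirr
  haveI hgal : IsGalois F Z := isGalois_of_isSplittingField_X_pow_sub_C hprim hirr Z
  have hdeg : Module.finrank F Z = p := finrank_of_isSplittingField_X_pow_sub_C hprim hirr Z
  haveI : FiniteDimensional F Z := Polynomial.IsSplittingField.finiteDimensional Z (X ^ p - C a₀)
  haveI : CharZero Z := charZero_of_injective_algebraMap (algebraMap F Z).injective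
  haveI : FiniteDimensional ℚ Z := FiniteDimensional.trans ℚ F Z
  haveI : NumberField Z := { to_charZero := inferInstance, to_finiteDimensional := inferInstance }
  -- the embeddings
  have hroot : Polynomial.aeval α₀ (X ^ p - C a₀ : Polynomial F) = 0 := by
    simp only [map_sub, map_pow, aeval_X, aeval_C]
    exact sub_self _
  let jZF : Z →ₐ[F] Qb := AdjoinRoot.liftAlgHom (X ^ p - C a₀ : Polynomial F) (Algebra.ofId F Qb) α₀
    (by simpa [Polynomial.aeval_def] using hroot)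
  let jZ : Z →ₐ[ℚ] Qb := (jZF : Z →+* Qb).toRatAlgHom
  let j : F →ₐ[ℚ] Qb := (algebraMap F Qb).toRatAlgHom
  have hj : ∀ x : F, jZ (algebraMap F Z x) = j x := fun x => jZF.commutes x
  have hjroot : jZ (AdjoinRoot.root _) = α₀ := by
    change jZF (AdjoinRoot.root _) = α₀
    exact AdjoinRoot.liftAlgHom_root _ _ _ _
  have hHj : HH q j = H := by
    rw [← hDF]
    ext σ
    rw [mem_HH, Subgroup.mem_inf, IntermediateField.mem_fixingSubgroup_iff]
    constructor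
    · rintro ⟨h1, h2⟩
      exact ⟨h1, fun x hx => h2 ⟨x, hx⟩⟩
    · rintro ⟨h1, h2⟩
      exact ⟨h1, fun x => h2 x x.2⟩
  have hstab : HH q jZ = stab H α₀ := by
    apply le_antisymm
    · intro σ hσ
      refine ⟨hHj ▸ HH_le hj hσ, ?_⟩
      have := ((mem_HH q jZ).1 hσ).2 (AdjoinRoot.root _)
      rwa [hjroot] at this
    · rintro σ ⟨hσH, hσα⟩
      rw [mem_HH]
      refine ⟨h.le hσH, fun z => ?_⟩
      induction z using AdjoinRoot.induction_on with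
      | ih f =>
        have e : jZ (AdjoinRoot.mk _ f) = Polynomial.eval₂ (algebraMap F Qb) α₀ f := by
          change jZF (AdjoinRoot.mk _ f) = _
          exact AdjoinRoot.liftAlgHom_mk _ _ _ _ _
        rw [e, Polynomial.eval₂_eq_sum_range, map_sum]
        refine Finset.sum_congr rfl fun k _ => ?_
        rw [map_mul, map_pow, hσα]
        congr 1
        exact mem_Fx.1 (hFle _ (f.coeff k).2) σ hσH
  have hHjZ : HH q jZ = H' := by
    rw [hstab]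
    exact hc.eq_of_le hp (fun σ hσ => ⟨hc.le hσ, mem_Fx.1 hαH' σ hσ⟩) (stab_le _ _)
      (fun hmem => hsα' hmem.2)
  have hs : s ∈ HH q j := hHj ▸ hc.mem
  have hs' : s ∉ HH q jZ := by
    rw [hstab]; exact fun hmem => hsα' hmem.2
  have key := index_le_of_fields (q := q) (j := j) (jZ := jZ) hp2
    (ζ := hζF'.toInteger) hζF'.toInteger_isPrimitiveRoot hj hdeg hs hs'
  rwa [hHj, hHjZ] at key

end L6

end Fermat.Agent.S55.B
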