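import Fermat.Agent.S55.B.Defs

/-!
# S55/B : the valuation ring and the residue field of an `RVal`      (key `S55/B-RES`)

`OO v : ValuationSubring Ω`, `kk v` its residue field, `rs v : OO v →+* kk v`.
Used for all arguments "modulo the maximal ideal" (Frobenius, Vandermonde determinants, counting roots).
-/

set_option autoImplicit false

namespace Fermat.Agent.S55.B

open Fermat.Agent.S05

variable {Ω : Type*} [Field Ω]

/-- the valuation ring `{x | w x ≥ 0}` -/
def OO (v : RVal Ω) : ValuationSubring Ω where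
  carrier := {x | v.GE x 0}
  mul_mem' := fun ha hb => by simpa using RVal.GE.mul ha hb
  one_mem' := RVal.EQ_one.GE le_rfl
  add_mem' := fun ha hb => RVal.GE.add ha hb
  zero_mem' := RVal.GE_zero 0
  neg_mem' := fun ha => RVal.GE.neg ha
  mem_or_inv_mem' := fun x => by
    by_cases hx : x = 0
    · exact Or.inl (Or.inl hx)
    rcases le_total 0 (v.w x) with h | h
    · exact Or.inl (Or.inr h)
    · refine Or.inr (Or.inr ?_)
      rw [RVal.w_inv hx]
      linarith

variable (v : RVal Ω)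

theorem mem_OO {x : Ω} : x ∈ OO v ↔ v.GE x 0 := Iff.rfl

/-- the residue field -/
abbrev kk : Type _ := IsLocalRing.ResidueField (OO v)

/-- the residue map -/
abbrev rs : OO v →+* kk v := IsLocalRing.residue (OO v)

theorem rs_surjective : Function.Surjective (rs v) := IsLocalRing.residue_surjective

theorem isUnit_OO_iff (x : OO v) : IsUnit x ↔ v.EQ (x : Ω) 0 := by
  constructor
  · rintro ⟨u, rfl⟩
    have h1 : ((u : OO v) : Ω) * ((u⁻¹ : (OO v)ˣ) : OO v) = 1 := by
      exact_mod_cast congrArg (Subtype.val) u.mul_inv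
    have hx : ((u : OO v) : Ω) ≠ 0 := left_ne_zero_of_mul_eq_one h1
    have hy : (((u⁻¹ : (OO v)ˣ) : OO v) : Ω) ≠ 0 := right_ne_zero_of_mul_eq_one h1
    have h2 := v.map_mul _ _ hx hy
    rw [h1, RVal.w_one] at h2
    have h3 := RVal.GE.le_w (u : OO v).2 hx
    have h4 := RVal.GE.le_w ((u⁻¹ : (OO v)ˣ) : OO v).2 hy
    exact ⟨hx, by linarith⟩
  · intro h
    refine IsUnit.of_mul_eq_one (⟨(x : Ω)⁻¹, (h.inv.GE (by simp) : v.GE (x : Ω)⁻¹ 0)⟩ : OO v) ?_
    apply Subtype.ext
    exact mul_inv_cancel₀ h.1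

theorem GT_iff_not_EQ {x : Ω} (hx : v.GE x 0) : v.GT x 0 ↔ ¬ v.EQ x 0 := by
  constructor
  · rintro h ⟨h0, h1⟩
    have := h.lt_w h0
    linarith
  · intro h
    by_cases h0 : x = 0
    · exact Or.inl h0
    · exact Or.inr (lt_of_le_of_ne (hx.le_w h0) fun h1 => h ⟨h0, h1.symm⟩)

theorem rs_eq_zero_iff (x : OO v) : rs v x = 0 ↔ v.GT (x : Ω) 0 := by
  rw [IsLocalRing.residue_eq_zero_iff, IsLocalRing.mem_maximalIdeal, mem_nonunits_iff,
    isUnit_OO_iff, GT_iff_not_EQ v x.2]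

theorem rs_eq_iff (x y : OO v) : rs v x = rs v y ↔ v.GT ((x : Ω) - y) 0 := by
  rw [← sub_eq_zero, ← map_sub, rs_eq_zero_iff]
  rfl

theorem rs_ne_zero_iff (x : OO v) : rs v x ≠ 0 ↔ v.EQ (x : Ω) 0 := by
  rw [Ne, rs_eq_zero_iff, GT_iff_not_EQ v x.2, not_not]

theorem charP_kk {q : ℕ} (hq : q.Prime) (h : v.GT (q : Ω) 0) : CharP (kk v) q := by
  rw [CharP.charP_iff_prime_eq_zero hq, ← map_natCast (rs v), rs_eq_zero_iff]
  exact_mod_cast h

/-- sums -/
theorem GE_sum {ι : Type*} (s : Finset ι) (f : ι → Ω) (a : ℝ) (hf : ∀ i ∈ s, v.GE (f i) a) :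
    v.GE (∑ i ∈ s, f i) a := by
  classical
  induction s using Finset.induction_on with
  | empty => simpa using RVal.GE_zero (v := v) a
  | insert i s hi ih =>
    rw [Finset.sum_insert hi]
    exact (hf i (Finset.mem_insert_self i s)).add
      (ih fun j hj => hf j (Finset.mem_insert_of_mem hj))

theorem GT_sum {ι : Type*} (s : Finset ι) (f : ι → Ω) (a : ℝ) (hf : ∀ i ∈ s, v.GT (f i) a) :
    v.GT (∑ i ∈ s, f i) a := by
  classical
  induction s using Finset.induction_on with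
  | empty => simpa using RVal.GT_zero (v := v) a
  | insert i s hi ih =>
    rw [Finset.sum_insert hi]
    exact (hf i (Finset.mem_insert_self i s)).add
      (ih fun j hj => hf j (Finset.mem_insert_of_mem hj))

theorem GE_prod {ι : Type*} (s : Finset ι) (f : ι → Ω) (hf : ∀ i ∈ s, v.GE (f i) 0) :
    v.GE (∏ i ∈ s, f i) 0 :=
  (prod_mem (S := OO v) hf : ∏ i ∈ s, f i ∈ OO v)

theorem EQ_prod {ι : Type*} (s : Finset ι) (f : ι → Ω) (hf : ∀ i ∈ s, v.EQ (f i) 0) :
    v.EQ (∏ i ∈ s, f i) 0 := by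
  classical
  induction s using Finset.induction_on with
  | empty => simpa using RVal.EQ_one (v := v)
  | insert i s hi ih =>
    rw [Finset.prod_insert hi]
    simpa using (hf i (Finset.mem_insert_self i s)).mul
      (ih fun j hj => hf j (Finset.mem_insert_of_mem hj))

/-- a product of integral elements lies in the maximal ideal iff one of the factors does -/
theorem exists_GT_of_prod {ι : Type*} (s : Finset ι) (f : ι → Ω) (hf : ∀ i ∈ s, v.GE (f i) 0)
    (h : v.GT (∏ i ∈ s, f i) 0) : ∃ i ∈ s, v.GT (f i) 0 := by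
  by_contra hcon
  push Not at hcon
  have h1 : v.EQ (∏ i ∈ s, f i) 0 := EQ_prod v s f fun i hi => by
    have := hcon i hi
    rwa [GT_iff_not_EQ v (hf i hi), not_not] at this
  exact (GT_iff_not_EQ v (GE_prod v s f hf)).1 h h1

/-- if the valuations of the non zero terms are pairwise distinct, the sum has the minimal valuation:
in particular every term has valuation `≥` that of the sum -/
theorem GE_of_sum_of_distinct {ι : Type*} (s : Finset ι) (f : ι → Ω)
    (hd : ∀ i ∈ s, ∀ j ∈ s, f i ≠ 0 → f j ≠ 0 → v.w (f i) = v.w (f j) → i = j) {a : ℝ}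
    (h : v.GE (∑ i ∈ s, f i) a) : ∀ i ∈ s, v.GE (f i) a := by
  classical
  by_contra hcon
  push Not at hcon
  obtain ⟨i₀, hi₀, hbad⟩ := hcon
  have h0 : f i₀ ≠ 0 := fun h0 => hbad (Or.inl h0)
  have hlt : v.w (f i₀) < a := by
    by_contra hge
    exact hbad (Or.inr (not_lt.1 hge))
  have hne : (s.filter fun i => f i ≠ 0).Nonempty := ⟨i₀, Finset.mem_filter.2 ⟨hi₀, h0⟩⟩
  obtain ⟨i₁, hi₁, hmin⟩ := Finset.exists_min_image _ (fun i => v.w (f i)) hne
  rw [Finset.mem_filter] at hi₁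
  have hle : v.w (f i₁) ≤ v.w (f i₀) := hmin i₀ (Finset.mem_filter.2 ⟨hi₀, h0⟩)
  have hrest : v.GT (∑ j ∈ s.erase i₁, f j) (v.w (f i₁)) := by
    refine GT_sum v _ _ _ fun j hj => ?_
    rw [Finset.mem_erase] at hj
    by_cases hj0 : f j = 0
    · exact Or.inl hj0
    · refine Or.inr (lt_of_le_of_ne (hmin j (Finset.mem_filter.2 ⟨hj.2, hj0⟩)) fun he => ?_)
      exact hj.1 (hd i₁ hi₁.1 j hj.2 hi₁.2 hj0 he).symm
  have hsum := (RVal.EQ_self (v := v) hi₁.2).add_GT hrest
  rw [Finset.add_sum_erase s f hi₁.1] at hsum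
  have := h.le_w hsum.1
  rw [hsum.2] at this
  linarith

/-- "freshman's dream": `x ↦ x ^ Q` is additive modulo the maximal ideal -/
theorem GT_sum_pow {q f : ℕ} (hq : q.Prime) (h : v.GT (q : Ω) 0) {ι : Type*} (s : Finset ι)
    (g : ι → Ω) (hg : ∀ i ∈ s, v.GE (g i) 0) :
    v.GT ((∑ i ∈ s, g i) ^ (q ^ f) - ∑ i ∈ s, g i ^ (q ^ f)) 0 := by
  classical
  have := charP_kk v hq h
  have : Fact q.Prime := ⟨hq⟩
  let G : ι → OO v := fun i => if hi : v.GE (g i) 0 then ⟨g i, hi⟩ else 0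
  have hG : ∀ i ∈ s, ((G i : OO v) : Ω) = g i := fun i hi => by
    simp only [G, dif_pos (hg i hi)]
  have h1 : rs v ((∑ i ∈ s, G i) ^ (q ^ f)) = rs v (∑ i ∈ s, G i ^ (q ^ f)) := by
    rw [map_pow, map_sum, map_sum, sum_pow_char_pow]
    exact Finset.sum_congr rfl fun i _ => (map_pow _ _ _).symm
  rw [rs_eq_iff] at h1
  have e1 : (((∑ i ∈ s, G i) ^ (q ^ f) : OO v) : Ω) = (∑ i ∈ s, g i) ^ (q ^ f) := by
    push_cast
    rw [Finset.sum_congr rfl hG]
  have e2 : ((∑ i ∈ s, G i ^ (q ^ f) : OO v) : Ω) = ∑ i ∈ s, g i ^ (q ^ f) := by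
    push_cast
    exact Finset.sum_congr rfl fun i hi => by rw [hG i hi]
  rwa [e1, e2] at h1

/-- congruences can be multiplied / raised to powers -/
theorem GT_pow_sub_pow {x y : Ω} (hx : v.GE x 0) (hy : v.GE y 0) {a : ℝ} (h : v.GT (x - y) a) (n : ℕ) :
    v.GT (x ^ n - y ^ n) a := by
  induction n with
  | zero => simpa using RVal.GT_zero (v := v) a
  | succ n ih =>
    have e : x ^ (n + 1) - y ^ (n + 1) = x ^ n * (x - y) + (x ^ n - y ^ n) * y := by ring
    rw [e]
    have h1 : v.GE (x ^ n) 0 := by simpa using hx.pow n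
    refine RVal.GT.add ?_ ?_
    · simpa using h1.mul_GT h
    · simpa using ih.mul_GE hy

theorem GE_pow_sub_pow {x y : Ω} (hx : v.GE x 0) (hy : v.GE y 0) {a : ℝ} (h : v.GE (x - y) a) (n : ℕ) :
    v.GE (x ^ n - y ^ n) a := by
  induction n with
  | zero => simpa using RVal.GE_zero (v := v) a
  | succ n ih =>
    have e : x ^ (n + 1) - y ^ (n + 1) = x ^ n * (x - y) + (x ^ n - y ^ n) * y := by ring
    rw [e]
    have h1 : v.GE (x ^ n) 0 := by simpa using hx.pow n
    refine RVal.GE.add ?_ ?_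
    · simpa using h1.mul h
    · simpa using ih.mul hy

theorem GT_mul_sub_mul {x y x' y' : Ω} (hx : v.GE x 0) (hy' : v.GE y' 0) {a : ℝ}
    (h : v.GT (x - x') a) (h' : v.GT (y - y') a) : v.GT (x * y - x' * y') a := by
  have e : x * y - x' * y' = x * (y - y') + (x - x') * y' := by ring
  rw [e]
  refine RVal.GT.add ?_ ?_
  · simpa using hx.mul_GT h'
  · simpa using h.mul_GE hy'

end Fermat.Agent.S55.B
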