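import Fermat.Agent.S55.B.Basic
import Fermat.Agent.S55.B.Res

/-!
# S55/B : Hensel's lemma for `X ^ n = u` by Galois theory, rigidity of roots of unity    (key `S55/B-ROOT`)

## `eq_one_of_pow_eq_one`
`0 = η^n - 1 = (η - 1) (1 + η + ... + η^(n-1))` (`mul_geom_sum` / `geom_sum_mul`).  `w η = 0` (as `n w η = 0`),
`η^i - 1 = (η - 1)(...)` has valuation `≥ w (η - 1) > w n`, so `∑_{i<n} η^i = n + ∑ (η^i - 1)` has valuation
`w n` (`RVal.EQ.add_GT`), in particular it is non zero; hence `η = 1`.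

## `exists_root`
`f = X^n - C u` splits over `Ω`.  If `u = 1` take `b = 1`.  Otherwise
`f'(1)/f(1) = n/(1-u) = ∑_{b ∈ roots} 1/(1 - b)`
(`Polynomial.eval_derivative_div_eval_of_ne_zero_of_splits`), the left side has valuation
`w n - w (1-u) < - w n`, so some root `b` has `w (1/(1-b)) < - w n` (else `GE_sum`-type contradiction for multisets),
i.e. `w (b - 1) > w n ≥ 0`.  UNIQUENESS: if `b'` is another such root then `w b = 0`, `η = b'/b` satisfies `η^n = 1`,
`w (η - 1) = w (b' - b) > w n`, so `η = 1`.  For `σ ∈ H`: `σ b` is a root (`σ u = u`) and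
`w (σ b - 1) = w (σ (b - 1)) = w (b - 1)`; hence `σ b = b`.
-/

set_option autoImplicit false

namespace Fermat.Agent.S55.B

open Fermat.Agent.S05

variable {K Ω : Type*} [Field K] [Field Ω] [Algebra K Ω] [CharZero Ω]
variable {H : Subgroup (Ω ≃ₐ[K] Ω)} {v : RVal Ω}

theorem w_eq_zero_of_pow_eq_one {n : ℕ} (hn : 0 < n) {η : Ω} (h1 : η ^ n = 1) : v.EQ η 0 := by
  have h0 : η ≠ 0 := by
    rintro rfl
    rw [zero_pow hn.ne'] at h1
    exact zero_ne_one h1
  refine ⟨h0, ?_⟩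
  have h2 := RVal.w_pow (v := v) h0 n
  rw [h1, RVal.w_one] at h2
  have hn' : (n : ℝ) ≠ 0 := by exact_mod_cast hn.ne'
  exact (mul_eq_zero.1 h2.symm).resolve_left hn'

/-- a root of unity which is very close to `1` is `1` -/
theorem eq_one_of_pow_eq_one {n : ℕ} (hn : 0 < n) {η : Ω} (h1 : η ^ n = 1)
    (h2 : v.GT (η - 1) (v.w (n : Ω))) : η = 1 := by
  by_contra hne
  have hη := w_eq_zero_of_pow_eq_one (v := v) hn h1
  have h3 := geom_sum_mul η n
  rw [h1, sub_self] at h3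
  have h4 : ∑ i ∈ Finset.range n, η ^ i = 0 :=
    (mul_eq_zero.1 h3).resolve_right (sub_ne_zero.2 hne)
  have h5 : ∑ i ∈ Finset.range n, η ^ i = (n : Ω) + ∑ i ∈ Finset.range n, (η ^ i - 1) := by
    rw [Finset.sum_sub_distrib]
    simp
  have hn0 : (n : Ω) ≠ 0 := by exact_mod_cast hn.ne'
  have h6 : v.GT (∑ i ∈ Finset.range n, (η ^ i - 1)) (v.w (n : Ω)) := by
    refine GT_sum v _ _ _ fun i _ => ?_
    have := GT_pow_sub_pow v (hη.GE le_rfl) (RVal.EQ_one.GE le_rfl) h2 i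
    rwa [one_pow] at this
  have h7 := (RVal.EQ_self (v := v) hn0).add_GT h6
  rw [← h5, h4] at h7
  exact h7.1 rfl

/-- roots of unity of order prime to the residue characteristic are distinct modulo the maximal ideal -/
theorem eq_of_pow_eq_one {n : ℕ} (hn : 0 < n) (hnv : v.w (n : Ω) = 0) {η η' : Ω} (h1 : η ^ n = 1)
    (h1' : η' ^ n = 1) (h2 : v.GT (η - η') 0) : η = η' := by
  have hη' := w_eq_zero_of_pow_eq_one (v := v) hn h1'
  have h3 : (η * η'⁻¹) ^ n = 1 := by rw [mul_pow, inv_pow, h1, h1', inv_one, one_mul]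
  have h4 : v.GT (η * η'⁻¹ - 1) (v.w (n : Ω)) := by
    have e : η * η'⁻¹ - 1 = (η - η') * η'⁻¹ := by
      rw [sub_mul, mul_inv_cancel₀ hη'.1]
    rw [e, hnv]
    simpa using h2.mul_GE (hη'.inv.GE (by simp))
  have h5 := eq_one_of_pow_eq_one hn h3 h4
  rwa [mul_inv_eq_one₀ hη'.1] at h5

/-- `w n = 0` if `n` is prime to the residue characteristic -/
theorem w_natCast_eq_zero {q : ℕ} (hq : q.Prime) (h : 0 < v.w (q : Ω)) {n : ℕ} (hn : ¬ q ∣ n) :
    v.w (n : Ω) = 0 := by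
  have hn0 : n ≠ 0 := by
    rintro rfl
    exact hn (dvd_zero q)
  have hn0' : (n : Ω) ≠ 0 := by exact_mod_cast hn0
  have hge := (RVal.GE_natCast (v := v) n).le_w hn0'
  by_contra hne
  have hgt : v.GT (n : Ω) 0 := Or.inr (lt_of_le_of_ne hge (Ne.symm hne))
  have hcop : IsCoprime (n : ℤ) (q : ℤ) :=
    Nat.isCoprime_iff_coprime.2 ((Nat.Prime.coprime_iff_not_dvd hq).2 hn).symm
  obtain ⟨a, b, hab⟩ := hcop
  have h1 : (a : Ω) * (n : Ω) + (b : Ω) * (q : Ω) = 1 := by exact_mod_cast congrArg (Int.cast : ℤ → Ω) hab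
  have h2 : v.GT ((a : Ω) * (n : Ω) + (b : Ω) * (q : Ω)) 0 := by
    refine RVal.GT.add ?_ ?_
    · simpa using (RVal.GE_intCast (v := v) a).mul_GT hgt
    · simpa using (RVal.GE_intCast (v := v) b).mul_GT (Or.inr h : v.GT (q : Ω) 0)
  rw [h1] at h2
  have := h2.lt_w one_ne_zero
  rw [RVal.w_one] at this
  exact lt_irrefl _ this

omit [CharZero Ω] in
theorem GE_multiset_sum (m : Multiset Ω) (a : ℝ) (h : ∀ x ∈ m, v.GE x a) : v.GE m.sum a := by
  induction m using Multiset.induction_on with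
  | empty => simpa using RVal.GE_zero (v := v) a
  | cons x m ih =>
    rw [Multiset.sum_cons]
    exact (h x (Multiset.mem_cons_self x m)).add (ih fun y hy => h y (Multiset.mem_cons_of_mem hy))

theorem w_natCast_nonneg {n : ℕ} (hn : 0 < n) : 0 ≤ v.w (n : Ω) :=
  (RVal.GE_natCast (v := v) n).le_w (by exact_mod_cast hn.ne')

/-- uniqueness of the root close to `1` -/
theorem root_unique {n : ℕ} (hn : 0 < n) {b b' : Ω} (h : b ^ n = b' ^ n)
    (hb : v.GT (b - 1) (v.w (n : Ω))) (hb' : v.GT (b' - 1) (v.w (n : Ω))) : b' = b := by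
  have hn0 := w_natCast_nonneg (v := v) (Ω := Ω) hn
  have hbE : v.EQ b 0 := by
    have := (RVal.EQ_one (v := v)).add_GT (hb.mono hn0)
    rwa [add_sub_cancel] at this
  have h3 : (b' * b⁻¹) ^ n = 1 := by
    rw [mul_pow, inv_pow, ← h, mul_inv_cancel₀ (pow_ne_zero n hbE.1)]
  have h4 : v.GT (b' * b⁻¹ - 1) (v.w (n : Ω)) := by
    have e : b' * b⁻¹ - 1 = ((b' - 1) - (b - 1)) * b⁻¹ := by
      rw [sub_sub_sub_cancel_right, sub_mul, mul_inv_cancel₀ hbE.1]
    rw [e]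
    simpa using (hb'.sub hb).mul_GE (hbE.inv.GE (b := 0) (by simp))
  have h5 := eq_one_of_pow_eq_one hn h3 h4
  rwa [mul_inv_eq_one₀ hbE.1] at h5

open Polynomial in
/-- existence of a root close to `1` -/
theorem exists_root_aux [IsAlgClosed Ω] {n : ℕ} (hn : 0 < n) {u : Ω}
    (h : v.GT (u - 1) (2 * v.w (n : Ω))) : ∃ b : Ω, b ^ n = u ∧ v.GT (b - 1) (v.w (n : Ω)) := by
  by_cases hu : u = 1
  · exact ⟨1, by rw [one_pow, hu], by simpa using RVal.GT_zero (v := v) _⟩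
  have hn0 : (n : Ω) ≠ 0 := by exact_mod_cast hn.ne'
  set f : Polynomial Ω := X ^ n - C u with hf
  have hf0 : f ≠ 0 := X_pow_sub_C_ne_zero hn u
  have hev : f.eval 1 = 1 - u := by simp [hf]
  have hev0 : f.eval 1 ≠ 0 := by
    rw [hev]; exact sub_ne_zero.2 (Ne.symm hu)
  have hder : f.derivative.eval 1 = n := by simp [hf, derivative_X_pow]
  have key := (IsAlgClosed.splits f).eval_derivative_div_eval_of_ne_zero hev0
  rw [hder, hev] at key
  have h1u : v.w (1 - u) = v.w (u - 1) := by rw [← RVal.w_neg, neg_sub]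
  have hlt : 2 * v.w (n : Ω) < v.w (1 - u) := by
    rw [h1u]; exact h.lt_w (sub_ne_zero.2 hu)
  have hL : v.w ((n : Ω) / (1 - u)) < - v.w (n : Ω) := by
    rw [RVal.w_div hn0 (sub_ne_zero.2 (Ne.symm hu))]
    linarith
  have hL0 : (n : Ω) / (1 - u) ≠ 0 := div_ne_zero hn0 (sub_ne_zero.2 (Ne.symm hu))
  by_contra hcon
  push Not at hcon
  have hall : ∀ x ∈ f.roots.map (fun z => 1 / (1 - z)), v.GE x (- v.w (n : Ω)) := by
    intro x hx
    obtain ⟨z, hz, rfl⟩ := Multiset.mem_map.1 hx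
    have hz' : z ^ n = u := by
      have := (mem_roots hf0).1 hz
      rw [IsRoot.def, hf] at this
      simpa [sub_eq_zero] using this
    have h2 := hcon z hz'
    by_cases hz1 : 1 - z = 0
    · left; rw [hz1, div_zero]
    · right
      rw [one_div, RVal.w_inv hz1]
      have h3 : ¬ v.w (n : Ω) < v.w (z - 1) := fun h3 => h2 (Or.inr h3)
      have h4 : v.w (1 - z) = v.w (z - 1) := by rw [← RVal.w_neg, neg_sub]
      rw [h4]
      linarith
  have := (GE_multiset_sum _ _ hall).le_w (by rw [← key]; exact hL0)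
  rw [← key] at this
  linarith

/-- **Hensel** : `U^(2 w(n) +)` consists of `n`-th powers -/
theorem exists_root [IsAlgClosed Ω] (hH : Pres v H) {n : ℕ} (hn : 0 < n) {u : Ω} (hu : u ∈ Fx H)
    (h : v.GT (u - 1) (2 * v.w (n : Ω))) :
    ∃ b ∈ Fx H, b ^ n = u ∧ v.GT (b - 1) (v.w (n : Ω)) := by
  obtain ⟨b, hb, hb1⟩ := exists_root_aux hn h
  refine ⟨b, mem_Fx.2 fun σ hσ => ?_, hb, hb1⟩
  refine root_unique hn ?_ hb1 ?_
  · rw [← map_pow, hb, mem_Fx.1 hu σ hσ]
  · have := hH.GT hσ hb1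
    rwa [map_sub, map_one] at this

/-- lifting roots of unity of order prime to the residue characteristic
(apply `exists_root` to `u = (x^M)⁻¹`) -/
theorem exists_rootOfUnity [IsAlgClosed Ω] (hH : Pres v H) {M : ℕ} (hM : 0 < M)
    (hMv : v.w (M : Ω) = 0) {x : Ω} (hx : x ∈ Fx H) (h : v.GT (x ^ M - 1) 0) :
    ∃ η ∈ Fx H, η ^ M = 1 ∧ v.GT (η - x) 0 := by
  have hxM : v.EQ (x ^ M) 0 := by
    have := (RVal.EQ_one (v := v)).add_GT h
    rwa [add_sub_cancel] at this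
  have hx0 : x ≠ 0 := by
    rintro rfl
    exact hxM.1 (zero_pow hM.ne')
  have hxE : v.EQ x 0 := by
    refine ⟨hx0, ?_⟩
    have h2 := RVal.w_pow (v := v) hx0 M
    rw [hxM.2] at h2
    have hM' : (M : ℝ) ≠ 0 := by exact_mod_cast hM.ne'
    exact (mul_eq_zero.1 h2.symm).resolve_left hM'
  have hu : (x ^ M)⁻¹ ∈ Fx H := inv_mem (pow_mem hx M)
  have hu1 : v.GT ((x ^ M)⁻¹ - 1) (2 * v.w (M : Ω)) := by
    have e : (x ^ M)⁻¹ - 1 = -(x ^ M - 1) * (x ^ M)⁻¹ := by
      rw [neg_sub, sub_mul, one_mul, mul_inv_cancel₀ hxM.1]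
    rw [e, hMv]
    simpa using h.neg.mul_GE (hxM.inv.GE (by simp))
  obtain ⟨b, hb, hbM, hb1⟩ := exists_root hH hM hu hu1
  refine ⟨b * x, mul_mem hb hx, ?_, ?_⟩
  · rw [mul_pow, hbM, inv_mul_cancel₀ hxM.1]
  · have e : b * x - x = (b - 1) * x := by ring
    rw [e]
    rw [hMv] at hb1
    simpa using hb1.mul_GE (hxE.GE le_rfl)

end Fermat.Agent.S55.B
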