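import Fermat.Agent.S55.B.Unram

/-!
# S55/B : units are norms from unramified extensions      (key `S55/B-U2`)

`h : LF v H π q Q`, `ζ` a primitive `(Q^n-1)`-th root of unity, `φ ∈ H`, `φ ζ = ζ^Q`, `E = Fx H`, `E_n = Fx (stab H ζ)`,
`N = Nm φ n`, `T = Tr φ n`.

1. `exists_trace_unit`: there is `j < n` with `w (T (ζ^j)) = 0`.  [Otherwise `∑_i (ζ^(Q^i))^j ≡ 0` for all `j < n`: the
   Vandermonde matrix of the `n` distinct residues of `ζ^(Q^i)` kills the vector `(1,...,1)`.]  Hence for every integral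
   `c ∈ E` there is an integral `b ∈ E_n` with `T b = c` (`b = c ζ^j / T(ζ^j)`, `Tr_mul_of_fixed`).
2. `N(ζ^a) = ζ^(a (1 + Q + ... + Q^(n-1))) = ω^a`, `ω = ζ^((Q^n-1)/(Q-1))` a primitive `(Q-1)`-th root of unity
   (`IsPrimitiveRoot.pow`, `Nat.geomSum_eq`/`geom_sum_mul`).  By `exists_teich_unit` every unit `u ∈ E` is
   `ω^a u₁`, `w (u₁ - 1) > 0`, i.e. `≥ w π`.
3. `step`: `u ∈ E`, `w (u - 1) ≥ k w π`, `k ≥ 1`.  `u = 1 + π^k c`, `c ∈ E` integral, `c = T b`.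
   `N (1 + π^k b) = ∏_i (1 + π^k φ^i b) ≡ 1 + π^k T b` modulo `π^(2k)`
   (general lemma: `∏_{i∈s} (1 + t x_i) - 1 - t ∑ x_i ∈ t² O` for integral `x_i`, induction on `s`), so
   `u / N(1 + π^k b)` is `≡ 1` modulo `π^(k+1)`.
4. termination: if `k w π > 2 w n` then `u = t^n = N t` with `t ∈ E` (`exists_root`, `Nm_of_fixed`).
   Downward induction on `k` (`Nat.decreasingInduction` / strong induction on `k₀ - k`).
-/

set_option autoImplicit false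

namespace Fermat.Agent.S55.B

open Fermat.Agent.S05

variable {K Ω : Type*} [Field K] [Field Ω] [Algebra K Ω] [CharZero Ω] [IsAlgClosed Ω]
variable {H : Subgroup (Ω ≃ₐ[K] Ω)} {v : RVal Ω} {π : Ω} {q Q : ℕ}

/-- there is `j < n` such that the trace of `ζ^j` is a unit -/
theorem exists_trace_unit (h : LF v H π q Q) {n : ℕ} (hn : 0 < n) {ζ : Ω}
    (hζ : IsPrimitiveRoot ζ (Q ^ n - 1)) {φ : Ω ≃ₐ[K] Ω} (hφζ : φ ζ = ζ ^ Q) :
    ∃ j < n, v.EQ (Tr φ n (ζ ^ j)) 0 := by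
  have hζ0 : v.GE ζ 0 := (frobAux_EQ h hn hζ).GE le_rfl
  have hz : ∀ i, v.GE (ζ ^ (Q ^ i)) 0 := fun i => by simpa using hζ0.pow (Q ^ i)
  have hTr : ∀ j, Tr φ n (ζ ^ j) = ∑ i ∈ Finset.range n, 1 * (ζ ^ (Q ^ i)) ^ j := fun j =>
    Finset.sum_congr rfl fun i _ => by rw [map_pow, frobAux_pow_apply hφζ, one_mul]
  by_contra hcon
  push Not at hcon
  have key := GT_of_vdm_vecMul v (fun i => ζ ^ (Q ^ i)) (fun _ => 1) (fun i _ => hz i)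
    (frobAux_incongr h hn hζ) (fun _ _ => (RVal.EQ_one (v := v)).GE le_rfl) (fun j hj => by
      have h1 := hcon j hj
      rw [hTr j] at h1
      refine (GT_iff_not_EQ v (GE_sum v _ _ 0 fun i _ => ?_)).2 h1
      simpa using (hz i).pow j) 0 hn
  exact (GT_iff_not_EQ v ((RVal.EQ_one (v := v)).GE le_rfl)).1 key RVal.EQ_one

/-- the trace is onto on the rings of integers -/
theorem exists_trace_eq (h : LF v H π q Q) {n : ℕ} (hn : 0 < n) {ζ : Ω}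
    (hζ : IsPrimitiveRoot ζ (Q ^ n - 1)) {φ : Ω ≃ₐ[K] Ω} (hφ : φ ∈ H) (hφζ : φ ζ = ζ ^ Q)
    {c : Ω} (hc : c ∈ Fx H) (hc0 : v.GE c 0) :
    ∃ b ∈ Fx (stab H ζ), v.GE b 0 ∧ Tr φ n b = c := by
  have hcyc := cyc_stab h hn hζ hφ hφζ
  obtain ⟨j, -, hj⟩ := exists_trace_unit h hn hζ hφζ
  have hζj : ζ ^ j ∈ Fx (stab H ζ) := pow_mem (mem_Fx_stab H ζ) j
  have ht : Tr φ n (ζ ^ j) ∈ Fx H := hcyc.Tr_mem hζj
  have hct : c / Tr φ n (ζ ^ j) ∈ Fx H := (Fx H).div_mem hc ht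
  refine ⟨c / Tr φ n (ζ ^ j) * ζ ^ j, (Fx (stab H ζ)).mul_mem (Fx_mono (stab_le H ζ) hct) hζj,
    ?_, ?_⟩
  · have h1 : v.GE (c / Tr φ n (ζ ^ j)) 0 := by
      rw [div_eq_mul_inv]
      simpa using hc0.mul (hj.inv.GE le_rfl)
    have h2 : v.GE (ζ ^ j) 0 := by simpa using ((frobAux_EQ h hn hζ).GE le_rfl).pow j
    simpa using h1.mul h2
  · rw [Tr_mul_of_fixed (mem_Fx.1 hct φ hφ), div_mul_cancel₀ _ hj.1]

/-- `N ζ` is a primitive `(Q-1)`-th root of unity -/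
theorem isPrimitiveRoot_Nm (h : LF v H π q Q) {n : ℕ} (hn : 0 < n) {ζ : Ω}
    (hζ : IsPrimitiveRoot ζ (Q ^ n - 1)) {φ : Ω ≃ₐ[K] Ω} (hφζ : φ ζ = ζ ^ Q) :
    IsPrimitiveRoot (Nm φ n ζ) (Q - 1) := by
  have e : Nm φ n ζ = ζ ^ (∑ i ∈ Finset.range n, Q ^ i) := by
    rw [Nm, ← Finset.prod_pow_eq_pow_sum]
    exact Finset.prod_congr rfl fun i _ => frobAux_pow_apply hφζ i
  rw [e]
  refine hζ.pow (frobAux_pos h hn) ?_
  have h1 := geom_sum_mul_add (Q - 1) n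
  have hQ := h.one_lt
  rw [Nat.sub_add_cancel hQ.le] at h1
  omega

/-- one step of the approximation and the termination, by induction on `d` with `k₀ ≤ k + d` -/
theorem norm_unit_aux (h : LF v H π q Q) {n : ℕ} (hn : 0 < n) {ζ : Ω}
    (hζ : IsPrimitiveRoot ζ (Q ^ n - 1)) {φ : Ω ≃ₐ[K] Ω} (hφ : φ ∈ H) (hφζ : φ ζ = ζ ^ Q)
    {k₀ : ℕ} (hk₀ : 2 * v.w (n : Ω) < k₀ * v.w π) (d : ℕ) :
    ∀ k : ℕ, 1 ≤ k → k₀ ≤ k + d → ∀ u ∈ Fx H, v.GE (u - 1) (k * v.w π) →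
      ∃ y ∈ Fx (stab H ζ), v.EQ y 0 ∧ Nm φ n y = u := by
  have hcyc := cyc_stab h hn hζ hφ hφζ
  have hπpos := h.unif.pos
  have hπ := h.unif.ne
  -- elements close to `1` are units
  have hunit : ∀ (k : ℕ), 1 ≤ k → ∀ u : Ω, v.GE (u - 1) (k * v.w π) → v.EQ u 0 := by
    intro k hk u hu
    have hk' : (1 : ℝ) ≤ k := by exact_mod_cast hk
    have h1 : v.GT (u - 1) 0 := hu.GT (by nlinarith)
    have := (RVal.EQ_one (v := v)).add_GT h1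
    rwa [add_sub_cancel] at this
  induction d with
  | zero =>
    intro k hk hkk u hu huk
    have hkk' : (k₀ : ℝ) ≤ k := by exact_mod_cast (by omega : k₀ ≤ k)
    have h1 : v.GT (u - 1) (2 * v.w (n : Ω)) := huk.GT (by nlinarith)
    obtain ⟨b, hb, hbn, -⟩ := exists_root h.pres hn hu h1
    have hu0 := hunit k hk u huk
    have hb0 : b ≠ 0 := by
      rintro rfl
      rw [zero_pow hn.ne'] at hbn
      exact hu0.1 hbn.symm
    refine ⟨b, Fx_mono (stab_le H ζ) hb, ⟨hb0, ?_⟩, ?_⟩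
    · have h2 := hu0.2
      rw [← hbn, RVal.w_pow hb0] at h2
      have hn' : (n : ℝ) ≠ 0 := by exact_mod_cast hn.ne'
      exact (mul_eq_zero.1 h2).resolve_left hn'
    · rw [Nm_of_fixed (mem_Fx.1 hb φ hφ), hbn]
  | succ d ih =>
    intro k hk hkk u hu huk
    have hk' : (1 : ℝ) ≤ k := by exact_mod_cast hk
    have hπk : v.EQ (π ^ k) (k * v.w π) := (RVal.EQ_self hπ).pow k
    have hπkmem : π ^ k ∈ Fx H := pow_mem h.unif.mem k
    have hc : (u - 1) / π ^ k ∈ Fx H := (Fx H).div_mem ((Fx H).sub_mem hu (Fx H).one_mem) hπkmem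
    have hc0 : v.GE ((u - 1) / π ^ k) 0 := by
      rw [div_eq_mul_inv]
      exact (huk.mul (hπk.inv.GE le_rfl)).mono (by linarith)
    obtain ⟨b, hb, hb0, hTb⟩ := exists_trace_eq h hn hζ hφ hφζ hc hc0
    have hy1mem : 1 + π ^ k * b ∈ Fx (stab H ζ) :=
      (Fx (stab H ζ)).add_mem (Fx (stab H ζ)).one_mem
        ((Fx (stab H ζ)).mul_mem (Fx_mono (stab_le H ζ) hπkmem) hb)
    have hy1 : v.EQ (1 + π ^ k * b) 0 := by
      refine (RVal.EQ_one (v := v)).add_GT ?_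
      exact ((hπk.GE le_rfl).mul hb0).GT (by nlinarith)
    have hN : Nm φ n (1 + π ^ k * b) = ∏ i ∈ Finset.range n, (1 + π ^ k * (φ ^ i) b) :=
      Finset.prod_congr rfl fun i _ => by
        rw [map_add, map_one, map_mul, mem_Fx.1 hπkmem _ (H.pow_mem hφ i)]
    have hclose : v.GE (Nm φ n (1 + π ^ k * b) - u) (2 * (k * v.w π)) := by
      have h1 := GE_prod_one_add v (Finset.range n) (fun i => (φ ^ i) b) (π ^ k)
        (a := k * v.w π) (by positivity) (hπk.GE le_rfl)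
        (fun i _ => h.pres.GE (H.pow_mem hφ i) hb0)
      have e : ∑ i ∈ Finset.range n, (φ ^ i) b = (u - 1) / π ^ k := hTb
      rw [← hN, e, mul_div_cancel₀ _ hπk.1] at h1
      have e2 : Nm φ n (1 + π ^ k * b) - u = Nm φ n (1 + π ^ k * b) - 1 - (u - 1) := by ring
      rwa [e2]
    have hN0 : v.EQ (Nm φ n (1 + π ^ k * b)) 0 :=
      ⟨Nm_ne_zero φ n hy1.1, by rw [w_Nm h.pres hφ n hy1.1, hy1.2, mul_zero]⟩
    have hNmem : Nm φ n (1 + π ^ k * b) ∈ Fx H := hcyc.Nm_mem hy1mem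
    have hu' : v.GE (u / Nm φ n (1 + π ^ k * b) - 1) (((k + 1 : ℕ) : ℝ) * v.w π) := by
      have e : u / Nm φ n (1 + π ^ k * b) - 1 =
          -(Nm φ n (1 + π ^ k * b) - u) * (Nm φ n (1 + π ^ k * b))⁻¹ := by
        field_simp [hN0.1]
        ring
      rw [e]
      refine (hclose.neg.mul (hN0.inv.GE le_rfl)).mono ?_
      push_cast
      nlinarith
    obtain ⟨y₂, hy₂, hy₂0, hNy₂⟩ := ih (k + 1) (by omega) (by omega) _
      ((Fx H).div_mem hu hNmem) hu'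
    refine ⟨(1 + π ^ k * b) * y₂, (Fx (stab H ζ)).mul_mem hy1mem hy₂, ?_, ?_⟩
    · simpa using hy1.mul hy₂0
    · rw [Nm_mul, hNy₂, mul_div_cancel₀ _ hN0.1]

/-- **units are norms of units** -/
theorem exists_norm_unit (h : LF v H π q Q) {n : ℕ} (hn : 0 < n) {ζ : Ω}
    (hζ : IsPrimitiveRoot ζ (Q ^ n - 1)) {φ : Ω ≃ₐ[K] Ω} (hφ : φ ∈ H) (hφζ : φ ζ = ζ ^ Q)
    {u : Ω} (hu : u ∈ Fx H) (hu0 : v.EQ u 0) :
    ∃ y ∈ Fx (stab H ζ), v.EQ y 0 ∧ Nm φ n y = u := by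
  have hcyc := cyc_stab h hn hζ hφ hφζ
  have hω := isPrimitiveRoot_Nm h hn hζ hφζ
  have hωmem : Nm φ n ζ ∈ Fx H := hcyc.Nm_mem (mem_Fx_stab H ζ)
  have hζ0 := frobAux_EQ h hn hζ
  have hω0 : v.EQ (Nm φ n ζ) 0 :=
    ⟨Nm_ne_zero φ n hζ0.1, by rw [w_Nm h.pres hφ n hζ0.1, hζ0.2, mul_zero]⟩
  obtain ⟨a, ha⟩ := exists_teich_unit h hω hu hu0
  have hωa : v.EQ (Nm φ n ζ ^ a) 0 := by simpa using hω0.pow a
  have hωamem : Nm φ n ζ ^ a ∈ Fx H := pow_mem hωmem a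
  have hu1mem : u / Nm φ n ζ ^ a ∈ Fx H := (Fx H).div_mem hu hωamem
  have hu1 : v.GT (u / Nm φ n ζ ^ a - 1) 0 := by
    have e : u / Nm φ n ζ ^ a - 1 = (u - Nm φ n ζ ^ a) * (Nm φ n ζ ^ a)⁻¹ := by
      field_simp [hωa.1]
    rw [e]
    simpa using ha.mul_GE (hωa.inv.GE le_rfl)
  have hu1' : v.GE (u / Nm φ n ζ ^ a - 1) (((1 : ℕ) : ℝ) * v.w π) := by
    by_cases h0 : u / Nm φ n ζ ^ a - 1 = 0
    · exact Or.inl h0
    · obtain ⟨m, hm⟩ := h.unif.gen _ ((Fx H).sub_mem hu1mem (Fx H).one_mem) h0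
      have h1 := hu1.lt_w h0
      rw [hm] at h1
      have hm0 : 0 < m := by
        by_contra hcon
        have : (m : ℝ) ≤ 0 := by exact_mod_cast not_lt.1 hcon
        nlinarith [h.unif.pos]
      have hm1 : (1 : ℝ) ≤ m := by exact_mod_cast hm0
      refine Or.inr ?_
      rw [hm]
      push_cast
      nlinarith [h.unif.pos]
  obtain ⟨k₀, hk₀⟩ := exists_nat_gt (2 * v.w (n : Ω) / v.w π)
  have hk₀' : 2 * v.w (n : Ω) < k₀ * v.w π := (div_lt_iff₀ h.unif.pos).1 hk₀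
  obtain ⟨y, hy, hy0, hNy⟩ := norm_unit_aux h hn hζ hφ hφζ hk₀' k₀ 1 le_rfl (by omega) _ hu1mem hu1'
  refine ⟨ζ ^ a * y, (Fx (stab H ζ)).mul_mem (pow_mem (mem_Fx_stab H ζ) a) hy,
    ?_, ?_⟩
  · simpa using (hζ0.pow a).mul hy0
  · rw [Nm_mul, Nm_pow, hNy, mul_div_cancel₀ _ hωa.1]

/-- the norm group of `E_n / E`: `x ∈ Eˣ` is a norm iff `n ∣ ord x` -/
theorem norm_iff (h : LF v H π q Q) {n : ℕ} (hn : 0 < n) {ζ : Ω}
    (hζ : IsPrimitiveRoot ζ (Q ^ n - 1)) {φ : Ω ≃ₐ[K] Ω} (hφ : φ ∈ H) (hφζ : φ ζ = ζ ^ Q)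
    {x : Ω} (hx : x ∈ Fx H) (hx0 : x ≠ 0) :
    (∃ y ∈ Fx (stab H ζ), Nm φ n y = x) ↔ ∃ k : ℤ, v.w x = (n * k : ℤ) * v.w π := by
  constructor
  · rintro ⟨y, hy, hNy⟩
    have hy0 : y ≠ 0 := by
      rintro rfl
      rw [(Nm_eq_zero_iff φ hn).2 rfl] at hNy
      exact hx0 hNy.symm
    obtain ⟨k, hk⟩ := (lf_stab h hn hζ).unif.gen y hy hy0
    refine ⟨k, ?_⟩
    rw [← hNy, w_Nm h.pres hφ n hy0, hk]
    push_cast
    ring
  · rintro ⟨k, hk⟩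
    have hπ := h.unif.ne
    have hπk : v.EQ (π ^ k) (k * v.w π) := ⟨zpow_ne_zero k hπ, RVal.w_zpow hπ k⟩
    have hπkmem : π ^ k ∈ Fx H := zpow_mem h.unif.mem k
    have hπkn : v.EQ ((π ^ k) ^ n) (n * (k * v.w π)) := hπk.pow n
    have hu : x / (π ^ k) ^ n ∈ Fx H := (Fx H).div_mem hx (pow_mem hπkmem n)
    have hx' : v.EQ x ((n * k : ℤ) * v.w π) := ⟨hx0, hk⟩
    have hu0 : v.EQ (x / (π ^ k) ^ n) 0 := (hx'.div hπkn).of_eq (by push_cast; ring)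
    obtain ⟨y, hy, -, hNy⟩ := exists_norm_unit h hn hζ hφ hφζ hu hu0
    refine ⟨y * π ^ k, (Fx (stab H ζ)).mul_mem hy (Fx_mono (stab_le H ζ) hπkmem), ?_⟩
    rw [Nm_mul, hNy, Nm_of_fixed (mem_Fx.1 hπkmem φ hφ), div_mul_cancel₀ _ hπkn.1]

end Fermat.Agent.S55.B
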